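/-
S26 / Curve : a smooth proper curve over `K` given by two Dedekind charts, line bundles on
`C × Spec R` (`CMod C R`), families of such (`CFam`).
-/
import Fermat.Agent.S26.P1.Defs

set_option autoImplicit false

open scoped TensorProduct

universe u

namespace Fermat.Agent.S26

/-- A smooth proper curve over `K`: `B0` is finite free over `K[x]`, `B1` over `K[y]`, `y = 1/x`,
`B01 = B0[1/x] = B1[1/y]`. -/
structure Curve (K : Type u) [Field K] where
  B0 : Type u
  B1 : Type u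
  B01 : Type u
  [cr0 : CommRing B0]
  [cr1 : CommRing B1]
  [cr01 : CommRing B01]
  [alg0 : Algebra K B0]
  [alg1 : Algebra K B1]
  [alg01 : Algebra K B01]
  [dom01 : IsDomain B01]
  [ded0 : IsDedekindDomain B0]
  [ded1 : IsDedekindDomain B1]
  j0 : B0 →ₐ[K] B01
  j1 : B1 →ₐ[K] B01
  j0_inj : Function.Injective j0
  j1_inj : Function.Injective j1
  x : B0
  y : B1
  xy : j0 x * j1 y = 1
  loc0 : ∀ b : B01, ∃ (n : ℕ) (a : B0), b * j0 x ^ n = j0 a
  loc1 : ∀ b : B01, ∃ (n : ℕ) (a : B1), b * j1 y ^ n = j1 a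
  /-- rank of `B0` over `K[x]` -/
  r : ℕ
  e0 : Fin r → B0
  e1 : Fin r → B1
  basis0 : ∀ b : B0, ∃! p : Fin r → Polynomial K, b = ∑ i, Polynomial.aeval x (p i) * e0 i
  basis1 : ∀ b : B1, ∃! p : Fin r → Polynomial K, b = ∑ i, Polynomial.aeval y (p i) * e1 i
  /-- global functions are constant -/
  const : ∀ (a : B0) (b : B1), j0 a = j1 b → ∃ c : K, a = algebraMap K B0 c

attribute [instance] Curve.cr0 Curve.cr1 Curve.cr01 Curve.alg0 Curve.alg1 Curve.alg01
  Curve.dom01 Curve.ded0 Curve.ded1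

variable {K : Type u} [Field K]

namespace Curve

variable (C : Curve K) (R : Type u) [CommRing R] [Algebra K R]

/-- coordinate rings of the charts of `C × Spec R` -/
abbrev S0 : Type u := R ⊗[K] C.B0
abbrev S1 : Type u := R ⊗[K] C.B1
abbrev S01 : Type u := R ⊗[K] C.B01

/-- restriction to the overlap -/
abbrev J0 : C.S0 R →ₐ[K] C.S01 R := Algebra.TensorProduct.map (AlgHom.id K R) C.j0
abbrev J1 : C.S1 R →ₐ[K] C.S01 R := Algebra.TensorProduct.map (AlgHom.id K R) C.j1

variable {R} {R' : Type u} [CommRing R'] [Algebra K R']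

/-- base change of the charts along `φ : R → R'` -/
abbrev m0 (φ : R →ₐ[K] R') : C.S0 R →ₐ[K] C.S0 R' := Algebra.TensorProduct.map φ (AlgHom.id K C.B0)
abbrev m1 (φ : R →ₐ[K] R') : C.S1 R →ₐ[K] C.S1 R' := Algebra.TensorProduct.map φ (AlgHom.id K C.B1)
abbrev m01 (φ : R →ₐ[K] R') : C.S01 R →ₐ[K] C.S01 R' :=
  Algebra.TensorProduct.map φ (AlgHom.id K C.B01)

end Curve

/-- a line bundle on `C × Spec R` -/
structure CMod (C : Curve K) (R : Type u) [CommRing R] [Algebra K R] where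
  N0 : Type u
  N1 : Type u
  N01 : Type u
  [acg0 : AddCommGroup N0]
  [acg1 : AddCommGroup N1]
  [acg01 : AddCommGroup N01]
  [mod0 : Module (C.S0 R) N0]
  [mod1 : Module (C.S1 R) N1]
  [mod01 : Module (C.S01 R) N01]
  inv0 : Module.Invertible (C.S0 R) N0
  inv1 : Module.Invertible (C.S1 R) N1
  inv01 : Module.Invertible (C.S01 R) N01
  r0 : N0 →ₛₗ[(C.J0 R).toRingHom] N01
  r1 : N1 →ₛₗ[(C.J1 R).toRingHom] N01
  span0 : Submodule.span (C.S01 R) (Set.range r0) = ⊤
  span1 : Submodule.span (C.S01 R) (Set.range r1) = ⊤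

attribute [instance] CMod.acg0 CMod.acg1 CMod.acg01 CMod.mod0 CMod.mod1 CMod.mod01

namespace CMod

variable {C : Curve K} {R R' : Type u} [CommRing R] [Algebra K R] [CommRing R'] [Algebra K R']

/-- a morphism of line bundles over `φ : R → R'` -/
structure Hom (φ : R →ₐ[K] R') (N : CMod C R) (N' : CMod C R') where
  f0 : N.N0 →ₛₗ[(C.m0 φ).toRingHom] N'.N0
  f1 : N.N1 →ₛₗ[(C.m1 φ).toRingHom] N'.N1
  f01 : N.N01 →ₛₗ[(C.m01 φ).toRingHom] N'.N01
  comm0 : ∀ n, f01 (N.r0 n) = N'.r0 (f0 n)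
  comm1 : ∀ n, f01 (N.r1 n) = N'.r1 (f1 n)

/-- the morphism exhibits `N'` as the pull back of `N` along `Spec R' → Spec R` -/
structure Hom.IsPullback {φ : R →ₐ[K] R'} {N : CMod C R} {N' : CMod C R'} (f : Hom φ N N') :
    Prop where
  span0 : Submodule.span (C.S0 R') (Set.range f.f0) = ⊤
  span1 : Submodule.span (C.S1 R') (Set.range f.f1) = ⊤
  span01 : Submodule.span (C.S01 R') (Set.range f.f01) = ⊤

/-- an isomorphism of line bundles on `C × Spec R` -/
structure Iso (N N' : CMod C R) where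
  e0 : N.N0 ≃ₗ[C.S0 R] N'.N0
  e1 : N.N1 ≃ₗ[C.S1 R] N'.N1
  e01 : N.N01 ≃ₗ[C.S01 R] N'.N01
  comm0 : ∀ n, e01 (N.r0 n) = N'.r0 (e0 n)
  comm1 : ∀ n, e01 (N.r1 n) = N'.r1 (e1 n)

end CMod

/-! ### auxiliary lemmas for `CMod.toP1Mod` -/

section CurveDefsAux

theorem CurveDefs_end_pow_apply {R M S : Type*} [Semiring R] [AddCommMonoid M] [Module R M]
    [Monoid S] [MulAction S M] (f : M →ₗ[R] M) (X : S) (hf : ∀ m, f m = X • m) (n : ℕ) (m : M) :
    (f ^ n) m = X ^ n • m := by
  induction n generalizing m with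
  | zero => simp
  | succ n ih => rw [pow_succ, Module.End.mul_apply, hf, ih, pow_succ, mul_smul]

theorem CurveDefs_equiv_pow_apply {R M S : Type*} [Semiring R] [AddCommMonoid M] [Module R M]
    [Monoid S] [MulAction S M] (e : M ≃ₗ[R] M) (X : S) (he : ∀ m, e m = X • m) (n : ℕ) (m : M) :
    (e ^ n) m = X ^ n • m := by
  induction n generalizing m with
  | zero => simp
  | succ n ih => rw [pow_succ, LinearEquiv.mul_apply, he, ih, pow_succ, mul_smul]

/-- `R ⊗ B' = (R ⊗ B)[1/x]` -/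
theorem CurveDefs_loc {K R B B' : Type*} [CommRing K] [CommRing R] [Algebra K R] [CommRing B]
    [Algebra K B] [CommRing B'] [Algebra K B'] (j : B →ₐ[K] B') (x : B)
    (hloc : ∀ b : B', ∃ (n : ℕ) (a : B), b * j x ^ n = j a) (t : R ⊗[K] B') :
    ∃ (n : ℕ) (a : R ⊗[K] B),
      t * ((1 : R) ⊗ₜ[K] j x) ^ n = Algebra.TensorProduct.map (AlgHom.id K R) j a := by
  induction t using TensorProduct.induction_on with
  | zero => exact ⟨0, 0, by simp⟩
  | tmul r b =>
    obtain ⟨n, a, h⟩ := hloc b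
    refine ⟨n, r ⊗ₜ a, ?_⟩
    rw [Algebra.TensorProduct.tmul_pow, one_pow, Algebra.TensorProduct.tmul_mul_tmul, mul_one, h]
    simp
  | add s t hs ht =>
    obtain ⟨n, a, h⟩ := hs
    obtain ⟨m, b, h'⟩ := ht
    refine ⟨n + m, a * ((1 : R) ⊗ₜ[K] x) ^ m + b * ((1 : R) ⊗ₜ[K] x) ^ n, ?_⟩
    have hx : Algebra.TensorProduct.map (AlgHom.id K R) j ((1 : R) ⊗ₜ[K] x) = (1 : R) ⊗ₜ[K] j x := by
      simp
    rw [map_add, map_mul, map_mul, map_pow, map_pow, ← h, ← h', hx]
    ring

/-- `N' = N[1/x]` -/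
theorem CurveDefs_surj {S T N N' : Type*} [CommRing S] [CommRing T] [AddCommGroup N] [Module S N]
    [AddCommGroup N'] [Module T N'] (J : S →+* T) (r : N →ₛₗ[J] N') (X : S) (X' : T)
    (hX : J X = X') (hloc : ∀ t : T, ∃ (n : ℕ) (a : S), t * X' ^ n = J a)
    (hspan : Submodule.span T (Set.range r) = ⊤) (q : N') :
    ∃ (n : ℕ) (p : N), X' ^ n • q = r p := by
  have hq : q ∈ Submodule.span T (Set.range r) := hspan ▸ Submodule.mem_top
  induction hq using Submodule.span_induction with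
  | mem q hq =>
    obtain ⟨p, rfl⟩ := hq
    exact ⟨0, p, by simp⟩
  | zero => exact ⟨0, 0, by simp⟩
  | add q q' _ _ h h' =>
    obtain ⟨n, p, h⟩ := h
    obtain ⟨m, p', h'⟩ := h'
    refine ⟨n + m, X ^ m • p + X ^ n • p', ?_⟩
    rw [map_add, map_smulₛₗ, map_smulₛₗ, map_pow, map_pow, hX, ← h, ← h', smul_add, smul_smul,
      smul_smul, ← pow_add, ← pow_add, add_comm m n]
  | smul t q _ h =>
    obtain ⟨n, p, h⟩ := h
    obtain ⟨m, a, h'⟩ := hloc t
    refine ⟨m + n, a • p, ?_⟩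
    rw [map_smulₛₗ, ← h, ← h', smul_smul, smul_smul]
    congr 1
    ring

/-- `R ⊗ B` is spanned over `R` by the `x ^ n e_i` -/
theorem CurveDefs_span_tensor {K R B : Type*} [CommRing K] [CommRing R] [Algebra K R] [CommRing B]
    [Algebra K B] (x : B) {ι : Type*} [Fintype ι] (e : ι → B)
    (hb : ∀ b : B, ∃ p : ι → Polynomial K, b = ∑ i, Polynomial.aeval x (p i) * e i) :
    Submodule.span R {s : R ⊗[K] B | ∃ (n : ℕ) (i : ι),
      s = ((1 : R) ⊗ₜ[K] x) ^ n * ((1 : R) ⊗ₜ[K] e i)} = ⊤ := by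
  set M := Submodule.span R {s : R ⊗[K] B | ∃ (n : ℕ) (i : ι),
      s = ((1 : R) ⊗ₜ[K] x) ^ n * ((1 : R) ⊗ₜ[K] e i)} with hM
  have h1 : ∀ (P : Polynomial K) (i : ι), (1 : R) ⊗ₜ[K] (Polynomial.aeval x P * e i) ∈ M := by
    intro P i
    induction P using Polynomial.induction_on' with
    | add P Q hP hQ =>
      rw [map_add, add_mul, TensorProduct.tmul_add]
      exact M.add_mem hP hQ
    | monomial n c =>
      have h2 : (1 : R) ⊗ₜ[K] (Polynomial.aeval x (Polynomial.monomial n c) * e i)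
          = algebraMap K R c • (((1 : R) ⊗ₜ[K] x) ^ n * ((1 : R) ⊗ₜ[K] e i)) := by
        rw [Polynomial.aeval_monomial, Algebra.TensorProduct.tmul_pow, one_pow,
          Algebra.TensorProduct.tmul_mul_tmul, one_mul, TensorProduct.smul_tmul', mul_assoc,
          ← Algebra.smul_def, TensorProduct.tmul_smul, TensorProduct.smul_tmul', Algebra.smul_def,
          smul_eq_mul]
      rw [h2]
      exact M.smul_mem _ (Submodule.subset_span ⟨n, i, rfl⟩)
  rw [eq_top_iff]
  rintro t -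
  induction t using TensorProduct.induction_on with
  | zero => exact M.zero_mem
  | tmul r b =>
    obtain ⟨P, rfl⟩ := hb b
    have h3 : r ⊗ₜ[K] (∑ i, Polynomial.aeval x (P i) * e i)
        = r • ∑ i, (1 : R) ⊗ₜ[K] (Polynomial.aeval x (P i) * e i) := by
      rw [← TensorProduct.tmul_sum, TensorProduct.smul_tmul', smul_eq_mul, mul_one]
    rw [h3]
    exact M.smul_mem _ (M.sum_mem fun i _ => h1 (P i) i)
  | add s t hs ht => exact M.add_mem hs ht

/-- a finite `S`-module is finitely generated "over `R[X]`" -/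
theorem CurveDefs_fg {R S N : Type*} [CommRing R] [CommRing S] [Algebra R S] [AddCommGroup N]
    [Module S N] [Module R N] [IsScalarTower R S N] [Module.Finite S N] (X : S) {ι : Type*}
    [Fintype ι] (E : ι → S)
    (hS : Submodule.span R {s : S | ∃ (n : ℕ) (i : ι), s = X ^ n * E i} = ⊤)
    (f : N →ₗ[R] N) (hf : ∀ m, f m = X • m) :
    ∃ s : Finset N, Submodule.span R {q : N | ∃ (n : ℕ), ∃ a ∈ s, q = (f ^ n) a} = ⊤ := by
  classical
  obtain ⟨t, ht⟩ := (Module.Finite.fg_top : (⊤ : Submodule S N).FG)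
  refine ⟨(Finset.univ ×ˢ t).image (fun ia : ι × N => E ia.1 • ia.2), ?_⟩
  set M := Submodule.span R {q : N | ∃ (n : ℕ),
    ∃ a ∈ (Finset.univ ×ˢ t).image (fun ia : ι × N => E ia.1 • ia.2), q = (f ^ n) a} with hM
  have key1 : ∀ a ∈ t, ∀ c : S, c • a ∈ M := by
    intro a ha c
    have hc : c ∈ Submodule.span R {s : S | ∃ (n : ℕ) (i : ι), s = X ^ n * E i} :=
      hS ▸ Submodule.mem_top
    induction hc using Submodule.span_induction with
    | mem c hc =>
      obtain ⟨n, i, rfl⟩ := hc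
      refine Submodule.subset_span ⟨n, E i • a, ?_, ?_⟩
      · exact Finset.mem_image.2 ⟨(i, a), Finset.mem_product.2 ⟨Finset.mem_univ _, ha⟩, rfl⟩
      · rw [CurveDefs_end_pow_apply f X hf, mul_smul]
    | zero => rw [zero_smul]; exact M.zero_mem
    | add c c' _ _ h h' => rw [add_smul]; exact M.add_mem h h'
    | smul r c _ h => rw [smul_assoc]; exact M.smul_mem r h
  have key2 : ∀ n ∈ Submodule.span S (t : Set N), ∀ c : S, c • n ∈ M := by
    intro n hn
    induction hn using Submodule.span_induction with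
    | mem a ha => exact key1 a ha
    | zero => intro c; rw [smul_zero]; exact M.zero_mem
    | add a b _ _ h h' => intro c; rw [smul_add]; exact M.add_mem (h c) (h' c)
    | smul d a _ h => intro c; rw [smul_smul]; exact h _
  rw [eq_top_iff]
  intro n _
  have := key2 n (ht ▸ Submodule.mem_top) 1
  rwa [one_smul] at this

end CurveDefsAux

namespace CMod

variable {C : Curve K} {R : Type u} [CommRing R] [Algebra K R]

/-- the underlying module on `ℙ¹_R` (push forward along `x : C → ℙ¹`) -/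
noncomputable def toP1Mod (N : CMod C R) : P1Mod R where
  P0 := N.N0
  P1 := N.N1
  P01 := N.N01
  mod0 := Module.compHom N.N0 (algebraMap R (C.S0 R))
  mod1 := Module.compHom N.N1 (algebraMap R (C.S1 R))
  mod01 := Module.compHom N.N01 (algebraMap R (C.S01 R))
  x0 :=
    letI := Module.compHom N.N0 (algebraMap R (C.S0 R))
    { toFun := fun n => ((1 : R) ⊗ₜ[K] C.x : C.S0 R) • n
      map_add' := fun a b => smul_add _ a b
      map_smul' := fun r a => smul_comm _ (algebraMap R (C.S0 R) r) a }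
  y1 :=
    letI := Module.compHom N.N1 (algebraMap R (C.S1 R))
    { toFun := fun n => ((1 : R) ⊗ₜ[K] C.y : C.S1 R) • n
      map_add' := fun a b => smul_add _ a b
      map_smul' := fun r a => smul_comm _ (algebraMap R (C.S1 R) r) a }
  x01 :=
    letI := Module.compHom N.N01 (algebraMap R (C.S01 R))
    { toFun := fun n => ((1 : R) ⊗ₜ[K] C.j0 C.x : C.S01 R) • n
      invFun := fun n => ((1 : R) ⊗ₜ[K] C.j1 C.y : C.S01 R) • n
      map_add' := fun a b => smul_add _ a b
      map_smul' := fun r a => smul_comm _ (algebraMap R (C.S01 R) r) a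
      left_inv := fun n => by
        show ((1 : R) ⊗ₜ[K] C.j1 C.y : C.S01 R) • ((1 : R) ⊗ₜ[K] C.j0 C.x : C.S01 R) • n = n
        rw [smul_smul, Algebra.TensorProduct.tmul_mul_tmul, mul_one, mul_comm, C.xy]
        exact one_smul _ n
      right_inv := fun n => by
        show ((1 : R) ⊗ₜ[K] C.j0 C.x : C.S01 R) • ((1 : R) ⊗ₜ[K] C.j1 C.y : C.S01 R) • n = n
        rw [smul_smul, Algebra.TensorProduct.tmul_mul_tmul, mul_one, C.xy]
        exact one_smul _ n }
  i0 :=
    letI := Module.compHom N.N0 (algebraMap R (C.S0 R))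
    letI := Module.compHom N.N01 (algebraMap R (C.S01 R))
    { toFun := N.r0
      map_add' := N.r0.map_add
      map_smul' := fun r a => by
        refine (N.r0.map_smulₛₗ (algebraMap R (C.S0 R) r) a).trans ?_
        congr 1
        simp [Algebra.TensorProduct.algebraMap_apply] }
  i1 :=
    letI := Module.compHom N.N1 (algebraMap R (C.S1 R))
    letI := Module.compHom N.N01 (algebraMap R (C.S01 R))
    { toFun := N.r1
      map_add' := N.r1.map_add
      map_smul' := fun r a => by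
        refine (N.r1.map_smulₛₗ (algebraMap R (C.S1 R) r) a).trans ?_
        congr 1
        simp [Algebra.TensorProduct.algebraMap_apply] }
  i0_x := fun n => by
    refine (N.r0.map_smulₛₗ ((1 : R) ⊗ₜ[K] C.x : C.S0 R) n).trans ?_
    congr 1
  i1_y := fun n => by
    refine (N.r1.map_smulₛₗ ((1 : R) ⊗ₜ[K] C.y : C.S1 R) n).trans ?_
    congr 1
  surj0 := fun q => by
    obtain ⟨n, p, h⟩ := CurveDefs_surj (C.J0 R).toRingHom N.r0 ((1 : R) ⊗ₜ[K] C.x : C.S0 R)
      ((1 : R) ⊗ₜ[K] C.j0 C.x : C.S01 R) (by simp) (CurveDefs_loc C.j0 C.x C.loc0) N.span0 q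
    let _ := Module.compHom N.N01 (algebraMap R (C.S01 R))
    exact ⟨n, p, (CurveDefs_equiv_pow_apply _ ((1 : R) ⊗ₜ[K] C.j0 C.x : C.S01 R)
      (fun _ => rfl) n q).trans h⟩
  surj1 := fun q => by
    obtain ⟨n, p, h⟩ := CurveDefs_surj (C.J1 R).toRingHom N.r1 ((1 : R) ⊗ₜ[K] C.y : C.S1 R)
      ((1 : R) ⊗ₜ[K] C.j1 C.y : C.S01 R) (by simp) (CurveDefs_loc C.j1 C.y C.loc1) N.span1 q
    let _ := Module.compHom N.N01 (algebraMap R (C.S01 R))
    exact ⟨n, p, (CurveDefs_equiv_pow_apply _ ((1 : R) ⊗ₜ[K] C.j1 C.y : C.S01 R)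
      (fun _ => rfl) n q).trans h⟩
  fg0 := by
    let _ := Module.compHom N.N0 (algebraMap R (C.S0 R))
    have : IsScalarTower R (C.S0 R) N.N0 := ⟨fun r s n => by
      show (r • s) • n = algebraMap R (C.S0 R) r • s • n
      rw [Algebra.smul_def, mul_smul]⟩
    have := N.inv0
    exact CurveDefs_fg ((1 : R) ⊗ₜ[K] C.x : C.S0 R) (fun i => ((1 : R) ⊗ₜ[K] C.e0 i : C.S0 R))
      (CurveDefs_span_tensor C.x C.e0 fun b => (C.basis0 b).exists) _ (fun _ => rfl)
  fg1 := by
    let _ := Module.compHom N.N1 (algebraMap R (C.S1 R))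
    have : IsScalarTower R (C.S1 R) N.N1 := ⟨fun r s n => by
      show (r • s) • n = algebraMap R (C.S1 R) r • s • n
      rw [Algebra.smul_def, mul_smul]⟩
    have := N.inv1
    exact CurveDefs_fg ((1 : R) ⊗ₜ[K] C.y : C.S1 R) (fun i => ((1 : R) ⊗ₜ[K] C.e1 i : C.S1 R))
      (CurveDefs_span_tensor C.y C.e1 fun b => (C.basis1 b).exists) _ (fun _ => rfl)

end CMod

/-- a `C × Spec R`-valued point of a functor `X` -/
structure CPt (C : Curve K) (X : PtF K) (R : Type u) [CommRing R] [Algebra K R] where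
  u0 : X.pt (C.S0 R)
  u1 : X.pt (C.S1 R)
  u01 : X.pt (C.S01 R)
  h0 : X.map (C.J0 R) u0 = u01
  h1 : X.map (C.J1 R) u1 = u01

/-- pull back of a line bundle on `X` along `C × Spec R → X` -/
def LBun.pull {C : Curve K} {X : PtF K} (L : LBun X) {R : Type u} [CommRing R] [Algebra K R]
    (u : CPt C X R) : CMod C R where
  N0 := L.M u.u0
  N1 := L.M u.u1
  N01 := L.M u.u01
  inv0 := L.inv _
  inv1 := L.inv _
  inv01 := L.inv _
  r0 := L.bc (C.J0 R) u.h0
  r1 := L.bc (C.J1 R) u.h1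
  span0 := L.bc_span _ _
  span1 := L.bc_span _ _

/-- a family of line bundles on `C` parametrised by the functor `Par` -/
structure CFam (C : Curve K) (Par : PtF K) where
  N : ∀ {R : Type u} [CommRing R] [Algebra K R], Par.pt R → CMod C R
  bc : ∀ {R R' : Type u} [CommRing R] [Algebra K R] [CommRing R'] [Algebra K R']
    (φ : R →ₐ[K] R') {τ : Par.pt R} {τ' : Par.pt R'}, Par.map φ τ = τ' → CMod.Hom φ (N τ) (N τ')
  isPullback : ∀ {R R' : Type u} [CommRing R] [Algebra K R] [CommRing R'] [Algebra K R']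
    (φ : R →ₐ[K] R') {τ : Par.pt R} {τ' : Par.pt R'} (h : Par.map φ τ = τ'),
    (bc φ h).IsPullback

end Fermat.Agent.S26
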