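/-
S26 / Curve / Ops : operations on line bundles on `C × Spec R` (trivial bundle, tensor, dual, twist).
SKELETON (helper26): statements frozen; package CM-2.
-/
import Fermat.Agent.S26.Curve.Defs
import Fermat.Agent.S26.Alg.SemiBC

set_option autoImplicit false

open scoped TensorProduct

universe u

namespace Fermat.Agent.S26

variable {K : Type u} [Field K]

namespace CMod

variable {C : Curve K} {R R' : Type u} [CommRing R] [Algebra K R] [CommRing R'] [Algebra K R']

/-- a ring hom as a semilinear map -/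
def ringHomSemi {S S' : Type u} [CommRing S] [CommRing S'] (φ : S →+* S') : S →ₛₗ[φ] S' where
  toFun := φ
  map_add' := φ.map_add
  map_smul' := fun a b => φ.map_mul a b

/-- the trivial line bundle -/
noncomputable def one (C : Curve K) (R : Type u) [CommRing R] [Algebra K R] : CMod C R where
  N0 := C.S0 R
  N1 := C.S1 R
  N01 := C.S01 R
  inv0 := inferInstance
  inv1 := inferInstance
  inv01 := inferInstance
  r0 := ringHomSemi (C.J0 R).toRingHom
  r1 := ringHomSemi (C.J1 R).toRingHom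
  span0 := (Ideal.eq_top_iff_one _).2 (Submodule.subset_span ⟨1, map_one (C.J0 R)⟩)
  span1 := (Ideal.eq_top_iff_one _).2 (Submodule.subset_span ⟨1, map_one (C.J1 R)⟩)

theorem isBC_r0 (N : CMod C R) : IsBC (C.J0 R).toRingHom N.r0 :=
  haveI := N.inv0
  haveI := N.inv01
  isBC_of_span_of_invertible _ _ N.span0

theorem isBC_r1 (N : CMod C R) : IsBC (C.J1 R).toRingHom N.r1 :=
  haveI := N.inv1
  haveI := N.inv01
  isBC_of_span_of_invertible _ _ N.span1

/-- tensor product of line bundles -/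
noncomputable def tensor (N N' : CMod C R) : CMod C R where
  N0 := N.N0 ⊗[C.S0 R] N'.N0
  N1 := N.N1 ⊗[C.S1 R] N'.N1
  N01 := N.N01 ⊗[C.S01 R] N'.N01
  inv0 := haveI := N.inv0; haveI := N'.inv0; inferInstance
  inv1 := haveI := N.inv1; haveI := N'.inv1; inferInstance
  inv01 := haveI := N.inv01; haveI := N'.inv01; inferInstance
  r0 := semiTensor _ N.r0 N'.r0
  r1 := semiTensor _ N.r1 N'.r1
  span0 := (IsBC.tensor _ N.isBC_r0 N'.isBC_r0).span_range _
  span1 := (IsBC.tensor _ N.isBC_r1 N'.isBC_r1).span_range _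

/-- dual line bundle -/
noncomputable def dual (N : CMod C R) : CMod C R where
  N0 := Module.Dual (C.S0 R) N.N0
  N1 := Module.Dual (C.S1 R) N.N1
  N01 := Module.Dual (C.S01 R) N.N01
  inv0 := haveI := N.inv0; inferInstance
  inv1 := haveI := N.inv1; inferInstance
  inv01 := haveI := N.inv01; inferInstance
  r0 := semiDual _ N.isBC_r0
  r1 := semiDual _ N.isBC_r1
  span0 := haveI := N.inv0; (IsBC.dual _ N.isBC_r0).span_range _
  span1 := haveI := N.inv1; (IsBC.dual _ N.isBC_r1).span_range _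

/-- the unit `1 ⊗ x` of the overlap ring -/
noncomputable def xUnit (C : Curve K) (R : Type u) [CommRing R] [Algebra K R] : (C.S01 R)ˣ where
  val := (1 : R) ⊗ₜ[K] C.j0 C.x
  inv := (1 : R) ⊗ₜ[K] C.j1 C.y
  val_inv := by rw [Algebra.TensorProduct.tmul_mul_tmul, mul_one, C.xy]; rfl
  inv_val := by rw [Algebra.TensorProduct.tmul_mul_tmul, mul_one, mul_comm, C.xy]; rfl

/-- the twist `N(m∞)` -/
noncomputable def twist (N : CMod C R) (m : ℤ) : CMod C R where
  N0 := N.N0
  N1 := N.N1
  N01 := N.N01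
  inv0 := N.inv0
  inv1 := N.inv1
  inv01 := N.inv01
  r0 := N.r0
  r1 := (((xUnit C R) ^ m : (C.S01 R)ˣ) : C.S01 R) • N.r1
  span0 := N.span0
  span1 := by
    rw [eq_top_iff, ← N.span1, Submodule.span_le]
    rintro _ ⟨n, rfl⟩
    have h : N.r1 n = (((xUnit C R) ^ m)⁻¹ : (C.S01 R)ˣ).val •
        ((((xUnit C R) ^ m : (C.S01 R)ˣ) : C.S01 R) • N.r1) n := by
      rw [LinearMap.smul_apply, smul_smul, Units.inv_mul, one_smul]
    rw [h]
    exact Submodule.smul_mem _ _ (Submodule.subset_span ⟨n, rfl⟩)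

theorem Ops_equiv_zpow_apply {R M S : Type*} [Semiring R] [AddCommMonoid M] [Module R M]
    [Monoid S] [MulAction S M] (e : M ≃ₗ[R] M) (X : Sˣ) (he : ∀ m, e m = (X : S) • m) (n : ℤ)
    (m : M) : (e ^ n) m = ((X ^ n : Sˣ) : S) • m := by
  cases n with
  | ofNat k =>
    rw [Int.ofNat_eq_natCast, zpow_natCast, zpow_natCast, Units.val_pow_eq_pow_val]
    exact CurveDefs_equiv_pow_apply e (X : S) he k m
  | negSucc k =>
    rw [zpow_negSucc, zpow_negSucc]
    show (e ^ (k + 1)).symm m = _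
    rw [LinearEquiv.symm_apply_eq, CurveDefs_equiv_pow_apply e (X : S) he, smul_smul,
      ← Units.val_pow_eq_pow_val, Units.mul_inv, one_smul]

theorem toP1Mod_x01_zpow_apply (N : CMod C R) (m : ℤ) (n : N.N01) :
    (N.toP1Mod.x01 ^ m) n = (((xUnit C R) ^ m : (C.S01 R)ˣ) : C.S01 R) • n := by
  exact @Ops_equiv_zpow_apply R N.N01 (C.S01 R) _ _
    (Module.compHom N.N01 (algebraMap R (C.S01 R))) _ _ N.toP1Mod.x01 (xUnit C R) (fun _ => rfl) m n

theorem toP1Mod_twist (N : CMod C R) (m : ℤ) : (N.twist m).toP1Mod = N.toP1Mod.twist m := by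
  have key : ∀ n : N.N1, (N.twist m).r1 n = (N.toP1Mod.x01 ^ m) (N.r1 n) := fun n =>
    (toP1Mod_x01_zpow_apply N m (N.r1 n)).symm
  unfold toP1Mod P1Mod.twist
  congr 1
  letI : Module R (N.twist m).N1 := Module.compHom N.N1 (algebraMap R (C.S1 R))
  letI : Module R (N.twist m).N01 := Module.compHom N.N01 (algebraMap R (C.S01 R))
  apply LinearMap.ext
  exact key

end CMod

end Fermat.Agent.S26
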