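/-
S26 / Curve / Pts : `C × Spec R`-valued points: functoriality, constant points, group structure.
-/
import Fermat.Agent.S26.Curve.Defs
import Fermat.Agent.S26.AV.Geo

set_option autoImplicit false

open scoped TensorProduct

universe u

namespace Fermat.Agent.S26

variable {K : Type u} [Field K]

namespace CPt

variable {C : Curve K} {X Y : PtF K} {R R' : Type u} [CommRing R] [Algebra K R] [CommRing R']
  [Algebra K R']

@[ext] theorem ext {u v : CPt C X R} (h0 : u.u0 = v.u0) (h1 : u.u1 = v.u1) (h01 : u.u01 = v.u01) :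
    u = v := by
  cases u; cases v; simp_all

/-- base change of a point along `φ : R → R'` -/
def map (φ : R →ₐ[K] R') (u : CPt C X R) : CPt C X R' where
  u0 := X.map (C.m0 φ) u.u0
  u1 := X.map (C.m1 φ) u.u1
  u01 := X.map (C.m01 φ) u.u01
  h0 := by
    rw [← u.h0, ← X.map_comp, ← X.map_comp]
    congr 1
    ext <;> simp
  h1 := by
    rw [← u.h1, ← X.map_comp, ← X.map_comp]
    congr 1
    ext <;> simp

/-- the constant map `C × Spec R → Spec R → X` -/
def cst (C : Curve K) (a : X.pt R) : CPt C X R where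
  u0 := X.map (Algebra.TensorProduct.includeLeft : R →ₐ[K] C.S0 R) a
  u1 := X.map (Algebra.TensorProduct.includeLeft : R →ₐ[K] C.S1 R) a
  u01 := X.map (Algebra.TensorProduct.includeLeft : R →ₐ[K] C.S01 R) a
  h0 := by
    rw [← X.map_comp]
    congr 1
    ext; simp
  h1 := by
    rw [← X.map_comp]
    congr 1
    ext; simp

/-- a pair of points -/
def pair (u : CPt C X R) (v : CPt C Y R) : CPt C (X.prod Y) R where
  u0 := (u.u0, v.u0)
  u1 := (u.u1, v.u1)
  u01 := (u.u01, v.u01)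
  h0 := Prod.ext u.h0 v.h0
  h1 := Prod.ext u.h1 v.h1

/-- the pull back of `f : C → X` to `C × Spec R` -/
abbrev base (f : CPt C X K) (R : Type u) [CommRing R] [Algebra K R] : CPt C X R :=
  f.map (Algebra.ofId K R)

end CPt

theorem AVF.map_zero (𝔸 : AVF K) {S S' : Type u} [CommRing S] [Algebra K S] [CommRing S']
    [Algebra K S'] (φ : S →ₐ[K] S') : 𝔸.map φ (0 : 𝔸.pt S) = 0 := by
  have h := 𝔸.map_add φ 0 0
  rw [add_zero] at h
  exact left_eq_add.1 h

theorem AVF.map_neg (𝔸 : AVF K) {S S' : Type u} [CommRing S] [Algebra K S] [CommRing S']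
    [Algebra K S'] (φ : S →ₐ[K] S') (a : 𝔸.pt S) : 𝔸.map φ (-a) = - 𝔸.map φ a := by
  have h := 𝔸.map_add φ (-a) a
  rw [neg_add_cancel, 𝔸.map_zero] at h
  exact eq_neg_of_add_eq_zero_left h.symm

/-- `𝔸.map φ` as a group homomorphism -/
def AVF.mapHom (𝔸 : AVF K) {S S' : Type u} [CommRing S] [Algebra K S] [CommRing S']
    [Algebra K S'] (φ : S →ₐ[K] S') : 𝔸.pt S →+ 𝔸.pt S' where
  toFun := 𝔸.map φ
  map_zero' := 𝔸.map_zero φ
  map_add' := 𝔸.map_add φ

theorem AVF.map_sub (𝔸 : AVF K) {S S' : Type u} [CommRing S] [Algebra K S] [CommRing S']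
    [Algebra K S'] (φ : S →ₐ[K] S') (a b : 𝔸.pt S) : 𝔸.map φ (a - b) = 𝔸.map φ a - 𝔸.map φ b :=
  (𝔸.mapHom φ).map_sub a b

theorem AVF.map_nsmul (𝔸 : AVF K) {S S' : Type u} [CommRing S] [Algebra K S] [CommRing S']
    [Algebra K S'] (φ : S →ₐ[K] S') (n : ℕ) (a : 𝔸.pt S) : 𝔸.map φ (n • a) = n • 𝔸.map φ a :=
  (𝔸.mapHom φ).map_nsmul n a

theorem AVF.map_zsmul (𝔸 : AVF K) {S S' : Type u} [CommRing S] [Algebra K S] [CommRing S']
    [Algebra K S'] (φ : S →ₐ[K] S') (n : ℤ) (a : 𝔸.pt S) : 𝔸.map φ (n • a) = n • 𝔸.map φ a :=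
  (𝔸.mapHom φ).map_zsmul n a

namespace CPt

variable {C : Curve K} {𝔸 : AVF K} {R R' : Type u} [CommRing R] [Algebra K R] [CommRing R']
  [Algebra K R']

instance : Add (CPt C 𝔸.toPtF R) where
  add u v :=
    { u0 := u.u0 + v.u0
      u1 := u.u1 + v.u1
      u01 := u.u01 + v.u01
      h0 := by rw [𝔸.map_add, u.h0, v.h0]
      h1 := by rw [𝔸.map_add, u.h1, v.h1] }

instance : Zero (CPt C 𝔸.toPtF R) where
  zero :=
    { u0 := 0
      u1 := 0
      u01 := 0
      h0 := 𝔸.map_zero _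
      h1 := 𝔸.map_zero _ }

instance : Neg (CPt C 𝔸.toPtF R) where
  neg u :=
    { u0 := - u.u0
      u1 := - u.u1
      u01 := - u.u01
      h0 := by rw [𝔸.map_neg, u.h0]
      h1 := by rw [𝔸.map_neg, u.h1] }

@[simp] theorem add_u0 (u v : CPt C 𝔸.toPtF R) : (u + v).u0 = u.u0 + v.u0 := rfl
@[simp] theorem add_u1 (u v : CPt C 𝔸.toPtF R) : (u + v).u1 = u.u1 + v.u1 := rfl
@[simp] theorem add_u01 (u v : CPt C 𝔸.toPtF R) : (u + v).u01 = u.u01 + v.u01 := rfl
@[simp] theorem zero_u0 : (0 : CPt C 𝔸.toPtF R).u0 = 0 := rfl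
@[simp] theorem zero_u1 : (0 : CPt C 𝔸.toPtF R).u1 = 0 := rfl
@[simp] theorem zero_u01 : (0 : CPt C 𝔸.toPtF R).u01 = 0 := rfl
@[simp] theorem neg_u0 (u : CPt C 𝔸.toPtF R) : (-u).u0 = - u.u0 := rfl
@[simp] theorem neg_u1 (u : CPt C 𝔸.toPtF R) : (-u).u1 = - u.u1 := rfl
@[simp] theorem neg_u01 (u : CPt C 𝔸.toPtF R) : (-u).u01 = - u.u01 := rfl

instance : AddCommGroup (CPt C 𝔸.toPtF R) where
  add_assoc a b c := by ext <;> simp [add_assoc]
  zero_add a := by ext <;> simp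
  add_zero a := by ext <;> simp
  nsmul := nsmulRec
  zsmul := zsmulRec
  neg_add_cancel a := by ext <;> simp
  add_comm a b := by ext <;> simp [add_comm]

theorem map_add (φ : R →ₐ[K] R') (u v : CPt C 𝔸.toPtF R) : (u + v).map φ = u.map φ + v.map φ := by
  ext <;> simp [map, 𝔸.map_add]

theorem cst_add (a b : 𝔸.pt R) :
    cst C (X := 𝔸.toPtF) (a + b) = cst C (X := 𝔸.toPtF) a + cst C (X := 𝔸.toPtF) b := by
  ext <;> simp [cst, 𝔸.map_add]

end CPt

end Fermat.Agent.S26
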