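/-
S26 / Curve / CohDefs : definitions for block CV (`dimOver`, `FinOver`, `CMod.LHom`, `CMod.ofSection`).
-/
import Fermat.Agent.S26.AV.Deg

set_option autoImplicit false

open scoped TensorProduct

universe u

namespace Fermat.Agent.S26

variable {K : Type u} [Field K]

/-- the `κ`-dimension of a module over a `κ`-algebra `S` -/
noncomputable def dimOver (κ : Type u) [Field κ] (S : Type u) [CommRing S] [Algebra κ S] (M : Type u)
    [AddCommGroup M] [Module S M] : ℕ :=
  @Module.finrank κ M _ _ (Module.compHom M (algebraMap κ S))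

/-- finiteness over `κ` of a module over a `κ`-algebra `S` -/
def FinOver (κ : Type u) [Field κ] (S : Type u) [CommRing S] [Algebra κ S] (M : Type u)
    [AddCommGroup M] [Module S M] : Prop :=
  @Module.Finite κ M _ _ (Module.compHom M (algebraMap κ S))

namespace CMod

variable {C : Curve K} {R : Type u} [CommRing R] [Algebra K R]

/-- a morphism of line bundles on `C × Spec R` (linear on each chart) -/
structure LHom (N N' : CMod C R) where
  f0 : N.N0 →ₗ[C.S0 R] N'.N0
  f1 : N.N1 →ₗ[C.S1 R] N'.N1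
  f01 : N.N01 →ₗ[C.S01 R] N'.N01
  comm0 : ∀ n, f01 (N.r0 n) = N'.r0 (f0 n)
  comm1 : ∀ n, f01 (N.r1 n) = N'.r1 (f1 n)

theorem r0_eq_r1_of_mem_H0 (N : CMod C R) (s : N.toP1Mod.H0) :
    N.r0 (show N.N0 from s.1.1) = N.r1 (show N.N1 from s.1.2) := by
  have h : N.toP1Mod.d s.1 = 0 := s.2
  rw [P1Mod.d_apply, sub_eq_zero] at h
  exact h

/-- the morphism `O → N` defined by a global section -/
noncomputable def ofSection (N : CMod C R) (s : N.toP1Mod.H0) : LHom (one C R) N where
  f0 := LinearMap.toSpanSingleton (C.S0 R) N.N0 s.1.1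
  f1 := LinearMap.toSpanSingleton (C.S1 R) N.N1 s.1.2
  f01 := LinearMap.toSpanSingleton (C.S01 R) N.N01 (N.r0 s.1.1)
  comm0 := fun a => (N.r0.map_smulₛₗ a _).symm
  comm1 := fun a => by
    rw [r0_eq_r1_of_mem_H0]
    exact (N.r1.map_smulₛₗ a _).symm

end CMod

end Fermat.Agent.S26
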