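/-
S26 / Curve / Iso : isomorphisms of line bundles (package CM-3).  Statements by helper26 (frozen).
-/
import Fermat.Agent.S26.Curve.Ops

set_option autoImplicit false

open scoped TensorProduct

universe u

namespace Fermat.Agent.S26

variable {K : Type u} [Field K]

/-! ### general lemmas on semilinear maps -/

section IsoAux

variable {S S' : Type u} [CommRing S] [CommRing S'] (φ : S →+* S')
  {M₁ M₂ M₃ P₁ P₂ : Type u} [AddCommGroup M₁] [Module S M₁] [AddCommGroup M₂] [Module S M₂]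
  [AddCommGroup M₃] [Module S M₃] [AddCommGroup P₁] [Module S P₁] [AddCommGroup P₂] [Module S P₂]
  {M₁' M₂' M₃' P₁' P₂' : Type u} [AddCommGroup M₁'] [Module S' M₁'] [AddCommGroup M₂']
  [Module S' M₂'] [AddCommGroup M₃'] [Module S' M₃'] [AddCommGroup P₁'] [Module S' P₁']
  [AddCommGroup P₂'] [Module S' P₂']

theorem Iso_congr_semiTensor (g₁ : M₁ →ₛₗ[φ] M₁') (g₂ : M₂ →ₛₗ[φ] M₂') (h₁ : P₁ →ₛₗ[φ] P₁')
    (h₂ : P₂ →ₛₗ[φ] P₂') (a : M₁ ≃ₗ[S] P₁) (b : M₂ ≃ₗ[S] P₂) (a' : M₁' ≃ₗ[S'] P₁')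
    (b' : M₂' ≃ₗ[S'] P₂') (ha : ∀ n, a' (g₁ n) = h₁ (a n)) (hb : ∀ n, b' (g₂ n) = h₂ (b n))
    (n : M₁ ⊗[S] M₂) :
    TensorProduct.congr a' b' (semiTensor φ g₁ g₂ n) =
      semiTensor φ h₁ h₂ (TensorProduct.congr a b n) := by
  induction n using TensorProduct.induction_on with
  | zero => rw [map_zero, map_zero, map_zero, map_zero]
  | tmul x y =>
    rw [semiTensor_tmul, TensorProduct.congr_tmul, TensorProduct.congr_tmul, semiTensor_tmul,
      ha, hb]
  | add x y hx hy => rw [map_add, map_add, hx, hy, map_add, map_add]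

theorem Iso_dualMap_semiDual {g₁ : M₁ →ₛₗ[φ] M₁'} {h₁ : P₁ →ₛₗ[φ] P₁'} (hg : IsBC φ g₁)
    (hh : IsBC φ h₁) (a : M₁ ≃ₗ[S] P₁) (a' : M₁' ≃ₗ[S'] P₁') (ha : ∀ n, a' (g₁ n) = h₁ (a n))
    (l : Module.Dual S M₁) :
    a'.symm.dualMap (semiDual φ hg l) = semiDual φ hh (a.symm.dualMap l) := by
  refine IsBC.ext φ hh fun m => ?_
  have h1 : a'.symm (h₁ m) = g₁ (a.symm m) := by
    rw [LinearEquiv.symm_apply_eq, ha, LinearEquiv.apply_symm_apply]
  rw [semiDual_apply, LinearEquiv.dualMap_apply, h1, semiDual_apply, LinearEquiv.dualMap_apply]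

theorem Iso_comm_semiTensor (g₁ : M₁ →ₛₗ[φ] M₁') (g₂ : M₂ →ₛₗ[φ] M₂') (n : M₁ ⊗[S] M₂) :
    TensorProduct.comm S' M₁' M₂' (semiTensor φ g₁ g₂ n) =
      semiTensor φ g₂ g₁ (TensorProduct.comm S M₁ M₂ n) := by
  induction n using TensorProduct.induction_on with
  | zero => rw [map_zero, map_zero, map_zero, map_zero]
  | tmul x y => rfl
  | add x y hx hy => rw [map_add, map_add, hx, hy, map_add, map_add]

theorem Iso_assoc_semiTensor (g₁ : M₁ →ₛₗ[φ] M₁') (g₂ : M₂ →ₛₗ[φ] M₂') (g₃ : M₃ →ₛₗ[φ] M₃')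
    (n : (M₁ ⊗[S] M₂) ⊗[S] M₃) :
    TensorProduct.assoc S' M₁' M₂' M₃' (semiTensor φ (semiTensor φ g₁ g₂) g₃ n) =
      semiTensor φ g₁ (semiTensor φ g₂ g₃) (TensorProduct.assoc S M₁ M₂ M₃ n) := by
  induction n using TensorProduct.induction_on with
  | zero => rw [map_zero, map_zero, map_zero, map_zero]
  | tmul x z =>
    induction x using TensorProduct.induction_on with
    | zero => rw [TensorProduct.zero_tmul, map_zero, map_zero, map_zero, map_zero]
    | tmul x y => rfl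
    | add x y hx hy => rw [TensorProduct.add_tmul, map_add, map_add, hx, hy, map_add, map_add]
  | add x y hx hy => rw [map_add, map_add, hx, hy, map_add, map_add]

theorem Iso_lid_semiTensor (g₁ : M₁ →ₛₗ[φ] M₁') (n : S ⊗[S] M₁) :
    TensorProduct.lid S' M₁' (semiTensor φ (CMod.ringHomSemi φ) g₁ n) =
      g₁ (TensorProduct.lid S M₁ n) := by
  induction n using TensorProduct.induction_on with
  | zero => rw [map_zero, map_zero, map_zero, map_zero]
  | tmul x y =>
    rw [semiTensor_tmul, TensorProduct.lid_tmul, TensorProduct.lid_tmul, g₁.map_smulₛₗ]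
    rfl
  | add x y hx hy => rw [map_add, map_add, hx, hy, map_add, map_add]

theorem Iso_contract_semiTensor [Module.Invertible S M₁] [Module.Invertible S' M₁']
    {g₁ : M₁ →ₛₗ[φ] M₁'} (hg : IsBC φ g₁) (n : Module.Dual S M₁ ⊗[S] M₁) :
    Module.Invertible.linearEquiv S' M₁' (semiTensor φ (semiDual φ hg) g₁ n) =
      CMod.ringHomSemi φ (Module.Invertible.linearEquiv S M₁ n) := by
  induction n using TensorProduct.induction_on with
  | zero => rw [map_zero, map_zero, map_zero, map_zero]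
  | tmul x y => exact semiDual_apply φ hg x y
  | add x y hx hy => rw [map_add, map_add, hx, hy, map_add, map_add]

end IsoAux

namespace CMod

variable {C : Curve K} {R R' : Type u} [CommRing R] [Algebra K R] [CommRing R'] [Algebra K R']

/-! ### isomorphisms -/

noncomputable def Iso.refl (N : CMod C R) : Iso N N where
  e0 := LinearEquiv.refl _ _
  e1 := LinearEquiv.refl _ _
  e01 := LinearEquiv.refl _ _
  comm0 := fun _ => rfl
  comm1 := fun _ => rfl

noncomputable def Iso.symm {N N' : CMod C R} (e : Iso N N') : Iso N' N where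
  e0 := e.e0.symm
  e1 := e.e1.symm
  e01 := e.e01.symm
  comm0 := fun n => by
    rw [LinearEquiv.symm_apply_eq, e.comm0, LinearEquiv.apply_symm_apply]
  comm1 := fun n => by
    rw [LinearEquiv.symm_apply_eq, e.comm1, LinearEquiv.apply_symm_apply]

noncomputable def Iso.trans {N N' N'' : CMod C R} (e : Iso N N') (e' : Iso N' N'') : Iso N N'' where
  e0 := e.e0.trans e'.e0
  e1 := e.e1.trans e'.e1
  e01 := e.e01.trans e'.e01
  comm0 := fun n => by
    rw [LinearEquiv.trans_apply, LinearEquiv.trans_apply, e.comm0, e'.comm0]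
  comm1 := fun n => by
    rw [LinearEquiv.trans_apply, LinearEquiv.trans_apply, e.comm1, e'.comm1]

noncomputable def Iso.tensor {N₁ N₁' N₂ N₂' : CMod C R} (e : Iso N₁ N₁') (e' : Iso N₂ N₂') :
    Iso (N₁.tensor N₂) (N₁'.tensor N₂') where
  e0 := TensorProduct.congr e.e0 e'.e0
  e1 := TensorProduct.congr e.e1 e'.e1
  e01 := TensorProduct.congr e.e01 e'.e01
  comm0 := Iso_congr_semiTensor _ _ _ _ _ _ _ _ _ e.comm0 e'.comm0
  comm1 := Iso_congr_semiTensor _ _ _ _ _ _ _ _ _ e.comm1 e'.comm1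

noncomputable def Iso.dual {N N' : CMod C R} (e : Iso N N') : Iso N.dual N'.dual where
  e0 := e.e0.symm.dualMap
  e1 := e.e1.symm.dualMap
  e01 := e.e01.symm.dualMap
  comm0 := Iso_dualMap_semiDual _ N.isBC_r0 N'.isBC_r0 _ _ e.comm0
  comm1 := Iso_dualMap_semiDual _ N.isBC_r1 N'.isBC_r1 _ _ e.comm1

noncomputable def tensorComm (N N' : CMod C R) : Iso (N.tensor N') (N'.tensor N) where
  e0 := TensorProduct.comm _ _ _
  e1 := TensorProduct.comm _ _ _
  e01 := TensorProduct.comm _ _ _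
  comm0 := Iso_comm_semiTensor _ _ _
  comm1 := Iso_comm_semiTensor _ _ _

noncomputable def tensorAssoc (N N' N'' : CMod C R) :
    Iso ((N.tensor N').tensor N'') (N.tensor (N'.tensor N'')) where
  e0 := TensorProduct.assoc _ _ _ _
  e1 := TensorProduct.assoc _ _ _ _
  e01 := TensorProduct.assoc _ _ _ _
  comm0 := Iso_assoc_semiTensor _ _ _ _
  comm1 := Iso_assoc_semiTensor _ _ _ _

noncomputable def oneTensor (N : CMod C R) : Iso ((one C R).tensor N) N where
  e0 := TensorProduct.lid _ _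
  e1 := TensorProduct.lid _ _
  e01 := TensorProduct.lid _ _
  comm0 := Iso_lid_semiTensor _ _
  comm1 := Iso_lid_semiTensor _ _

noncomputable def dualTensor (N : CMod C R) : Iso (N.dual.tensor N) (one C R) where
  e0 := haveI := N.inv0; Module.Invertible.linearEquiv (C.S0 R) N.N0
  e1 := haveI := N.inv1; Module.Invertible.linearEquiv (C.S1 R) N.N1
  e01 := haveI := N.inv01; Module.Invertible.linearEquiv (C.S01 R) N.N01
  comm0 :=
    haveI := N.inv0
    haveI := N.inv01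
    Iso_contract_semiTensor _ N.isBC_r0
  comm1 :=
    haveI := N.inv1
    haveI := N.inv01
    Iso_contract_semiTensor _ N.isBC_r1

/-- equivalences of the three charts commuting with the restriction maps give the same `h0`. -/
theorem Iso_p1_h0_eq {P P' : P1Mod R} (f0 : P.P0 ≃ₗ[R] P'.P0) (f1 : P.P1 ≃ₗ[R] P'.P1)
    (f01 : P.P01 ≃ₗ[R] P'.P01) (h0 : ∀ p, f01 (P.i0 p) = P'.i0 (f0 p))
    (h1 : ∀ p, f01 (P.i1 p) = P'.i1 (f1 p)) : P.h0 = P'.h0 := by
  have hd : ∀ a, f01 (P.d a) = P'.d (f0.prodCongr f1 a) := by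
    intro a
    rw [P1Mod.d_apply, P1Mod.d_apply, map_sub, h0, h1]
    rfl
  refine LinearEquiv.finrank_eq (LinearEquiv.ofSubmodules (f0.prodCongr f1) _ _ ?_)
  ext b
  constructor
  · rintro ⟨a, ha, rfl⟩
    have ha' : P.d a = 0 := ha
    show P'.d _ = 0
    rw [LinearEquiv.coe_coe, ← hd, ha', map_zero]
  · intro hb
    have hb' : P'.d b = 0 := hb
    refine ⟨(f0.prodCongr f1).symm b, ?_, LinearEquiv.apply_symm_apply _ _⟩
    show P.d _ = 0
    apply f01.injective
    rw [hd, LinearEquiv.apply_symm_apply, hb', map_zero]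

/-- equivalences of the three charts commuting with the restriction maps give the same `h1`. -/
theorem Iso_p1_h1_eq {P P' : P1Mod R} (f0 : P.P0 ≃ₗ[R] P'.P0) (f1 : P.P1 ≃ₗ[R] P'.P1)
    (f01 : P.P01 ≃ₗ[R] P'.P01) (h0 : ∀ p, f01 (P.i0 p) = P'.i0 (f0 p))
    (h1 : ∀ p, f01 (P.i1 p) = P'.i1 (f1 p)) : P.h1 = P'.h1 := by
  have hd : ∀ a, f01 (P.d a) = P'.d (f0.prodCongr f1 a) := by
    intro a
    rw [P1Mod.d_apply, P1Mod.d_apply, map_sub, h0, h1]
    rfl
  refine LinearEquiv.finrank_eq (Submodule.Quotient.equiv _ _ f01 ?_)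
  ext b
  constructor
  · rintro ⟨_, ⟨a, rfl⟩, rfl⟩
    exact ⟨_, (hd a).symm⟩
  · rintro ⟨a, rfl⟩
    refine ⟨P.d ((f0.prodCongr f1).symm a), ⟨_, rfl⟩, ?_⟩
    rw [LinearEquiv.coe_coe, hd, LinearEquiv.apply_symm_apply]

/-- the `R`-linear equivalences underlying an isomorphism. -/
noncomputable def Iso.Iso_f0 {N N' : CMod C R} (e : Iso N N') :
    N.toP1Mod.P0 ≃ₗ[R] N'.toP1Mod.P0 :=
  { e.e0 with
    map_smul' := fun r a => e.e0.map_smul (algebraMap R (C.S0 R) r) a }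

noncomputable def Iso.Iso_f1 {N N' : CMod C R} (e : Iso N N') :
    N.toP1Mod.P1 ≃ₗ[R] N'.toP1Mod.P1 :=
  { e.e1 with
    map_smul' := fun r a => e.e1.map_smul (algebraMap R (C.S1 R) r) a }

noncomputable def Iso.Iso_f01 {N N' : CMod C R} (e : Iso N N') :
    N.toP1Mod.P01 ≃ₗ[R] N'.toP1Mod.P01 :=
  { e.e01 with
    map_smul' := fun r a => e.e01.map_smul (algebraMap R (C.S01 R) r) a }

/-- isomorphic line bundles have isomorphic cohomology -/
theorem Iso.h0_eq {N N' : CMod C R} (e : Iso N N') : N.toP1Mod.h0 = N'.toP1Mod.h0 :=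
  Iso_p1_h0_eq e.Iso_f0 e.Iso_f1 e.Iso_f01 e.comm0 e.comm1

theorem Iso.h1_eq {N N' : CMod C R} (e : Iso N N') : N.toP1Mod.h1 = N'.toP1Mod.h1 :=
  Iso_p1_h1_eq e.Iso_f0 e.Iso_f1 e.Iso_f01 e.comm0 e.comm1

theorem Iso.twist {N N' : CMod C R} (e : Iso N N') (m : ℤ) : Nonempty (Iso (N.twist m) (N'.twist m)) :=
  ⟨{ e0 := e.e0
     e1 := e.e1
     e01 := e.e01
     comm0 := e.comm0
     comm1 := fun n =>
       (e.e01.map_smul (((xUnit C R) ^ m : (C.S01 R)ˣ) : C.S01 R) (N.r1 n)).trans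
         (congrArg (fun z => (((xUnit C R) ^ m : (C.S01 R)ˣ) : C.S01 R) • z) (e.comm1 n)) }⟩

end CMod

end Fermat.Agent.S26
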