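/-
S26 / Curve / HomOps : morphisms over a ring map, pull backs (package CM-4).  (statements: helper26; proofs: helper93)
-/
import Fermat.Agent.S26.Curve.Iso
import Fermat.Agent.S26.Alg.SemiRestrict

set_option autoImplicit false
set_option linter.style.haveILetI false

open scoped TensorProduct

universe u

namespace Fermat.Agent.S26

/-! ### general lemmas on semilinear maps -/

section HomOpsAux

variable {S S' S'' : Type u} [CommRing S] [CommRing S'] [CommRing S'']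
  {φ : S →+* S'} {ψ : S' →+* S''}
  {M M' M'' N' Q : Type u} [AddCommGroup M] [Module S M] [AddCommGroup M'] [Module S' M']
  [AddCommGroup M''] [Module S'' M''] [AddCommGroup N'] [Module S' N']
  [AddCommGroup Q] [Module S'' Q]

/-- two additive maps, semilinear over the same ring hom, which agree on a spanning range agree -/
theorem HomOps_eq_of_span (g : M →ₛₗ[φ] M') (hg : Submodule.span S' (Set.range g) = ⊤)
    (F₁ F₂ : M' →ₛₗ[ψ] Q) (h : ∀ m, F₁ (g m) = F₂ (g m)) (x : M') : F₁ x = F₂ x := by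
  have hx : x ∈ Submodule.span S' (Set.range g) := hg ▸ Submodule.mem_top
  induction hx using Submodule.span_induction with
  | mem x hx =>
    obtain ⟨m, rfl⟩ := hx
    exact h m
  | zero => rw [map_zero, map_zero]
  | add a b _ _ ha hb => rw [map_add, map_add, ha, hb]
  | smul s a _ ha => rw [F₁.map_smulₛₗ, F₂.map_smulₛₗ, ha]

/-- two linear maps which agree on the image of a composite of spanning maps agree -/
theorem HomOps_ext_two (g : M →ₛₗ[φ] M') (g' : M' →ₛₗ[ψ] M'')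
    (hg : Submodule.span S' (Set.range g) = ⊤) (hg' : Submodule.span S'' (Set.range g') = ⊤)
    {F₁ F₂ : M'' →ₗ[S''] Q} (h : ∀ m, F₁ (g' (g m)) = F₂ (g' (g m))) : F₁ = F₂ := by
  apply LinearMap.ext_on_range (v := g') hg'
  intro x
  exact HomOps_eq_of_span g hg (F₁.comp g') (F₂.comp g') h x

/-- two base changes of the same module are isomorphic -/
noncomputable def HomOps_equiv {g : M →ₛₗ[φ] M'} {g' : M →ₛₗ[φ] N'} (hg : IsBC φ g)
    (hg' : IsBC φ g') : M' ≃ₗ[S'] N' :=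
  LinearEquiv.ofLinearMap (hg.lift φ g') (hg'.lift φ g)
    (by
      apply hg'.ext φ
      intro m
      rw [LinearMap.comp_apply, IsBC.lift_apply, IsBC.lift_apply, LinearMap.id_apply])
    (by
      apply hg.ext φ
      intro m
      rw [LinearMap.comp_apply, IsBC.lift_apply, IsBC.lift_apply, LinearMap.id_apply])

theorem HomOps_equiv_apply {g : M →ₛₗ[φ] M'} {g' : M →ₛₗ[φ] N'} (hg : IsBC φ g)
    (hg' : IsBC φ g') (m : M) : HomOps_equiv hg hg' (g m) = g' m :=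
  IsBC.lift_apply φ hg g' m

end HomOpsAux

section HomOpsSquare

variable {S T S' T' : Type u} [CommRing S] [CommRing T] [CommRing S'] [CommRing T']
  (σ : S →+* T) (σ' : T →+* T') (τ : S →+* S') (τ' : S' →+* T')
  {M P M' P' M₂ P₂ M₂' P₂' : Type u}
  [AddCommGroup M] [Module S M] [AddCommGroup P] [Module T P]
  [AddCommGroup M'] [Module S' M'] [AddCommGroup P'] [Module T' P']
  [AddCommGroup M₂] [Module S M₂] [AddCommGroup P₂] [Module T P₂]
  [AddCommGroup M₂'] [Module S' M₂'] [AddCommGroup P₂'] [Module T' P₂']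

theorem HomOps_tensor_comm (r : M →ₛₗ[σ] P) (F : P →ₛₗ[σ'] P') (f : M →ₛₗ[τ] M')
    (r' : M' →ₛₗ[τ'] P') (r₂ : M₂ →ₛₗ[σ] P₂) (F₂ : P₂ →ₛₗ[σ'] P₂') (f₂ : M₂ →ₛₗ[τ] M₂')
    (r₂' : M₂' →ₛₗ[τ'] P₂') (h : ∀ m, F (r m) = r' (f m)) (h₂ : ∀ m, F₂ (r₂ m) = r₂' (f₂ m))
    (n : M ⊗[S] M₂) :
    semiTensor σ' F F₂ (semiTensor σ r r₂ n) = semiTensor τ' r' r₂' (semiTensor τ f f₂ n) := by
  induction n using TensorProduct.induction_on with
  | zero => simp only [map_zero]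
  | tmul a b =>
    rw [semiTensor_tmul, semiTensor_tmul, semiTensor_tmul, semiTensor_tmul, h, h₂]
  | add a b ha hb => simp only [map_add, ha, hb]

theorem HomOps_dual_comm (hsq : ∀ s, σ' (σ s) = τ' (τ s)) {r : M →ₛₗ[σ] P} {F : P →ₛₗ[σ'] P'}
    {f : M →ₛₗ[τ] M'} {r' : M' →ₛₗ[τ'] P'} (hr : IsBC σ r) (hF : IsBC σ' F) (hf : IsBC τ f)
    (hr' : IsBC τ' r') (h : ∀ m, F (r m) = r' (f m)) (l : Module.Dual S M) :
    semiDual σ' hF (semiDual σ hr l) = semiDual τ' hr' (semiDual τ hf l) := by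
  apply HomOps_ext_two r F (hr.span_range σ) (hF.span_range σ')
  intro n
  rw [semiDual_apply, semiDual_apply, h, semiDual_apply, semiDual_apply, hsq]

theorem HomOps_equiv_comm {M'' P'' : Type u} [AddCommGroup M''] [Module S' M'']
    [AddCommGroup P''] [Module T' P''] (r : M →ₛₗ[σ] P) {F : P →ₛₗ[σ'] P'} {F' : P →ₛₗ[σ'] P''}
    {f : M →ₛₗ[τ] M'} {f' : M →ₛₗ[τ] M''} (r' : M' →ₛₗ[τ'] P') (r'' : M'' →ₛₗ[τ'] P'')
    (hF : IsBC σ' F) (hF' : IsBC σ' F') (hf : IsBC τ f) (hf' : IsBC τ f')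
    (h : ∀ m, F (r m) = r' (f m)) (h' : ∀ m, F' (r m) = r'' (f' m)) (n : M') :
    HomOps_equiv hF hF' (r' n) = r'' (HomOps_equiv hf hf' n) := by
  refine HomOps_eq_of_span f (hf.span_range τ)
    ((HomOps_equiv hF hF' : P' →ₗ[T'] P'').comp r')
    (r''.comp (HomOps_equiv hf hf' : M' →ₗ[S'] M'')) (fun m => ?_) n
  show HomOps_equiv hF hF' (r' (f m)) = r'' (HomOps_equiv hf hf' (f m))
  rw [← h, HomOps_equiv_apply, HomOps_equiv_apply, h']

theorem HomOps_span_ringHomSemi : Submodule.span T (Set.range (CMod.ringHomSemi σ)) = ⊤ :=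
  (Ideal.eq_top_iff_one _).2 (Submodule.subset_span ⟨1, map_one σ⟩)

end HomOpsSquare

/-- `R' ⊗[K] B = R' ⊗[R] (R ⊗[K] B)`, in the language of type classes -/
theorem HomOps_isBaseChange_aux {K R R' B T : Type*} [CommRing K] [CommRing R] [Algebra K R]
    [CommRing R'] [Algebra K R'] [Algebra R R'] [IsScalarTower K R R'] [CommRing B] [Algebra K B]
    [AddCommGroup T] [Module R' T] [Module R T] [IsScalarTower R R' T]
    (e : R' ⊗[K] B ≃ₗ[R'] T) (g : R ⊗[K] B →ₗ[R] T)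
    (hg : ∀ r b, g (r ⊗ₜ b) = e (algebraMap R R' r ⊗ₜ b)) : IsBaseChange R' g := by
  refine IsBaseChange.of_equiv
    ((Algebra.TensorProduct.cancelBaseChange K R R' R' B).toLinearEquiv ≪≫ₗ e) ?_
  intro x
  induction x using TensorProduct.induction_on with
  | zero => simp
  | tmul r b =>
    rw [hg]
    show e (Algebra.TensorProduct.cancelBaseChange K R R' R' B (1 ⊗ₜ (r ⊗ₜ b))) = _
    rw [Algebra.TensorProduct.cancelBaseChange_tmul, Algebra.smul_def, mul_one]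
  | add a b ha hb =>
    rw [TensorProduct.tmul_add, map_add, map_add, ha, hb]

/-- `R' ⊗[K] B = R' ⊗[R] (R ⊗[K] B)` -/
theorem HomOps_isBC_map {K R R' B : Type u} [CommRing K] [CommRing R] [Algebra K R] [CommRing R']
    [Algebra K R'] [CommRing B] [Algebra K B] (φ : R →ₐ[K] R')
    (hΦ : ∀ r, (Algebra.TensorProduct.map φ (AlgHom.id K B)).toRingHom (algebraMap R (R ⊗[K] B) r)
      = algebraMap R' (R' ⊗[K] B) (φ.toRingHom r)) :
    IsBC φ.toRingHom
      (ringSemi φ.toRingHom (Algebra.TensorProduct.map φ (AlgHom.id K B)).toRingHom hΦ) := by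
  letI i1 : Algebra R R' := φ.toRingHom.toAlgebra
  letI i2 : Module R (R' ⊗[K] B) := Module.compHom (R' ⊗[K] B) φ.toRingHom
  haveI i3 : @IsScalarTower R R' (R' ⊗[K] B) i1.toSMul _ i2.toSMul :=
    ⟨fun r a x => by
      show (φ r * a) • x = φ r • a • x
      rw [mul_smul]⟩
  haveI i4 : IsScalarTower K R R' := IsScalarTower.of_algebraMap_eq fun k => (φ.commutes k).symm
  exact @HomOps_isBaseChange_aux K R R' B (R' ⊗[K] B) _ _ _ _ _ i1 i4 _ _ _ _ i2 i3
    (LinearEquiv.refl _ _) (semiToLin φ.toRingHom _) (fun r b => rfl)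

variable {K : Type u} [Field K]

namespace Curve

variable (C : Curve K) {R R' : Type u} [CommRing R] [Algebra K R] [CommRing R'] [Algebra K R']

theorem HomOps_m01_J0 (φ : R →ₐ[K] R') (s : C.S0 R) : C.m01 φ (C.J0 R s) = C.J0 R' (C.m0 φ s) := by
  induction s using TensorProduct.induction_on with
  | zero => simp
  | tmul r b => simp
  | add a b ha hb => rw [map_add, map_add, map_add, map_add, ha, hb]

theorem HomOps_m01_J1 (φ : R →ₐ[K] R') (s : C.S1 R) : C.m01 φ (C.J1 R s) = C.J1 R' (C.m1 φ s) := by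
  induction s using TensorProduct.induction_on with
  | zero => simp
  | tmul r b => simp
  | add a b ha hb => rw [map_add, map_add, map_add, map_add, ha, hb]

theorem HomOps_m0_algebraMap (φ : R →ₐ[K] R') (r : R) :
    (C.m0 φ).toRingHom (algebraMap R (C.S0 R) r) = algebraMap R' (C.S0 R') (φ.toRingHom r) := by
  simp [Algebra.TensorProduct.algebraMap_apply]

theorem HomOps_m1_algebraMap (φ : R →ₐ[K] R') (r : R) :
    (C.m1 φ).toRingHom (algebraMap R (C.S1 R) r) = algebraMap R' (C.S1 R') (φ.toRingHom r) := by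
  simp [Algebra.TensorProduct.algebraMap_apply]

theorem HomOps_m01_algebraMap (φ : R →ₐ[K] R') (r : R) :
    (C.m01 φ).toRingHom (algebraMap R (C.S01 R) r) = algebraMap R' (C.S01 R') (φ.toRingHom r) := by
  simp [Algebra.TensorProduct.algebraMap_apply]

end Curve

namespace CMod

variable {C : Curve K} {R R' : Type u} [CommRing R] [Algebra K R] [CommRing R'] [Algebra K R']

/-! ### morphisms over `φ : R → R'` -/

theorem Hom.IsPullback.isBC0 {φ : R →ₐ[K] R'} {N : CMod C R} {N' : CMod C R'} {f : Hom φ N N'}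
    (h : f.IsPullback) : IsBC (C.m0 φ).toRingHom f.f0 :=
  haveI := N.inv0
  haveI := N'.inv0
  isBC_of_span_of_invertible _ _ h.span0

theorem Hom.IsPullback.isBC1 {φ : R →ₐ[K] R'} {N : CMod C R} {N' : CMod C R'} {f : Hom φ N N'}
    (h : f.IsPullback) : IsBC (C.m1 φ).toRingHom f.f1 :=
  haveI := N.inv1
  haveI := N'.inv1
  isBC_of_span_of_invertible _ _ h.span1

theorem Hom.IsPullback.isBC01 {φ : R →ₐ[K] R'} {N : CMod C R} {N' : CMod C R'} {f : Hom φ N N'}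
    (h : f.IsPullback) : IsBC (C.m01 φ).toRingHom f.f01 :=
  haveI := N.inv01
  haveI := N'.inv01
  isBC_of_span_of_invertible _ _ h.span01

noncomputable def Hom.tensor {φ : R →ₐ[K] R'} {N₁ N₂ : CMod C R} {N₁' N₂' : CMod C R'}
    (f : Hom φ N₁ N₁') (f' : Hom φ N₂ N₂') : Hom φ (N₁.tensor N₂) (N₁'.tensor N₂') where
  f0 := semiTensor _ f.f0 f'.f0
  f1 := semiTensor _ f.f1 f'.f1
  f01 := semiTensor _ f.f01 f'.f01
  comm0 := fun n => HomOps_tensor_comm _ _ _ _ N₁.r0 f.f01 f.f0 N₁'.r0 N₂.r0 f'.f01 f'.f0 N₂'.r0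
    f.comm0 f'.comm0 n
  comm1 := fun n => HomOps_tensor_comm _ _ _ _ N₁.r1 f.f01 f.f1 N₁'.r1 N₂.r1 f'.f01 f'.f1 N₂'.r1
    f.comm1 f'.comm1 n

theorem Hom.IsPullback.tensor {φ : R →ₐ[K] R'} {N₁ N₂ : CMod C R} {N₁' N₂' : CMod C R'}
    {f : Hom φ N₁ N₁'} {f' : Hom φ N₂ N₂'} (h : f.IsPullback) (h' : f'.IsPullback) :
    (f.tensor f').IsPullback where
  span0 := (IsBC.tensor _ h.isBC0 h'.isBC0).span_range _
  span1 := (IsBC.tensor _ h.isBC1 h'.isBC1).span_range _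
  span01 := (IsBC.tensor _ h.isBC01 h'.isBC01).span_range _

noncomputable def Hom.dual {φ : R →ₐ[K] R'} {N : CMod C R} {N' : CMod C R'}
    (f : Hom φ N N') (h : f.IsPullback) : Hom φ N.dual N'.dual where
  f0 := semiDual _ h.isBC0
  f1 := semiDual _ h.isBC1
  f01 := semiDual _ h.isBC01
  comm0 := fun l => HomOps_dual_comm _ _ _ _ (C.HomOps_m01_J0 φ) N.isBC_r0 h.isBC01 h.isBC0
    N'.isBC_r0 f.comm0 l
  comm1 := fun l => HomOps_dual_comm _ _ _ _ (C.HomOps_m01_J1 φ) N.isBC_r1 h.isBC01 h.isBC1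
    N'.isBC_r1 f.comm1 l

theorem Hom.IsPullback.dual {φ : R →ₐ[K] R'} {N : CMod C R} {N' : CMod C R'}
    {f : Hom φ N N'} (h : f.IsPullback) : (f.dual h).IsPullback where
  span0 := haveI := N.inv0; (IsBC.dual _ h.isBC0).span_range _
  span1 := haveI := N.inv1; (IsBC.dual _ h.isBC1).span_range _
  span01 := haveI := N.inv01; (IsBC.dual _ h.isBC01).span_range _

noncomputable def Hom.one (C : Curve K) (φ : R →ₐ[K] R') : Hom φ (one C R) (one C R') where
  f0 := ringHomSemi (C.m0 φ).toRingHom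
  f1 := ringHomSemi (C.m1 φ).toRingHom
  f01 := ringHomSemi (C.m01 φ).toRingHom
  comm0 := fun n => C.HomOps_m01_J0 φ n
  comm1 := fun n => C.HomOps_m01_J1 φ n

theorem Hom.isPullback_one (C : Curve K) (φ : R →ₐ[K] R') : (Hom.one C φ).IsPullback where
  span0 := HomOps_span_ringHomSemi (C.m0 φ).toRingHom
  span1 := HomOps_span_ringHomSemi (C.m1 φ).toRingHom
  span01 := HomOps_span_ringHomSemi (C.m01 φ).toRingHom

/-- two pull backs of the same line bundle along the same map are isomorphic -/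
theorem Hom.IsPullback.unique {φ : R →ₐ[K] R'} {N : CMod C R} {N' N'' : CMod C R'}
    {f : Hom φ N N'} {f' : Hom φ N N''} (h : f.IsPullback) (h' : f'.IsPullback) :
    Nonempty (Iso N' N'') :=
  ⟨{ e0 := HomOps_equiv h.isBC0 h'.isBC0
     e1 := HomOps_equiv h.isBC1 h'.isBC1
     e01 := HomOps_equiv h.isBC01 h'.isBC01
     comm0 := fun n => HomOps_equiv_comm _ _ _ _ N.r0 N'.r0 N''.r0 h.isBC01 h'.isBC01 h.isBC0
       h'.isBC0 f.comm0 f'.comm0 n
     comm1 := fun n => HomOps_equiv_comm _ _ _ _ N.r1 N'.r1 N''.r1 h.isBC01 h'.isBC01 h.isBC1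
       h'.isBC1 f.comm1 f'.comm1 n }⟩

/-- composition of a morphism over `φ` with an isomorphism -/
noncomputable def Hom.HomOps_compIso {φ : R →ₐ[K] R'} {N₁ N₂ : CMod C R} {N₂' : CMod C R'}
    (f' : Hom φ N₂ N₂') (e : Iso N₁ N₂) : Hom φ N₁ N₂' where
  f0 := f'.f0.comp (e.e0 : N₁.N0 →ₗ[C.S0 R] N₂.N0)
  f1 := f'.f1.comp (e.e1 : N₁.N1 →ₗ[C.S1 R] N₂.N1)
  f01 := f'.f01.comp (e.e01 : N₁.N01 →ₗ[C.S01 R] N₂.N01)
  comm0 := fun n => by
    show f'.f01 (e.e01 (N₁.r0 n)) = N₂'.r0 (f'.f0 (e.e0 n))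
    rw [e.comm0, f'.comm0]
  comm1 := fun n => by
    show f'.f01 (e.e01 (N₁.r1 n)) = N₂'.r1 (f'.f1 (e.e1 n))
    rw [e.comm1, f'.comm1]

theorem Hom.IsPullback.HomOps_compIso {φ : R →ₐ[K] R'} {N₁ N₂ : CMod C R} {N₂' : CMod C R'}
    {f' : Hom φ N₂ N₂'} (h' : f'.IsPullback) (e : Iso N₁ N₂) :
    (f'.HomOps_compIso e).IsPullback where
  span0 := by
    rw [eq_top_iff, ← h'.span0]
    apply Submodule.span_mono
    rintro _ ⟨n, rfl⟩
    refine ⟨e.e0.symm n, ?_⟩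
    show f'.f0 (e.e0 (e.e0.symm n)) = _
    rw [LinearEquiv.apply_symm_apply]
  span1 := by
    rw [eq_top_iff, ← h'.span1]
    apply Submodule.span_mono
    rintro _ ⟨n, rfl⟩
    refine ⟨e.e1.symm n, ?_⟩
    show f'.f1 (e.e1 (e.e1.symm n)) = _
    rw [LinearEquiv.apply_symm_apply]
  span01 := by
    rw [eq_top_iff, ← h'.span01]
    apply Submodule.span_mono
    rintro _ ⟨n, rfl⟩
    refine ⟨e.e01.symm n, ?_⟩
    show f'.f01 (e.e01 (e.e01.symm n)) = _
    rw [LinearEquiv.apply_symm_apply]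

/-- pull back of isomorphic bundles -/
theorem Hom.IsPullback.iso_of_iso {φ : R →ₐ[K] R'} {N₁ N₂ : CMod C R} {N₁' N₂' : CMod C R'}
    {f : Hom φ N₁ N₁'} {f' : Hom φ N₂ N₂'} (h : f.IsPullback) (h' : f'.IsPullback)
    (e : Iso N₁ N₂) : Nonempty (Iso N₁' N₂') :=
  h.unique (h'.HomOps_compIso e)

theorem HomOps_m01_xUnit (φ : R →ₐ[K] R') (m : ℤ) :
    (C.m01 φ).toRingHom (((xUnit C R) ^ m : (C.S01 R)ˣ) : C.S01 R)
      = (((xUnit C R') ^ m : (C.S01 R')ˣ) : C.S01 R') := by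
  have h1 : Units.map ((C.m01 φ).toRingHom : C.S01 R →* C.S01 R') (xUnit C R) = xUnit C R' := by
    apply Units.ext
    simp [xUnit]
  rw [← h1, ← map_zpow]
  rfl

/-- the induced morphism of `P1Mod`s (after any twist) -/
noncomputable def Hom.toP1 {φ : R →ₐ[K] R'} {N : CMod C R} {N' : CMod C R'} (f : Hom φ N N')
    (m : ℤ) : P1Mod.Hom φ.toRingHom (N.toP1Mod.twist m) (N'.toP1Mod.twist m) where
  f0 := restrictSemi (M := N.N0) (M' := N'.N0) φ.toRingHom (C.m0 φ).toRingHom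
    (C.HomOps_m0_algebraMap φ) f.f0
  f1 := restrictSemi (M := N.N1) (M' := N'.N1) φ.toRingHom (C.m1 φ).toRingHom
    (C.HomOps_m1_algebraMap φ) f.f1
  f01 := restrictSemi (M := N.N01) (M' := N'.N01) φ.toRingHom (C.m01 φ).toRingHom
    (C.HomOps_m01_algebraMap φ) f.f01
  f0_x := fun (p : N.N0) => by
    show f.f0 (((1 : R) ⊗ₜ[K] C.x : C.S0 R) • p) = ((1 : R') ⊗ₜ[K] C.x : C.S0 R') • f.f0 p
    rw [f.f0.map_smulₛₗ]
    congr 1
    simp
  f1_y := fun (p : N.N1) => by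
    show f.f1 (((1 : R) ⊗ₜ[K] C.y : C.S1 R) • p) = ((1 : R') ⊗ₜ[K] C.y : C.S1 R') • f.f1 p
    rw [f.f1.map_smulₛₗ]
    congr 1
    simp
  f01_x := fun (p : N.N01) => by
    show f.f01 (((1 : R) ⊗ₜ[K] C.j0 C.x : C.S01 R) • p)
      = ((1 : R') ⊗ₜ[K] C.j0 C.x : C.S01 R') • f.f01 p
    rw [f.f01.map_smulₛₗ]
    congr 1
    simp
  f_i0 := fun p => f.comm0 p
  f_i1 := fun (p : N.N1) => by
    show f.f01 ((N.toP1Mod.x01 ^ m) (N.r1 p)) = (N'.toP1Mod.x01 ^ m) (N'.r1 (f.f1 p))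
    rw [toP1Mod_x01_zpow_apply, toP1Mod_x01_zpow_apply, f.f01.map_smulₛₗ, f.comm1,
      HomOps_m01_xUnit]

theorem Hom.IsPullback.isBC_toP1 {φ : R →ₐ[K] R'} {N : CMod C R} {N' : CMod C R'}
    {f : Hom φ N N'} (h : f.IsPullback) (m : ℤ) : (f.toP1 m).IsBC where
  bc0 := IsBC.restrict φ.toRingHom (C.m0 φ).toRingHom (C.HomOps_m0_algebraMap φ)
    (HomOps_isBC_map φ _) f.f0 h.isBC0
  bc1 := IsBC.restrict φ.toRingHom (C.m1 φ).toRingHom (C.HomOps_m1_algebraMap φ)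
    (HomOps_isBC_map φ _) f.f1 h.isBC1
  bc01 := IsBC.restrict φ.toRingHom (C.m01 φ).toRingHom (C.HomOps_m01_algebraMap φ)
    (HomOps_isBC_map φ _) f.f01 h.isBC01

end CMod

end Fermat.Agent.S26
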