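/-
S26 / Curve / Fam : operations on `LBun` (comap, tensor, dual), functoriality of `LBun.pull`,
base change of a `CMod`.   SKELETON (helper26): statements and data fields frozen (packages FAM-n).
-/
import Fermat.Agent.S26.Curve.CohDefs
import Fermat.Agent.S26.Curve.HomOps

set_option autoImplicit false

open scoped TensorProduct

universe u

namespace Fermat.Agent.S26

variable {K : Type u} [Field K]

/-- a morphism of functors -/
structure PtHom (X Y : PtF K) where
  app : ∀ {S : Type u} [CommRing S] [Algebra K S], X.pt S → Y.pt S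
  nat : ∀ {S S' : Type u} [CommRing S] [Algebra K S] [CommRing S'] [Algebra K S']
    (φ : S →ₐ[K] S') (a : X.pt S), Y.map φ (app a) = app (X.map φ a)

namespace LBun

variable {X Y : PtF K}

theorem isBC_bc (L : LBun X) {S S' : Type u} [CommRing S] [Algebra K S] [CommRing S'] [Algebra K S']
    (φ : S →ₐ[K] S') {a : X.pt S} {a' : X.pt S'} (h : X.map φ a = a') :
    IsBC φ.toRingHom (L.bc φ h) :=
  haveI := L.inv a
  haveI := L.inv a'
  isBC_of_span_of_invertible _ _ (L.bc_span φ h)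

/-- pull back of a line bundle along a morphism of functors -/
def comap (F : PtHom X Y) (L : LBun Y) : LBun X where
  M := fun a => L.M (F.app a)
  acg := fun a => L.acg (F.app a)
  mod := fun a => L.mod (F.app a)
  inv := fun a => L.inv _
  bc := fun {_ _} _ _ _ _ φ {a a'} h =>
    L.bc φ (show Y.map φ (F.app a) = F.app a' by rw [F.nat, h])
  bc_span := fun {_ _} _ _ _ _ φ {_ _} _ => L.bc_span φ _
  bc_id := fun {_} _ _ _ _ m => L.bc_id _ _ m
  bc_comp := fun {_ _ _} _ _ _ _ _ _ ψ φ {_ _ _} _ _ _ m => L.bc_comp ψ φ _ _ _ m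

/-- tensor product of line bundles -/
noncomputable def tensor (L L' : LBun X) : LBun X where
  M := fun {S} _ _ a => L.M a ⊗[S] L'.M a
  acg := fun a => inferInstance
  mod := fun a => inferInstance
  inv := fun a => haveI := L.inv a; haveI := L'.inv a; inferInstance
  bc := fun φ _ _ h => semiTensor _ (L.bc φ h) (L'.bc φ h)
  bc_span := fun φ _ _ h => (IsBC.tensor _ (L.isBC_bc φ h) (L'.isBC_bc φ h)).span_range _
  bc_id := fun a h m => by
    induction m using TensorProduct.induction_on with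
    | zero => exact map_zero _
    | tmul x y => rw [semiTensor_tmul, L.bc_id, L'.bc_id]
    | add x y hx hy => rw [map_add, hx, hy]
  bc_comp := fun ψ φ _ _ _ h h' h'' m => by
    induction m using TensorProduct.induction_on with
    | zero => simp only [map_zero]
    | tmul x y =>
      rw [semiTensor_tmul, semiTensor_tmul, semiTensor_tmul, L.bc_comp ψ φ h h' h'',
        L'.bc_comp ψ φ h h' h'']
    | add x y hx hy => rw [map_add, map_add, map_add, hx, hy]

/-- dual line bundle -/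
noncomputable def dual (L : LBun X) : LBun X where
  M := fun {S} _ _ a => Module.Dual S (L.M a)
  acg := fun a => inferInstance
  mod := fun a => inferInstance
  inv := fun a => haveI := L.inv a; inferInstance
  bc := fun φ _ _ h => semiDual _ (L.isBC_bc φ h)
  bc_span := fun φ a _ h => haveI := L.inv a; (IsBC.dual _ (L.isBC_bc φ h)).span_range _
  bc_id := fun a h m => by
    apply (L.isBC_bc (AlgHom.id K _) h).ext
    intro x
    rw [semiDual_apply, L.bc_id]
    rfl
  bc_comp := fun ψ φ _ _ _ h h' h'' m => by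
    apply (L.isBC_bc (ψ.comp φ) h'').ext
    intro x
    rw [semiDual_apply, ← L.bc_comp ψ φ h h' h'', semiDual_apply, semiDual_apply]
    rfl

end LBun

namespace CPt

variable {C : Curve K} {X Y : PtF K} {R R' : Type u} [CommRing R] [Algebra K R] [CommRing R']
  [Algebra K R']

/-- composition of `C × Spec R → X` with `X → Y` -/
def comp (F : PtHom X Y) (u : CPt C X R) : CPt C Y R where
  u0 := F.app u.u0
  u1 := F.app u.u1
  u01 := F.app u.u01
  h0 := by rw [F.nat, u.h0]
  h1 := by rw [F.nat, u.h1]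

end CPt

section pull

variable {C : Curve K} {X Y : PtF K} {R R' : Type u} [CommRing R] [Algebra K R] [CommRing R']
  [Algebra K R']

theorem LBun.pull_comap (F : PtHom X Y) (L : LBun Y) (u : CPt C X R) :
    (L.comap F).pull u = L.pull (u.comp F) := rfl

theorem LBun.pull_tensor (L L' : LBun X) (u : CPt C X R) :
    (L.tensor L').pull u = (L.pull u).tensor (L'.pull u) := rfl

theorem LBun.pull_dual (L : LBun X) (u : CPt C X R) :
    (L.dual).pull u = (L.pull u).dual := rfl

theorem LBun.Fam_bc_congr (L : LBun X) {S S' : Type u} [CommRing S] [Algebra K S] [CommRing S']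
    [Algebra K S'] {φ φ' : S →ₐ[K] S'} (hφ : φ = φ') {a : X.pt S} {a' : X.pt S'}
    (h : X.map φ a = a') (h' : X.map φ' a = a') (m : L.M a) : L.bc φ h m = L.bc φ' h' m := by
  subst hφ
  rfl

theorem LBun.Fam_bc_square (L : LBun X) {S S₁ S₂ T : Type u} [CommRing S] [Algebra K S]
    [CommRing S₁] [Algebra K S₁] [CommRing S₂] [Algebra K S₂] [CommRing T] [Algebra K T]
    (φ : S →ₐ[K] S₁) (ψ : S₁ →ₐ[K] T) (φ₂ : S →ₐ[K] S₂) (ψ₂ : S₂ →ₐ[K] T)
    (hc : ψ.comp φ = ψ₂.comp φ₂) {a : X.pt S} {a₁ : X.pt S₁} {a₂ : X.pt S₂} {b : X.pt T}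
    (h : X.map φ a = a₁) (h' : X.map ψ a₁ = b) (k : X.map φ₂ a = a₂) (k' : X.map ψ₂ a₂ = b)
    (m : L.M a) : L.bc ψ h' (L.bc φ h m) = L.bc ψ₂ k' (L.bc φ₂ k m) := by
  rw [L.bc_comp ψ φ h h' (by rw [X.map_comp, h, h']),
    L.bc_comp ψ₂ φ₂ k k' (by rw [X.map_comp, k, k'])]
  exact L.Fam_bc_congr hc _ _ m

/-- FAM-2 : functoriality of the pull back in the base `R` -/
noncomputable def LBun.pullHom (L : LBun X) (φ : R →ₐ[K] R') (u : CPt C X R) {u' : CPt C X R'}
    (h : u.map φ = u') : CMod.Hom φ (L.pull u) (L.pull u') where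
  f0 := L.bc (C.m0 φ) (by rw [← h]; rfl)
  f1 := L.bc (C.m1 φ) (by rw [← h]; rfl)
  f01 := L.bc (C.m01 φ) (by rw [← h]; rfl)
  comm0 := fun n => L.Fam_bc_square (C.J0 R) (C.m01 φ) (C.m0 φ) (C.J0 R')
    (by ext <;> simp) _ _ _ _ n
  comm1 := fun n => L.Fam_bc_square (C.J1 R) (C.m01 φ) (C.m1 φ) (C.J1 R')
    (by ext <;> simp) _ _ _ _ n

theorem LBun.pullHom_isPullback (L : LBun X) (φ : R →ₐ[K] R') (u : CPt C X R) {u' : CPt C X R'}
    (h : u.map φ = u') : (L.pullHom φ u h).IsPullback :=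
  ⟨L.bc_span _ _, L.bc_span _ _, L.bc_span _ _⟩

/-- the base change of a generator generates -/
theorem LBun.Fam_span_bc_gen (L : LBun X) {S S' : Type u} [CommRing S] [Algebra K S] [CommRing S']
    [Algebra K S'] (φ : S →ₐ[K] S') {a : X.pt S} {a' : X.pt S'} (h : X.map φ a = a') (m₀ : L.M a)
    (hm₀ : ∀ m : L.M a, ∃ c : S, m = c • m₀) :
    Function.Surjective (LinearMap.toSpanSingleton S' (L.M a') (L.bc φ h m₀)) := by
  rw [← LinearMap.range_eq_top, LinearMap.range_toSpanSingleton, eq_top_iff, ← L.bc_span φ h,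
    Submodule.span_le]
  rintro _ ⟨m, rfl⟩
  obtain ⟨c, rfl⟩ := hm₀ m
  rw [(L.bc φ h).map_smulₛₗ]
  exact Submodule.smul_mem _ _ (Submodule.mem_span_singleton_self _)

/-- the trivialisation defined by a generator -/
noncomputable def LBun.Fam_triv (L : LBun X) {S S' : Type u} [CommRing S] [Algebra K S]
    [CommRing S'] [Algebra K S'] (φ : S →ₐ[K] S') {a : X.pt S} {a' : X.pt S'}
    (h : X.map φ a = a') (m₀ : L.M a) (hm₀ : ∀ m : L.M a, ∃ c : S, m = c • m₀) :
    S' ≃ₗ[S'] L.M a' :=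
  haveI := L.inv a'
  LinearEquiv.ofBijective (LinearMap.toSpanSingleton S' (L.M a') (L.bc φ h m₀))
    (Module.Invertible.bijective_of_surjective (L.Fam_span_bc_gen φ h m₀ hm₀))

theorem LBun.Fam_triv_apply (L : LBun X) {S S' : Type u} [CommRing S] [Algebra K S]
    [CommRing S'] [Algebra K S'] (φ : S →ₐ[K] S') {a : X.pt S} {a' : X.pt S'}
    (h : X.map φ a = a') (m₀ : L.M a) (hm₀ : ∀ m : L.M a, ∃ c : S, m = c • m₀) (s : S') :
    L.Fam_triv φ h m₀ hm₀ s = s • L.bc φ h m₀ := rfl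

theorem LBun.Fam_triv_comm (L : LBun X) {S S₀ S₁ : Type u} [CommRing S] [Algebra K S]
    [CommRing S₀] [Algebra K S₀] [CommRing S₁] [Algebra K S₁] (φ₀ : S →ₐ[K] S₀) (φ₁ : S →ₐ[K] S₁)
    (J : S₀ →ₐ[K] S₁) (hJ : J.comp φ₀ = φ₁) {a : X.pt S} {a₀ : X.pt S₀} {a₁ : X.pt S₁}
    (h₀ : X.map φ₀ a = a₀) (h₁ : X.map φ₁ a = a₁) (hJ' : X.map J a₀ = a₁) (m₀ : L.M a)
    (hm₀ : ∀ m : L.M a, ∃ c : S, m = c • m₀) (s : S₀) :
    L.Fam_triv φ₁ h₁ m₀ hm₀ (J s) = L.bc J hJ' (L.Fam_triv φ₀ h₀ m₀ hm₀ s) := by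
  rw [LBun.Fam_triv_apply, LBun.Fam_triv_apply, (L.bc J hJ').map_smulₛₗ,
    L.bc_comp J φ₀ h₀ hJ' (by rw [X.map_comp, h₀, hJ'])]
  congr 1
  exact L.Fam_bc_congr hJ.symm _ _ _

/-- the pull back along a constant map is trivial -/
theorem LBun.pull_cst_iso (L : LBun X) (a : X.pt K) :
    Nonempty (CMod.Iso (CMod.one C K) (L.pull (CPt.cst C a))) := by
  have := L.inv a
  obtain ⟨e⟩ := Module.Invertible.free_iff_linearEquiv.1 (Module.Free.of_divisionRing K (L.M a))
  have hm₀ : ∀ m : L.M a, ∃ c : K, m = c • e.symm 1 := fun m =>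
    ⟨e m, by rw [← map_smul, smul_eq_mul, mul_one, e.symm_apply_apply]⟩
  exact ⟨{
    e0 := L.Fam_triv (Algebra.TensorProduct.includeLeft : K →ₐ[K] C.S0 K) rfl (e.symm 1) hm₀
    e1 := L.Fam_triv (Algebra.TensorProduct.includeLeft : K →ₐ[K] C.S1 K) rfl (e.symm 1) hm₀
    e01 := L.Fam_triv (Algebra.TensorProduct.includeLeft : K →ₐ[K] C.S01 K) rfl (e.symm 1) hm₀
    comm0 := fun s => L.Fam_triv_comm _ _ (C.J0 K) (by ext) rfl rfl (CPt.cst C a).h0 _ hm₀ s
    comm1 := fun s => L.Fam_triv_comm _ _ (C.J1 K) (by ext) rfl rfl (CPt.cst C a).h1 _ hm₀ s }⟩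

/-- equal points have isomorphic pull backs -/
theorem LBun.pull_congr (L : LBun X) {u u' : CPt C X R} (h : u = u') :
    Nonempty (CMod.Iso (L.pull u) (L.pull u')) := by
  subst h
  exact ⟨CMod.Iso.refl _⟩

end pull

/-! ### FAM-1 : base change of a line bundle on `C × Spec R` -/

/-- base change of a module along a ring hom, as an opaque package -/
theorem Fam_exists_isBC {S S' : Type u} [CommRing S] [CommRing S'] (φ : S →+* S') (M : Type u)
    [AddCommGroup M] [Module S M] :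
    ∃ (M' : Type u) (_ : AddCommGroup M') (_ : Module S' M') (g : M →ₛₗ[φ] M'), IsBC φ g := by
  let _ := φ.toAlgebra
  exact ⟨S' ⊗[S] M, inferInstance, inferInstance, semiMk φ, isBC_semiMk φ⟩

/-- a semilinear map descends along base changes over a commutative square of rings -/
theorem Fam_exists_square {S T S' T' : Type u} [CommRing S] [CommRing T] [CommRing S']
    [CommRing T'] (J : S →+* T) (J' : S' →+* T') (m : S →+* S') (m' : T →+* T')
    (hsq : ∀ s, m' (J s) = J' (m s))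
    {M M' P P' : Type u} [AddCommGroup M] [Module S M] [AddCommGroup M'] [Module S' M']
    [AddCommGroup P] [Module T P] [AddCommGroup P'] [Module T' P']
    (r : M →ₛₗ[J] P) {g : M →ₛₗ[m] M'} (hg : IsBC m g) (g' : P →ₛₗ[m'] P') :
    ∃ r' : M' →ₛₗ[J'] P', ∀ n, r' (g n) = g' (r n) := by
  let _ : Module S' P' := Module.compHom P' J'
  let f : M →ₛₗ[m] P' :=
    { toFun := fun n => g' (r n)
      map_add' := fun a b => by rw [map_add, map_add]
      map_smul' := fun s n => by
        rw [r.map_smulₛₗ, g'.map_smulₛₗ, hsq]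
        rfl }
  let F : M' →ₗ[S'] P' := SemiBC_lift m hg f
  refine ⟨{ toFun := F, map_add' := F.map_add, map_smul' := fun s n => F.map_smul s n }, fun n => ?_⟩
  exact SemiBC_lift_apply m hg f n

theorem Fam_span_square {S T S' T' : Type u} [CommRing S] [CommRing T] [CommRing S']
    [CommRing T'] (J : S →+* T) (J' : S' →+* T') (m : S →+* S') (m' : T →+* T')
    {M M' P P' : Type u} [AddCommGroup M] [Module S M] [AddCommGroup M'] [Module S' M']
    [AddCommGroup P] [Module T P] [AddCommGroup P'] [Module T' P']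
    (r : M →ₛₗ[J] P) (g : M →ₛₗ[m] M') (g' : P →ₛₗ[m'] P') (r' : M' →ₛₗ[J'] P')
    (h : ∀ n, r' (g n) = g' (r n)) (hr : Submodule.span T (Set.range r) = ⊤)
    (hg' : Submodule.span T' (Set.range g') = ⊤) :
    Submodule.span T' (Set.range r') = ⊤ := by
  rw [eq_top_iff, ← hg', Submodule.span_le]
  rintro _ ⟨p, rfl⟩
  have hp : p ∈ Submodule.span T (Set.range r) := hr ▸ Submodule.mem_top
  induction hp using Submodule.span_induction with
  | mem x hx =>
    obtain ⟨n, rfl⟩ := hx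
    exact Submodule.subset_span ⟨g n, h n⟩
  | zero => rw [map_zero]; exact zero_mem _
  | add x y _ _ hx hy => rw [map_add]; exact add_mem hx hy
  | smul a x _ hx => rw [g'.map_smulₛₗ]; exact Submodule.smul_mem _ _ hx

theorem Fam_span_comp {S S' S'' : Type u} [CommRing S] [CommRing S'] [CommRing S'']
    (φ : S →+* S') (ψ : S' →+* S'') (χ : S →+* S'') [RingHomCompTriple φ ψ χ]
    {M M' M'' : Type u} [AddCommGroup M] [Module S M] [AddCommGroup M'] [Module S' M']
    [AddCommGroup M''] [Module S'' M''] (g : M →ₛₗ[φ] M') (g' : M' →ₛₗ[ψ] M'')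
    (hg : Submodule.span S' (Set.range g) = ⊤) (hg' : Submodule.span S'' (Set.range g') = ⊤) :
    Submodule.span S'' (Set.range (g'.comp g : M →ₛₗ[χ] M'')) = ⊤ := by
  rw [eq_top_iff, ← hg', Submodule.span_le]
  rintro _ ⟨p, rfl⟩
  have hp : p ∈ Submodule.span S' (Set.range g) := hg ▸ Submodule.mem_top
  induction hp using Submodule.span_induction with
  | mem x hx =>
    obtain ⟨n, rfl⟩ := hx
    exact Submodule.subset_span ⟨n, rfl⟩
  | zero => rw [map_zero]; exact zero_mem _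
  | add x y _ _ hx hy => rw [map_add]; exact add_mem hx hy
  | smul a x _ hx => rw [g'.map_smulₛₗ]; exact Submodule.smul_mem _ _ hx

namespace CMod

variable {C : Curve K} {R R' : Type u} [CommRing R] [Algebra K R] [CommRing R'] [Algebra K R']

theorem Fam_sq0 (φ : R →ₐ[K] R') (s : C.S0 R) :
    (C.m01 φ).toRingHom ((C.J0 R).toRingHom s) = (C.J0 R').toRingHom ((C.m0 φ).toRingHom s) := by
  have : (C.m01 φ).comp (C.J0 R) = (C.J0 R').comp (C.m0 φ) := by
    ext <;> simp
  exact DFunLike.congr_fun this s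

theorem Fam_sq1 (φ : R →ₐ[K] R') (s : C.S1 R) :
    (C.m01 φ).toRingHom ((C.J1 R).toRingHom s) = (C.J1 R').toRingHom ((C.m1 φ).toRingHom s) := by
  have : (C.m01 φ).comp (C.J1 R) = (C.J1 R').comp (C.m1 φ) := by
    ext <;> simp
  exact DFunLike.congr_fun this s

theorem exists_bc (φ : R →ₐ[K] R') (N : CMod C R) :
    ∃ (N' : CMod C R') (f : Hom φ N N'), f.IsPullback := by
  obtain ⟨N0', _, _, g0, hg0⟩ := Fam_exists_isBC (C.m0 φ).toRingHom N.N0
  obtain ⟨N1', _, _, g1, hg1⟩ := Fam_exists_isBC (C.m1 φ).toRingHom N.N1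
  obtain ⟨N01', _, _, g01, hg01⟩ := Fam_exists_isBC (C.m01 φ).toRingHom N.N01
  obtain ⟨r0', h0⟩ := Fam_exists_square (C.J0 R).toRingHom (C.J0 R').toRingHom _ _
    (Fam_sq0 φ) N.r0 hg0 g01
  obtain ⟨r1', h1⟩ := Fam_exists_square (C.J1 R).toRingHom (C.J1 R').toRingHom _ _
    (Fam_sq1 φ) N.r1 hg1 g01
  have i0 := N.inv0
  have i1 := N.inv1
  have i01 := N.inv01
  refine ⟨{ N0 := N0', N1 := N1', N01 := N01'
            inv0 := hg0.invertible, inv1 := hg1.invertible, inv01 := hg01.invertible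
            r0 := r0', r1 := r1'
            span0 := Fam_span_square _ _ _ _ N.r0 g0 g01 r0' h0 N.span0 (hg01.span_range _)
            span1 := Fam_span_square _ _ _ _ N.r1 g1 g01 r1' h1 N.span1 (hg01.span_range _) },
    { f0 := g0, f1 := g1, f01 := g01, comm0 := fun n => (h0 n).symm, comm1 := fun n => (h1 n).symm },
    ⟨hg0.span_range _, hg1.span_range _, hg01.span_range _⟩⟩

/-- the base change of `N` along `φ` -/
noncomputable def bc (φ : R →ₐ[K] R') (N : CMod C R) : CMod C R' := (exists_bc φ N).choose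

noncomputable def bcHom (φ : R →ₐ[K] R') (N : CMod C R) : Hom φ N (N.bc φ) :=
  (exists_bc φ N).choose_spec.choose

theorem bcHom_isPullback (φ : R →ₐ[K] R') (N : CMod C R) : (bcHom φ N).IsPullback :=
  (exists_bc φ N).choose_spec.choose_spec

instance Fam_triple0 {R'' : Type u} [CommRing R''] [Algebra K R''] (φ : R →ₐ[K] R')
    (ψ : R' →ₐ[K] R'') : RingHomCompTriple (C.m0 φ).toRingHom (C.m0 ψ).toRingHom
      (C.m0 (ψ.comp φ)).toRingHom :=
  ⟨by
    have : (C.m0 ψ).comp (C.m0 φ) = C.m0 (ψ.comp φ) := by ext <;> simp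
    exact congrArg AlgHom.toRingHom this⟩

instance Fam_triple1 {R'' : Type u} [CommRing R''] [Algebra K R''] (φ : R →ₐ[K] R')
    (ψ : R' →ₐ[K] R'') : RingHomCompTriple (C.m1 φ).toRingHom (C.m1 ψ).toRingHom
      (C.m1 (ψ.comp φ)).toRingHom :=
  ⟨by
    have : (C.m1 ψ).comp (C.m1 φ) = C.m1 (ψ.comp φ) := by ext <;> simp
    exact congrArg AlgHom.toRingHom this⟩

instance Fam_triple01 {R'' : Type u} [CommRing R''] [Algebra K R''] (φ : R →ₐ[K] R')
    (ψ : R' →ₐ[K] R'') : RingHomCompTriple (C.m01 φ).toRingHom (C.m01 ψ).toRingHom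
      (C.m01 (ψ.comp φ)).toRingHom :=
  ⟨by
    have : (C.m01 ψ).comp (C.m01 φ) = C.m01 (ψ.comp φ) := by ext <;> simp
    exact congrArg AlgHom.toRingHom this⟩

/-- composition of pull backs -/
noncomputable def Hom.comp {R'' : Type u} [CommRing R''] [Algebra K R''] {φ : R →ₐ[K] R'}
    {ψ : R' →ₐ[K] R''} {N : CMod C R} {N' : CMod C R'} {N'' : CMod C R''} (f' : Hom ψ N' N'')
    (f : Hom φ N N') : Hom (ψ.comp φ) N N'' where
  f0 := f'.f0.comp f.f0
  f1 := f'.f1.comp f.f1
  f01 := f'.f01.comp f.f01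
  comm0 := fun n => by
    rw [LinearMap.comp_apply, LinearMap.comp_apply, f.comm0, f'.comm0]
  comm1 := fun n => by
    rw [LinearMap.comp_apply, LinearMap.comp_apply, f.comm1, f'.comm1]

theorem Hom.IsPullback.comp {R'' : Type u} [CommRing R''] [Algebra K R''] {φ : R →ₐ[K] R'}
    {ψ : R' →ₐ[K] R''} {N : CMod C R} {N' : CMod C R'} {N'' : CMod C R''} {f' : Hom ψ N' N''}
    {f : Hom φ N N'} (h' : f'.IsPullback) (h : f.IsPullback) : (f'.comp f).IsPullback where
  span0 := Fam_span_comp _ _ _ f.f0 f'.f0 h.span0 h'.span0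
  span1 := Fam_span_comp _ _ _ f.f1 f'.f1 h.span1 h'.span1
  span01 := Fam_span_comp _ _ _ f.f01 f'.f01 h.span01 h'.span01

end CMod

end Fermat.Agent.S26
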