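/-
S26 / Curve / CV-0 : the rings `R ⊗ B_ε`: domains, injectivity, finite type, free bases,
`B01` is a Dedekind domain.
-/
import Fermat.Agent.S26.Curve.Defs
import Fermat.Agent.S27.B.TensorDomain

set_option autoImplicit false
set_option linter.unusedSectionVars false
set_option linter.style.haveILetI false

open scoped TensorProduct

universe u

namespace Fermat.Agent.S26

/-! ### generic lemmas -/

section CV0Aux

open Polynomial

/-- `id ⊗ j` is injective over a field. -/
theorem CV0_map_injective {K R B B' : Type*} [Field K] [CommRing R] [Algebra K R] [CommRing B]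
    [Algebra K B] [CommRing B'] [Algebra K B'] (j : B →ₐ[K] B') (hj : Function.Injective j) :
    Function.Injective (Algebra.TensorProduct.map (AlgHom.id K R) j) := by
  have h1 : Function.Injective (LinearMap.lTensor R j.toLinearMap) :=
    Module.Flat.lTensor_preserves_injective_linearMap j.toLinearMap hj
  have h2 : ∀ t : R ⊗[K] B, Algebra.TensorProduct.map (AlgHom.id K R) j t
      = LinearMap.lTensor R j.toLinearMap t := by
    intro t
    induction t using TensorProduct.induction_on with
    | zero => simp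
    | tmul r b => simp
    | add s t hs ht => rw [map_add, map_add, hs, ht]
  intro a b hab
  rw [h2, h2] at hab
  exact h1 hab

/-- an algebra with a finite "basis" over `K[x]` is of finite type. -/
theorem CV0_finiteType {K B : Type*} [CommRing K] [CommRing B] [Algebra K B] (x : B)
    {ι : Type*} [Fintype ι] (e : ι → B)
    (hb : ∀ b : B, ∃ p : ι → K[X], b = ∑ i, aeval x (p i) * e i) : Algebra.FiniteType K B := by
  refine ⟨Subalgebra.fg_def.2 ⟨insert x (Set.range e),
    (Set.finite_range e).insert x, ?_⟩⟩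
  rw [eq_top_iff]
  rintro b -
  obtain ⟨p, rfl⟩ := hb b
  refine Subalgebra.sum_mem _ fun i _ => Subalgebra.mul_mem _ ?_ ?_
  · exact Algebra.adjoin_mono (Set.singleton_subset_iff.2 (Set.mem_insert _ _))
      (aeval_mem_adjoin_singleton K x)
  · exact Algebra.subset_adjoin (Set.mem_insert_of_mem _ ⟨i, rfl⟩)

/-- the linear map `p ↦ ∑ i, p i (X) * E i`. -/
noncomputable def CV0_lin (A : Type*) {S : Type*} [CommRing A] [CommRing S] [Algebra A S] (X : S)
    {ι : Type*} [Fintype ι] (E : ι → S) : (ι → A[X]) →ₗ[A] S :=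
  ∑ i, (LinearMap.mulRight A (E i)) ∘ₗ (aeval X).toLinearMap ∘ₗ (LinearMap.proj i)

theorem CV0_lin_apply (A : Type*) {S : Type*} [CommRing A] [CommRing S] [Algebra A S] (X : S)
    {ι : Type*} [Fintype ι] (E : ι → S) (p : ι → A[X]) :
    CV0_lin A X E p = ∑ i, aeval X (p i) * E i := by
  simp [CV0_lin, LinearMap.sum_apply]

theorem CV0_lin_single (A : Type*) {S : Type*} [CommRing A] [CommRing S] [Algebra A S] (X : S)
    {ι : Type*} [Fintype ι] [DecidableEq ι] (E : ι → S) (i : ι) (P : A[X]) :
    CV0_lin A X E (Pi.single i P) = aeval X P * E i := by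
  rw [CV0_lin_apply, Finset.sum_eq_single i]
  · rw [Pi.single_eq_same]
  · intro j _ hj
    rw [Pi.single_eq_of_ne hj, map_zero, zero_mul]
  · intro h
    exact absurd (Finset.mem_univ i) h

/-- base change of a free basis over `K[x]`. -/
theorem CV0_lin_bijective {K R B : Type*} [CommRing K] [CommRing R] [Algebra K R] [CommRing B]
    [Algebra K B] (x : B) {ι : Type*} [Fintype ι] (e : ι → B)
    (hb : Function.Bijective (CV0_lin K x e)) :
    Function.Bijective
      (CV0_lin R ((1 : R) ⊗ₜ[K] x : R ⊗[K] B) (fun i => ((1 : R) ⊗ₜ[K] e i : R ⊗[K] B))) := by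
  classical
  let φ : (ι → K[X]) ≃ₗ[K] B := LinearEquiv.ofBijective (CV0_lin K x e) hb
  let bK : Module.Basis (Σ _ : ι, ℕ) K B := (Pi.basis fun _ : ι => basisMonomials K).map φ
  let bR : Module.Basis (Σ _ : ι, ℕ) R (R ⊗[K] B) := Algebra.TensorProduct.basis R bK
  let bP : Module.Basis (Σ _ : ι, ℕ) R (ι → R[X]) := Pi.basis fun _ : ι => basisMonomials R
  have hbK : ∀ a : Σ _ : ι, ℕ, bK a = x ^ a.2 * e a.1 := by
    intro a
    show CV0_lin K x e ((Pi.basis fun _ : ι => basisMonomials K) a) = _
    rw [Pi.basis_apply, CV0_lin_single, coe_basisMonomials, aeval_monomial, map_one, one_mul]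
  have key : CV0_lin R ((1 : R) ⊗ₜ[K] x : R ⊗[K] B) (fun i => ((1 : R) ⊗ₜ[K] e i : R ⊗[K] B))
      = (bP.equiv bR (Equiv.refl _)).toLinearMap := by
    apply bP.ext
    intro a
    rw [LinearEquiv.coe_coe, Module.Basis.equiv_apply, Equiv.refl_apply,
      Algebra.TensorProduct.basis_apply, hbK, Pi.basis_apply, CV0_lin_single, coe_basisMonomials,
      aeval_monomial, map_one, one_mul, Algebra.TensorProduct.tmul_pow, one_pow,
      Algebra.TensorProduct.tmul_mul_tmul, one_mul]
  rw [key]
  exact (bP.equiv bR (Equiv.refl _)).bijective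

theorem CV0_bijective_of_existsUnique {A S : Type*} [CommRing A] [CommRing S] [Algebra A S] (X : S)
    {ι : Type*} [Fintype ι] (E : ι → S)
    (hb : ∀ b : S, ∃! p : ι → A[X], b = ∑ i, aeval X (p i) * E i) :
    Function.Bijective (CV0_lin A X E) := by
  constructor
  · intro p p' h
    obtain ⟨p₀, -, hu⟩ := hb (CV0_lin A X E p)
    rw [hu p (CV0_lin_apply A X E p), hu p' (h.trans (CV0_lin_apply A X E p'))]
  · intro b
    obtain ⟨p, hp, -⟩ := hb b
    exact ⟨p, (CV0_lin_apply A X E p).trans hp.symm⟩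

theorem CV0_existsUnique_of_bijective {A S : Type*} [CommRing A] [CommRing S] [Algebra A S] (X : S)
    {ι : Type*} [Fintype ι] (E : ι → S) (hb : Function.Bijective (CV0_lin A X E)) (b : S) :
    ∃! p : ι → A[X], b = ∑ i, aeval X (p i) * E i := by
  obtain ⟨p, hp⟩ := hb.2 b
  refine ⟨p, by rw [← hp, CV0_lin_apply], fun p' hp' => hb.1 ?_⟩
  rw [hp, CV0_lin_apply, ← hp']

/-- `B' = B[1/x]`. -/
theorem CV0_isLocalization {B B' : Type*} [CommRing B] [CommRing B'] [Algebra B B'] (x : B)
    (y' : B') (hinj : Function.Injective (algebraMap B B')) (hxy : algebraMap B B' x * y' = 1)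
    (hloc : ∀ b : B', ∃ (n : ℕ) (a : B), b * algebraMap B B' x ^ n = algebraMap B B' a) :
    IsLocalization.Away x B' := by
  rw [IsLocalization.Away, isLocalization_iff]
  refine ⟨?_, ?_, ?_⟩
  · rintro ⟨_, n, rfl⟩
    rw [map_pow]
    exact (IsUnit.of_mul_eq_one _ hxy).pow n
  · intro b
    obtain ⟨n, a, h⟩ := hloc b
    exact ⟨(a, ⟨x ^ n, n, rfl⟩), by rw [map_pow]; exact h⟩
  · intro a b hab
    exact ⟨1, by rw [hinj hab]⟩

end CV0Aux

variable {K : Type u} [Field K] [IsAlgClosed K]

namespace Curve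

variable (C : Curve K) (R : Type u) [CommRing R] [Algebra K R]

theorem isDomain_S0 [IsDomain R] : IsDomain (C.S0 R) :=
  Fermat.Agent.S27.isDomain_tensorProduct_of_isAlgClosed K R C.B0
theorem isDomain_S1 [IsDomain R] : IsDomain (C.S1 R) :=
  Fermat.Agent.S27.isDomain_tensorProduct_of_isAlgClosed K R C.B1
theorem isDomain_S01 [IsDomain R] : IsDomain (C.S01 R) :=
  Fermat.Agent.S27.isDomain_tensorProduct_of_isAlgClosed K R C.B01
theorem J0_injective : Function.Injective (C.J0 R) := CV0_map_injective C.j0 C.j0_inj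
theorem J1_injective : Function.Injective (C.J1 R) := CV0_map_injective C.j1 C.j1_inj
theorem finiteType_B0 : Algebra.FiniteType K C.B0 :=
  CV0_finiteType C.x C.e0 fun b => (C.basis0 b).exists
theorem finiteType_B1 : Algebra.FiniteType K C.B1 :=
  CV0_finiteType C.y C.e1 fun b => (C.basis1 b).exists
theorem finiteType_B01 : Algebra.FiniteType K C.B01 := by
  letI : Algebra C.B0 C.B01 := C.j0.toRingHom.toAlgebra
  haveI : IsScalarTower K C.B0 C.B01 := IsScalarTower.of_algebraMap_eq' C.j0.comp_algebraMap.symm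
  haveI : IsLocalization.Away C.x C.B01 :=
    CV0_isLocalization C.x (C.j1 C.y) C.j0_inj C.xy C.loc0
  haveI := C.finiteType_B0
  exact Algebra.FiniteType.trans (S := C.B0) inferInstance
    (IsLocalization.finiteType_of_monoid_fg (Submonoid.powers C.x) C.B01)
theorem isDedekindDomain_B01 : IsDedekindDomain C.B01 := by
  letI : Algebra C.B0 C.B01 := C.j0.toRingHom.toAlgebra
  haveI : IsLocalization.Away C.x C.B01 :=
    CV0_isLocalization C.x (C.j1 C.y) C.j0_inj C.xy C.loc0
  have hx : C.x ≠ 0 := by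
    intro h
    have := C.xy
    rw [h, map_zero, zero_mul] at this
    exact zero_ne_one this
  exact IsLocalization.isDedekindDomain C.B0
    (powers_le_nonZeroDivisors_of_noZeroDivisors hx) C.B01
theorem r_pos : 0 < C.r := by
  rcases Nat.eq_zero_or_pos C.r with h | h
  · exfalso
    obtain ⟨p, hp, -⟩ := C.basis0 1
    have : IsEmpty (Fin C.r) := by rw [h]; infer_instance
    rw [Finset.univ_eq_empty, Finset.sum_empty] at hp
    exact one_ne_zero hp
  · exact h
theorem S0_basis (s : C.S0 R) : ∃! p : Fin C.r → Polynomial R,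
    s = ∑ i, Polynomial.aeval ((1 : R) ⊗ₜ[K] C.x : C.S0 R) (p i) * ((1 : R) ⊗ₜ[K] C.e0 i) :=
  CV0_existsUnique_of_bijective _ _
    (CV0_lin_bijective C.x C.e0 (CV0_bijective_of_existsUnique C.x C.e0 C.basis0)) s
theorem S1_basis (s : C.S1 R) : ∃! p : Fin C.r → Polynomial R,
    s = ∑ i, Polynomial.aeval ((1 : R) ⊗ₜ[K] C.y : C.S1 R) (p i) * ((1 : R) ⊗ₜ[K] C.e1 i) :=
  CV0_existsUnique_of_bijective _ _
    (CV0_lin_bijective C.y C.e1 (CV0_bijective_of_existsUnique C.y C.e1 C.basis1)) s

end Curve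

end Fermat.Agent.S26
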