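/-
S26 / Curve / CV1 : the restriction maps of a line bundle on `C × Spec R` are injective; `H^0`
(over a field) and `H^1` are finite (package CV-1).
-/
import Fermat.Agent.S26.Curve.CohDefs
import Fermat.Agent.S26.P1.Finite
import Fermat.Agent.S26.P1.Embedding

set_option autoImplicit false

open scoped TensorProduct

universe u

namespace Fermat.Agent.S26

/-! ### abstract lemmas -/

section CV1Aux

/-- a base change map along an injective ring hom is injective on a flat module -/
theorem CV1_isBC_injective {S S' : Type u} [CommRing S] [CommRing S'] (φ : S →+* S')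
    {M M' : Type u} [AddCommGroup M] [Module S M] [AddCommGroup M'] [Module S' M']
    [Module.Flat S M] (g : M →ₛₗ[φ] M') (hg : IsBC φ g) (hφ : Function.Injective φ) :
    Function.Injective g := by
  letI := φ.toAlgebra
  letI := Module.compHom M' φ
  haveI : IsScalarTower S S' M' := IsScalarTower.of_algebraMap_smul fun _ _ => rfl
  have hbc : IsBaseChange S' (semiToLin φ g) := hg
  have h1 : Function.Injective (LinearMap.rTensor M (Algebra.linearMap S S')) :=
    Module.Flat.rTensor_preserves_injective_linearMap _ hφ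
  intro a b hab
  have h2 : hbc.equiv ((1 : S') ⊗ₜ[S] a) = hbc.equiv ((1 : S') ⊗ₜ[S] b) := by
    rw [IsBaseChange.equiv_tmul, IsBaseChange.equiv_tmul, one_smul, one_smul]
    exact hab
  have h3 := hbc.equiv.injective h2
  have h4 : LinearMap.rTensor M (Algebra.linearMap S S') ((1 : S) ⊗ₜ[S] a)
      = LinearMap.rTensor M (Algebra.linearMap S S') ((1 : S) ⊗ₜ[S] b) := by
    simpa using h3
  have h5 := h1 h4
  have h6 := congrArg (TensorProduct.lid S M) h5
  simpa using h6

/-- `id ⊗ j` is injective over a field -/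
theorem CV1_map_injective {K R B B' : Type u} [Field K] [CommRing R] [Algebra K R] [CommRing B]
    [Algebra K B] [CommRing B'] [Algebra K B'] (j : B →ₐ[K] B') (hj : Function.Injective j) :
    Function.Injective (Algebra.TensorProduct.map (AlgHom.id K R) j) := by
  have h1 : Function.Injective (LinearMap.lTensor R j.toLinearMap) :=
    Module.Flat.lTensor_preserves_injective_linearMap _ hj
  intro a b hab
  apply h1
  have h2 : ∀ t : R ⊗[K] B, LinearMap.lTensor R j.toLinearMap t
      = Algebra.TensorProduct.map (AlgHom.id K R) j t := by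
    intro t
    induction t using TensorProduct.induction_on with
    | zero => simp
    | tmul r b => simp
    | add s t hs ht => rw [map_add, map_add, hs, ht]
  rw [h2, h2, hab]

/-- coordinates on `R ⊗ B` when `B` is free over `K[x]` -/
theorem CV1_coord {K R B : Type u} [Field K] [CommRing R] [Algebra K R] [CommRing B]
    [Algebra K B] (x : B) (r : ℕ) (e : Fin r → B)
    (hb : ∀ b : B, ∃! p : Fin r → Polynomial K, b = ∑ i, Polynomial.aeval x (p i) * e i) :
    ∃ Θ : (R ⊗[K] B) →ₗ[R] (Fin r → Polynomial R), Function.Injective Θ ∧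
      ∀ s i, Θ (((1 : R) ⊗ₜ[K] x) * s) i = Polynomial.X * Θ s i := by
  classical
  let Φ : (Fin r → Polynomial K) →ₗ[K] B :=
    { toFun := fun p => ∑ i, Polynomial.aeval x (p i) * e i
      map_add' := fun p q => by
        simp only [Pi.add_apply, map_add, add_mul, Finset.sum_add_distrib]
      map_smul' := fun c p => by
        simp only [Pi.smul_apply, map_smul, smul_mul_assoc, Finset.smul_sum, RingHom.id_apply] }
  have hΦ : Function.Bijective Φ := by
    constructor
    · intro p q hpq
      exact (hb (Φ p)).unique rfl hpq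
    · intro b
      obtain ⟨p, hp, -⟩ := hb b
      exact ⟨p, hp.symm⟩
  let Φe : (Fin r → Polynomial K) ≃ₗ[K] B := LinearEquiv.ofBijective Φ hΦ
  have hΦx : ∀ b : B, Φe.symm (x * b) = fun i => Polynomial.X * Φe.symm b i := by
    intro b
    rw [LinearEquiv.symm_apply_eq]
    have h1 : Φe (Φe.symm b) = b := Φe.apply_symm_apply b
    have h2 : Φe (fun i => Polynomial.X * Φe.symm b i) = x * Φe (Φe.symm b) := by
      show ∑ i, Polynomial.aeval x (Polynomial.X * Φe.symm b i) * e i
        = x * ∑ i, Polynomial.aeval x (Φe.symm b i) * e i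
      simp only [map_mul, Polynomial.aeval_X, Finset.mul_sum, mul_assoc]
    rw [h2, h1]
  let E1 : R ⊗[K] B ≃ₗ[R] R ⊗[K] (Fin r → Polynomial K) :=
    TensorProduct.AlgebraTensorModule.congr (LinearEquiv.refl R R) Φe.symm
  let E2 : R ⊗[K] (Fin r → Polynomial K) ≃ₗ[R] (Fin r → R ⊗[K] Polynomial K) :=
    TensorProduct.piRight K R R (fun _ : Fin r => Polynomial K)
  let E3 : (Fin r → R ⊗[K] Polynomial K) ≃ₗ[R] (Fin r → Polynomial R) :=
    LinearEquiv.piCongrRight fun _ => (polyEquivTensor' K R).symm.toLinearEquiv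
  refine ⟨((E1.trans E2).trans E3).toLinearMap, ((E1.trans E2).trans E3).injective, ?_⟩
  intro s i
  induction s using TensorProduct.induction_on with
  | zero => simp
  | tmul c b =>
    have h1 : ((E1.trans E2).trans E3).toLinearMap (((1 : R) ⊗ₜ[K] x) * c ⊗ₜ[K] b) i
        = (polyEquivTensor K R).symm (c ⊗ₜ[K] (Φe.symm (x * b) i)) := by
      rw [Algebra.TensorProduct.tmul_mul_tmul, one_mul]
      rfl
    have h2 : ((E1.trans E2).trans E3).toLinearMap (c ⊗ₜ[K] b) i
        = (polyEquivTensor K R).symm (c ⊗ₜ[K] (Φe.symm b i)) := rfl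
    rw [h1, h2, hΦx, polyEquivTensor_symm_apply_tmul_eq_smul,
      polyEquivTensor_symm_apply_tmul_eq_smul, Polynomial.map_mul, Polynomial.map_X,
      mul_smul_comm]
  | add s t hs ht =>
    rw [mul_add, map_add, map_add, Pi.add_apply, Pi.add_apply, hs, ht, mul_add]

/-- a finite projective module over `S` embeds in a finite free `κ[X]`-module as soon as `S`
does -/
theorem CV1_embed {κ S N : Type u} [Field κ] [CommRing S] [Algebra κ S] [AddCommGroup N]
    [Module S N] [Module κ N] [IsScalarTower κ S N] [Module.Finite S N] [Module.Projective S N]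
    (X : S) (r : ℕ) (Θ : S →ₗ[κ] (Fin r → Polynomial κ)) (hΘ : Function.Injective Θ)
    (hΘx : ∀ s i, Θ (X * s) i = Polynomial.X * Θ s i) :
    ∃ (n : ℕ) (θ : N →ₗ[κ] (Fin n → Polynomial κ)), Function.Injective θ ∧
      ∀ p i, θ (X • p) i = Polynomial.X * θ p i := by
  obtain ⟨k, f, hf⟩ := Module.Finite.exists_fin' S N
  obtain ⟨g, hg⟩ := Module.projective_lifting_property f LinearMap.id hf
  have hginj : Function.Injective g := by
    intro a b hab
    have h1 := congrArg f hab
    have h2 : ∀ a, f (g a) = a := fun a => LinearMap.congr_fun hg a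
    rwa [h2, h2] at h1
  refine ⟨k * r,
    { toFun := fun p j => Θ (g p (finProdFinEquiv.symm j).1) (finProdFinEquiv.symm j).2
      map_add' := fun p q => by
        funext j
        simp only [map_add, Pi.add_apply]
      map_smul' := fun c p => by
        funext j
        have h1 : g (c • p) = c • g p := by
          rw [← algebraMap_smul S c p, map_smul, algebraMap_smul]
        simp only [h1, Pi.smul_apply, map_smul, RingHom.id_apply] }, ?_, ?_⟩
  · intro p q hpq
    apply hginj
    funext a
    apply hΘ
    funext b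
    have h1 := congrFun hpq (finProdFinEquiv (a, b))
    have h2 : Θ (g p (finProdFinEquiv.symm (finProdFinEquiv (a, b))).1)
        (finProdFinEquiv.symm (finProdFinEquiv (a, b))).2
        = Θ (g q (finProdFinEquiv.symm (finProdFinEquiv (a, b))).1)
        (finProdFinEquiv.symm (finProdFinEquiv (a, b))).2 := h1
    rwa [Equiv.symm_apply_apply] at h2
  · intro p j
    show Θ (g (X • p) (finProdFinEquiv.symm j).1) (finProdFinEquiv.symm j).2 = _
    rw [map_smul, Pi.smul_apply, smul_eq_mul, hΘx]
    rfl

end CV1Aux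

variable {K : Type u} [Field K] [IsAlgClosed K]

namespace CMod

variable {C : Curve K} {R : Type u} [CommRing R] [Algebra K R]
  {κ κ' : Type u} [Field κ] [Algebra K κ] [Field κ'] [Algebra K κ']

omit [IsAlgClosed K] in
theorem r0_injective (N : CMod C R) : Function.Injective N.r0 :=
  haveI := N.inv0
  CV1_isBC_injective (C.J0 R).toRingHom N.r0 N.isBC_r0 (CV1_map_injective C.j0 C.j0_inj)

omit [IsAlgClosed K] in
theorem r1_injective (N : CMod C R) : Function.Injective N.r1 :=
  haveI := N.inv1
  CV1_isBC_injective (C.J1 R).toRingHom N.r1 N.isBC_r1 (CV1_map_injective C.j1 C.j1_inj)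

omit [IsAlgClosed K] in
theorem finite_H0 (N : CMod C κ) : Module.Finite κ N.toP1Mod.H0 := by
  obtain ⟨Θ, hΘ, hΘx⟩ := CV1_coord (R := κ) C.x C.r C.e0 C.basis0
  letI : Module κ N.N0 := Module.compHom N.N0 (algebraMap κ (C.S0 κ))
  haveI : IsScalarTower κ (C.S0 κ) N.N0 := ⟨fun r s n => by
    show (r • s) • n = algebraMap κ (C.S0 κ) r • s • n
    rw [Algebra.smul_def, mul_smul]⟩
  haveI := N.inv0
  obtain ⟨n, θ, hθ, hθx⟩ := CV1_embed (N := N.N0) ((1 : κ) ⊗ₜ[K] C.x : C.S0 κ) C.r Θ hΘ hΘx
  exact P1Mod.finite_H0_of_embedding N.toP1Mod N.r0_injective N.r1_injective n θ hθ hθx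

omit [IsAlgClosed K] in
theorem finite_H1 (N : CMod C R) : Module.Finite R N.toP1Mod.H1 :=
  P1Mod.finite_H1 N.toP1Mod

end CMod

end Fermat.Agent.S26
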