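/-
S26 / Curve / CV2 : twists of line bundles on `C_κ`: `χ(N(m)) = χ(N) + m r`  (package CV-2).
-/
import Fermat.Agent.S26.Curve.CohDefs
import Fermat.Agent.S26.Curve.CV0
import Fermat.Agent.S26.Curve.CV1
import Fermat.Agent.S26.Alg.InvTensor
import Fermat.Agent.S26.P1.Twist
import Fermat.Agent.S26.P1.Finite

set_option autoImplicit false

open scoped TensorProduct

universe u

namespace Fermat.Agent.S26

/-! ### abstract algebra -/

/-- any compatible `κ`-structure on an `S`-module is the `compHom` one -/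
theorem CV2_module_eq (κ S M : Type*) [Field κ] [CommRing S] [Algebra κ S] [AddCommGroup M]
    [Module S M] [inst : Module κ M] [IsScalarTower κ S M] :
    inst = Module.compHom M (algebraMap κ S) := by
  apply Module.ext'
  intro c m
  exact (algebraMap_smul S c m).symm

/-- the quotient by an `S`-submodule which is the kernel of a surjective `κ`-linear map -/
noncomputable def CV2_quotEquiv {κ S M V : Type*} [Field κ] [CommRing S] [Algebra κ S]
    [AddCommGroup M] [Module S M] [Module κ M] [IsScalarTower κ S M] [AddCommGroup V] [Module κ V]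
    (P : Submodule S M) (g : M →ₗ[κ] V) (hg : Function.Surjective g)
    (hker : ∀ m, g m = 0 ↔ m ∈ P) : (M ⧸ P) ≃ₗ[κ] V :=
  (Submodule.Quotient.restrictScalarsEquiv κ P).symm ≪≫ₗ
    Submodule.quotEquivOfEq (P.restrictScalars κ) (LinearMap.ker g)
      (by ext m; simp [hker]) ≪≫ₗ
    g.quotKerEquivOfSurjective hg

/-- `p ↦ ∑ p_i(Y) E_i` -/
noncomputable def CV2_Psi {κ S : Type*} [Field κ] [CommRing S] [Algebra κ S] (Y : S) {r : ℕ}
    (E : Fin r → S) : (Fin r → Polynomial κ) →ₗ[κ] S where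
  toFun p := ∑ i, Polynomial.aeval Y (p i) * E i
  map_add' p q := by simp [add_mul, Finset.sum_add_distrib]
  map_smul' c p := by simp [Finset.smul_sum]

/-- constant coefficients -/
noncomputable def CV2_ev0 (κ : Type*) [Field κ] (r : ℕ) :
    (Fin r → Polynomial κ) →ₗ[κ] (Fin r → κ) :=
  LinearMap.pi fun i => (Polynomial.lcoeff κ 0) ∘ₗ LinearMap.proj i

theorem CV2_quot_span_equiv {κ S : Type*} [Field κ] [CommRing S] [Algebra κ S] (Y : S) {r : ℕ}
    (E : Fin r → S)
    (hb : ∀ s : S, ∃! p : Fin r → Polynomial κ, s = ∑ i, Polynomial.aeval Y (p i) * E i) :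
    Nonempty ((S ⧸ Ideal.span {Y}) ≃ₗ[κ] (Fin r → κ)) := by
  have hinj : Function.Injective (CV2_Psi (κ := κ) Y E) := by
    intro p q hpq
    exact (hb (CV2_Psi Y E p)).unique rfl hpq
  have hsurj : Function.Surjective (CV2_Psi (κ := κ) Y E) := by
    intro s
    obtain ⟨p, hp, -⟩ := hb s
    exact ⟨p, hp.symm⟩
  let e := LinearEquiv.ofBijective (CV2_Psi (κ := κ) Y E) ⟨hinj, hsurj⟩
  have he : ∀ p, e p = CV2_Psi Y E p := fun p => rfl
  have hmul : ∀ q : Fin r → Polynomial κ,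
      CV2_Psi Y E (fun i => Polynomial.X * q i) = Y * CV2_Psi Y E q := by
    intro q
    simp [CV2_Psi, Finset.mul_sum, mul_assoc]
  refine ⟨CV2_quotEquiv (Ideal.span {Y}) (CV2_ev0 κ r ∘ₗ e.symm.toLinearMap) ?_ ?_⟩
  · intro v
    refine ⟨e (fun i => Polynomial.C (v i)), ?_⟩
    funext i
    simp [CV2_ev0]
  · intro s
    obtain ⟨p, rfl⟩ := e.surjective s
    rw [LinearMap.comp_apply, LinearEquiv.coe_coe, e.symm_apply_apply, Ideal.mem_span_singleton']
    constructor
    · intro h0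
      have h1 : ∀ i, Polynomial.X ∣ p i := by
        intro i
        rw [Polynomial.X_dvd_iff]
        exact congrFun h0 i
      choose q hq using h1
      refine ⟨CV2_Psi Y E q, ?_⟩
      rw [mul_comm, ← hmul, he]
      congr 1
      funext i
      exact (hq i).symm
    · rintro ⟨s', hs'⟩
      obtain ⟨q, rfl⟩ := e.surjective s'
      rw [he, he, mul_comm, ← hmul] at hs'
      rw [← hinj hs']
      funext i
      simp [CV2_ev0]

theorem CV2_finrank_quot {κ S N : Type u} [Field κ] [CommRing S] [Algebra κ S] [AddCommGroup N]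
    [Module S N] [Module.Invertible S N] [Module κ N] [IsScalarTower κ S N] (Y : S) {r : ℕ}
    (E : Fin r → S)
    (hb : ∀ s : S, ∃! p : Fin r → Polynomial κ, s = ∑ i, Polynomial.aeval Y (p i) * E i)
    (f : N →ₗ[κ] N) (hf : ∀ n, f n = Y • n) :
    Module.finrank κ (N ⧸ LinearMap.range f) = r := by
  obtain ⟨e1⟩ := CV2_quot_span_equiv Y E hb
  have hfin : Module.Finite κ (S ⧸ Ideal.span {Y}) := Module.Finite.equiv e1.symm
  have hQ : FinOver κ S (S ⧸ Ideal.span {Y}) := by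
    unfold FinOver
    rw [← CV2_module_eq κ S (S ⧸ Ideal.span {Y})]
    exact hfin
  obtain ⟨e2⟩ := nonempty_tensor_equiv_of_invertible κ S N (S ⧸ Ideal.span {Y}) hQ
  let e3 := TensorProduct.tensorQuotEquivQuotSMul N (Ideal.span {Y})
  let e4 : (N ⧸ (Ideal.span {Y} • ⊤ : Submodule S N)) ≃ₗ[κ] (S ⧸ Ideal.span {Y}) :=
    (e3.symm ≪≫ₗ e2).restrictScalars κ
  have hrange : LinearMap.range f = (Ideal.span {Y} • ⊤ : Submodule S N).restrictScalars κ := by
    ext n
    rw [Submodule.restrictScalars_mem, Submodule.ideal_span_singleton_smul,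
      Submodule.mem_smul_pointwise_iff_exists, LinearMap.mem_range]
    constructor
    · rintro ⟨n', rfl⟩
      exact ⟨n', trivial, (hf n').symm⟩
    · rintro ⟨n', -, rfl⟩
      exact ⟨n', hf n'⟩
  let e5 : (N ⧸ LinearMap.range f) ≃ₗ[κ] (N ⧸ (Ideal.span {Y} • ⊤ : Submodule S N)) :=
    Submodule.quotEquivOfEq _ _ hrange ≪≫ₗ Submodule.Quotient.restrictScalarsEquiv κ _
  rw [(e5 ≪≫ₗ e4 ≪≫ₗ e1).finrank_eq, Module.finrank_fin_fun]

theorem CV2_smul_injective {S N : Type*} [CommRing S] [IsDomain S] [AddCommGroup N] [Module S N]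
    [Module.Invertible S N] {Y : S} (hY : Y ≠ 0) : Function.Injective fun n : N => Y • n :=
  Module.Flat.isSMulRegular_of_isRegular (M := N) (IsRegular.of_ne_zero hY)

/-! ### line bundles -/

variable {K : Type u} [Field K] [IsAlgClosed K]

namespace CMod

variable {C : Curve K} {R : Type u} [CommRing R] [Algebra K R]
  {κ κ' : Type u} [Field κ] [Algebra K κ] [Field κ'] [Algebra K κ']

theorem CV2_y_ne_zero (C : Curve K) (κ : Type u) [Field κ] [Algebra K κ] :
    ((1 : κ) ⊗ₜ[K] C.y : C.S1 κ) ≠ 0 := by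
  intro h0
  have := C.isDomain_S01 κ
  have h1 : C.J1 κ ((1 : κ) ⊗ₜ[K] C.y) = ((xUnit C κ)⁻¹ : (C.S01 κ)ˣ).val := by
    simp [xUnit]
  rw [h0, map_zero] at h1
  exact ((xUnit C κ)⁻¹ : (C.S01 κ)ˣ).ne_zero h1.symm

theorem CV2_y1_injective (N : CMod C κ) : Function.Injective N.toP1Mod.y1 := by
  have := C.isDomain_S1 κ
  have := N.inv1
  exact CV2_smul_injective (N := N.N1) (CV2_y_ne_zero C κ)

theorem CV2_finrank (N : CMod C κ) :
    Module.finrank κ (N.toP1Mod.P1 ⧸ LinearMap.range N.toP1Mod.y1) = C.r := by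
  have := N.inv1
  let inst : Module κ N.N1 := N.toP1Mod.mod1
  have hst : IsScalarTower κ (C.S1 κ) N.N1 := ⟨fun r s n => by
    show (r • s) • n = algebraMap κ (C.S1 κ) r • s • n
    rw [Algebra.smul_def, mul_smul]⟩
  exact @CV2_finrank_quot κ (C.S1 κ) N.N1 _ _ _ _ _ N.inv1 inst hst ((1 : κ) ⊗ₜ[K] C.y : C.S1 κ)
    C.r (fun i => ((1 : κ) ⊗ₜ[K] C.e1 i : C.S1 κ)) (C.S1_basis κ) N.toP1Mod.y1 (fun _ => rfl)

theorem chi_twist (N : CMod C κ) (m : ℤ) : (N.twist m).chi = N.chi + m * C.r := by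
  unfold chi
  rw [toP1Mod_twist, P1Mod.chi_twist N.toP1Mod (CV2_y1_injective N) (fun m => ?_) m, CV2_finrank]
  rw [← toP1Mod_twist]
  exact finite_H0 (N.twist m)

theorem deg_twist (N : CMod C κ) (m : ℤ) : (N.twist m).deg = N.deg + m * C.r := by
  unfold deg
  rw [chi_twist]
  ring

theorem exists_h0_twist_pos (N : CMod C κ) : ∃ m : ℤ, 0 < (N.twist m).h0 := by
  refine ⟨|N.chi| + 1, ?_⟩
  have h1 := chi_twist N (|N.chi| + 1)
  have h2 : (N.twist (|N.chi| + 1)).chi ≤ (N.twist (|N.chi| + 1)).h0 := by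
    unfold chi h0 P1Mod.chi
    omega
  have hr : (1 : ℤ) ≤ C.r := by exact_mod_cast C.r_pos
  have h3 : 0 < N.chi + (|N.chi| + 1) * C.r := by
    have h4 := neg_abs_le N.chi
    have h5 := abs_nonneg N.chi
    nlinarith
  have h6 : (0 : ℤ) < (N.twist (|N.chi| + 1)).h0 := by
    rw [h1] at h2
    exact lt_of_lt_of_le h3 h2
  exact_mod_cast h6

theorem exists_h1_twist_eq_zero (N : CMod C R) : ∃ m₀ : ℤ, ∀ m, m₀ ≤ m →
    Subsingleton (N.twist m).toP1Mod.H1 := by
  obtain ⟨m₀, h⟩ := P1Mod.exists_twist_H1_eq_zero N.toP1Mod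
  refine ⟨m₀, fun m hm => ?_⟩
  rw [toP1Mod_twist]
  exact h m hm

end CMod

end Fermat.Agent.S26
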