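/-
S26 / Curve / CV3a : nonzero morphisms of line bundles on `C_κ` are injective with finite dimensional
cokernels.
-/
import Fermat.Agent.S26.Curve.CohDefs
import Fermat.Agent.S26.Curve.CV0
import Fermat.Agent.S26.P1.Torsion

set_option autoImplicit false

open scoped TensorProduct

universe u

namespace Fermat.Agent.S26

/-! ### invertible modules over a domain -/

section Inv

variable {S : Type*} [CommRing S] {N N' : Type*} [AddCommGroup N] [Module S N] [AddCommGroup N']
  [Module S N']

theorem CV3a_swap [Module.Invertible S N] (φ : Module.Dual S N) (n n' : N) :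
    φ n • n' = φ n' • n := by
  have h := congrArg (TensorProduct.lift ((LinearMap.lsmul S N).comp φ))
    (Module.Invertible.tmul_comm (R := S) (m₁ := n) (m₂ := n'))
  simpa using h

theorem CV3a_rank_one [Module.Invertible S N] {n : N} (hn : n ≠ 0) (n' : N) :
    ∃ a : S, a ≠ 0 ∧ ∃ b : S, a • n' = b • n := by
  obtain ⟨φ, hφ⟩ := Module.Projective.exists_dual_ne_zero S hn
  exact ⟨φ n, hφ, φ n', CV3a_swap φ n n'⟩

theorem CV3a_torsionFree [IsDomain S] [Module.Invertible S N] {a : S} {n : N} (ha : a ≠ 0)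
    (h : a • n = 0) : n = 0 := by
  by_contra hn
  obtain ⟨φ, hφ⟩ := Module.Projective.exists_dual_ne_zero S hn
  have h1 := congrArg φ h
  rw [map_smul, map_zero, smul_eq_mul] at h1
  exact (mul_ne_zero ha hφ) h1

theorem CV3a_injective_of_ne_zero [IsDomain S] [Module.Invertible S N] [Module.Invertible S N']
    (f : N →ₗ[S] N') (hf : f ≠ 0) : Function.Injective f := by
  rw [injective_iff_map_eq_zero]
  intro n hn
  by_contra hn0
  apply hf
  ext n'
  obtain ⟨a, ha, b, hab⟩ := CV3a_rank_one (S := S) hn0 n'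
  have h1 := congrArg f hab
  rw [map_smul, map_smul, hn, smul_zero] at h1
  exact CV3a_torsionFree ha h1

/-- a nonzero element of `S` kills the cokernel -/
theorem CV3a_exists_smul_mem_range [IsDomain S] [Module.Invertible S N] [Module.Invertible S N']
    (f : N →ₗ[S] N') (hf : f ≠ 0) : ∃ a : S, a ≠ 0 ∧ ∀ m : N', a • m ∈ LinearMap.range f := by
  classical
  obtain ⟨n, hn⟩ : ∃ n, f n ≠ 0 := by
    by_contra hcon
    push Not at hcon
    exact hf (LinearMap.ext hcon)
  have h1 : ∀ m : N', ∃ a : S, a ≠ 0 ∧ a • m ∈ LinearMap.range f := by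
    intro m
    obtain ⟨a, ha, b, hab⟩ := CV3a_rank_one (S := S) hn m
    exact ⟨a, ha, b • n, by rw [map_smul, hab]⟩
  choose a ha ha' using h1
  obtain ⟨t, ht⟩ := (Module.Finite.fg_top : (⊤ : Submodule S N').FG)
  refine ⟨∏ m ∈ t, a m, Finset.prod_ne_zero_iff.mpr fun m _ => ha m, fun m => ?_⟩
  have hm : m ∈ Submodule.span S (t : Set N') := ht ▸ Submodule.mem_top
  induction hm using Submodule.span_induction with
  | mem m hm =>
    rw [← Finset.mul_prod_erase t a hm, mul_comm, mul_smul]
    exact Submodule.smul_mem _ _ (ha' m)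
  | zero => rw [smul_zero]; exact Submodule.zero_mem _
  | add x y _ _ hx hy => rw [smul_add]; exact Submodule.add_mem _ hx hy
  | smul c x _ hx => rw [smul_comm]; exact Submodule.smul_mem _ _ hx

end Inv

/-! ### nonzero elements divide nonzero polynomials in `X` -/

theorem CV3a_dvd_of_root {A S : Type*} [CommRing A] [CommRing S] [IsDomain S] [Algebra A S] {a : S}
    (ha : a ≠ 0) (P : Polynomial A) (hP : P ≠ 0) (hroot : Polynomial.aeval a P = 0) :
    ∃ c : A, c ≠ 0 ∧ a ∣ algebraMap A S c := by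
  induction hd : P.natDegree using Nat.strong_induction_on generalizing P with
  | _ d ih =>
    have hdec := Polynomial.divX_mul_X_add P
    have hev : Polynomial.aeval a P =
        Polynomial.aeval a P.divX * a + algebraMap A S (P.coeff 0) := by
      conv_lhs => rw [← hdec]
      simp
    rw [hroot] at hev
    by_cases h0 : P.coeff 0 = 0
    · rw [h0, map_zero, add_zero] at hev
      have h1 : Polynomial.aeval a P.divX = 0 := by
        rcases mul_eq_zero.mp hev.symm with h | h
        · exact h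
        · exact absurd h ha
      have h2 : P.divX ≠ 0 := by
        intro h
        rw [h, h0, zero_mul, map_zero, add_zero] at hdec
        exact hP hdec.symm
      have h3 : P.natDegree ≠ 0 := by
        intro h
        have := Polynomial.eq_C_of_natDegree_eq_zero h
        rw [h0, map_zero] at this
        exact hP this
      exact ih P.divX.natDegree (by rw [Polynomial.natDegree_divX_eq_natDegree_tsub_one]; omega)
        P.divX h2 h1 rfl
    · exact ⟨P.coeff 0, h0, - Polynomial.aeval a P.divX, by linear_combination -hev⟩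

theorem CV3a_exists_poly {κ S : Type*} [Field κ] [CommRing S] [IsDomain S] [Algebra κ S] (X : S)
    {ι : Type*} [Fintype ι] (E : ι → S)
    (hS : Submodule.span κ {s : S | ∃ (n : ℕ) (i : ι), s = X ^ n * E i} = ⊤) {a : S}
    (ha : a ≠ 0) : ∃ p : Polynomial κ, p ≠ 0 ∧ a ∣ Polynomial.aeval X p := by
  classical
  let _ : Algebra (Polynomial κ) S :=
    (Polynomial.aeval X : Polynomial κ →ₐ[κ] S).toRingHom.toAlgebra
  have halg : ∀ p : Polynomial κ, algebraMap (Polynomial κ) S p = Polynomial.aeval X p :=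
    fun _ => rfl
  have hfin : Module.Finite (Polynomial κ) S := by
    refine ⟨⟨Finset.univ.image E, ?_⟩⟩
    rw [eq_top_iff]
    rintro s -
    have hs : s ∈ Submodule.span κ {s : S | ∃ (n : ℕ) (i : ι), s = X ^ n * E i} :=
      hS ▸ Submodule.mem_top
    induction hs using Submodule.span_induction with
    | mem s hs =>
      obtain ⟨n, i, rfl⟩ := hs
      have h1 : X ^ n * E i = (Polynomial.X ^ n : Polynomial κ) • E i := by
        rw [Algebra.smul_def, halg]; simp
      rw [h1]
      exact Submodule.smul_mem _ _ (Submodule.subset_span (by simp))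
    | zero => exact Submodule.zero_mem _
    | add x y _ _ hx hy => exact Submodule.add_mem _ hx hy
    | smul c x _ hx =>
      have h1 : c • x = (Polynomial.C c : Polynomial κ) • x := by
        rw [Algebra.smul_def, Algebra.smul_def, halg]; simp
      rw [h1]
      exact Submodule.smul_mem _ _ hx
  obtain ⟨P, hPm, hP⟩ := IsIntegral.of_finite (Polynomial κ) a
  obtain ⟨c, hc, hdvd⟩ := CV3a_dvd_of_root ha P hPm.ne_zero (by rwa [Polynomial.aeval_def])
  exact ⟨c, hc, hdvd⟩

/-! ### finitely generated modules killed by a polynomial -/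

theorem CV3a_finite_of_killed {κ Q : Type*} [Field κ] [AddCommGroup Q] [Module κ Q]
    (x : Q →ₗ[κ] Q) (s : Finset Q)
    (hs : Submodule.span κ {q : Q | ∃ (n : ℕ), ∃ a ∈ s, q = (x ^ n) a} = ⊤) {p : Polynomial κ}
    (hp : p ≠ 0) (hk : Polynomial.aeval x p = 0) : Module.Finite κ Q := by
  classical
  have hpX : p * Polynomial.X ≠ 0 := mul_ne_zero hp Polynomial.X_ne_zero
  set p' := p * Polynomial.X * Polynomial.C (p * Polynomial.X).leadingCoeff⁻¹ with hp'
  have hmonic : p'.Monic := Polynomial.monic_mul_leadingCoeff_inv hpX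
  have hk' : Polynomial.aeval x p' = 0 := by rw [hp', map_mul, map_mul, hk, zero_mul, zero_mul]
  have hne1 : p' ≠ 1 := by
    intro h
    have h1 : p'.natDegree = (p * Polynomial.X).natDegree :=
      Polynomial.natDegree_mul_leadingCoeff_inv _ hpX
    rw [h, Polynomial.natDegree_one, Polynomial.natDegree_mul_X hp] at h1
    omega
  refine ⟨⟨(Finset.range p'.natDegree ×ˢ s).image (fun na => (x ^ na.1) na.2), ?_⟩⟩
  rw [eq_top_iff, ← hs, Submodule.span_le]
  rintro _ ⟨n, a, ha, rfl⟩
  have h1 : x ^ n = Polynomial.aeval x (Polynomial.X ^ n %ₘ p') := by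
    rw [Polynomial.aeval_modByMonic_eq_self_of_root hk']; simp
  have hlt : (Polynomial.X ^ n %ₘ p').natDegree < p'.natDegree :=
    Polynomial.natDegree_modByMonic_lt _ hmonic hne1
  rw [SetLike.mem_coe, h1, Polynomial.aeval_eq_sum_range' hlt, LinearMap.sum_apply]
  refine Submodule.sum_mem _ fun k hk => ?_
  rw [LinearMap.smul_apply]
  exact Submodule.smul_mem _ _ (Submodule.subset_span (Finset.mem_coe.2 (Finset.mem_image.2
    ⟨(k, a), Finset.mem_product.2 ⟨hk, ha⟩, rfl⟩)))

/-! ### the abstract statements -/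

theorem CV3a_finOver_coker {κ S : Type u} [Field κ] [CommRing S] [IsDomain S] [Algebra κ S] (X : S)
    {ι : Type*} [Fintype ι] (E : ι → S)
    (hS : Submodule.span κ {s : S | ∃ (n : ℕ) (i : ι), s = X ^ n * E i} = ⊤) {N N' : Type u}
    [AddCommGroup N] [Module S N] [AddCommGroup N'] [Module S N'] [Module.Invertible S N]
    [Module.Invertible S N'] (f : N →ₗ[S] N') (hf : f ≠ 0) :
    FinOver κ S (N' ⧸ LinearMap.range f) := by
  obtain ⟨a, ha, hka⟩ := CV3a_exists_smul_mem_range f hf
  obtain ⟨p, hp, b, hb⟩ := CV3a_exists_poly X E hS ha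
  unfold FinOver
  let _ : Module κ (N' ⧸ LinearMap.range f) := Module.compHom _ (algebraMap κ S)
  have : IsScalarTower κ S (N' ⧸ LinearMap.range f) := ⟨fun r s n => by
    show (r • s) • n = algebraMap κ S r • s • n
    rw [Algebra.smul_def, mul_smul]⟩
  let x : (N' ⧸ LinearMap.range f) →ₗ[κ] (N' ⧸ LinearMap.range f) :=
    { toFun := fun q => X • q
      map_add' := smul_add X
      map_smul' := fun r q => smul_comm _ (algebraMap κ S r) q }
  obtain ⟨s, hs⟩ := CurveDefs_fg X E hS x (fun _ => rfl)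
  refine CV3a_finite_of_killed x s hs hp ?_
  have key : ∀ (P : Polynomial κ) (q : N' ⧸ LinearMap.range f),
      Polynomial.aeval x P q = Polynomial.aeval X P • q := by
    intro P q
    induction P using Polynomial.induction_on' with
    | add P Q hP hQ => rw [map_add, map_add, LinearMap.add_apply, add_smul, hP, hQ]
    | monomial n c =>
      rw [Polynomial.aeval_monomial, Polynomial.aeval_monomial, Module.End.mul_apply,
        CurveDefs_end_pow_apply x X (fun _ => rfl), mul_smul, Module.algebraMap_end_apply]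
      rfl
  refine LinearMap.ext fun q => ?_
  rw [key, hb, LinearMap.zero_apply]
  obtain ⟨m, rfl⟩ := Submodule.Quotient.mk_surjective _ q
  rw [← Submodule.Quotient.mk_smul, Submodule.Quotient.mk_eq_zero, mul_smul]
  exact hka _

theorem CV3a_finOver_loc {κ S T : Type u} [Field κ] [CommRing S] [CommRing T] [Algebra κ S]
    [Algebra κ T] (J : S →+* T) (hJ : ∀ c, J (algebraMap κ S c) = algebraMap κ T c)
    {M M' : Type u} [AddCommGroup M] [Module S M] [AddCommGroup M'] [Module T M']
    (r : M →ₛₗ[J] M') (W : Submodule S M) (W' : Submodule T M') (hW : W ≤ W'.comap r) (X : S)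
    (Y : T) (hXY : J X * Y = 1) (hsurj : ∀ q : M', ∃ (n : ℕ) (p : M), (J X) ^ n • q = r p)
    (hfin : FinOver κ S (M ⧸ W)) : FinOver κ T (M' ⧸ W') := by
  unfold FinOver at hfin ⊢
  let _ : Module κ (M ⧸ W) := Module.compHom _ (algebraMap κ S)
  let _ : Module κ (M' ⧸ W') := Module.compHom _ (algebraMap κ T)
  let i : (M ⧸ W) →ₗ[κ] (M' ⧸ W') :=
    { toFun := W.mapQ W' r hW
      map_add' := map_add _
      map_smul' := fun c q => by
        show W.mapQ W' r hW (algebraMap κ S c • q) = algebraMap κ T c • W.mapQ W' r hW q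
        rw [map_smulₛₗ, hJ] }
  let e : (M' ⧸ W') ≃ₗ[κ] (M' ⧸ W') :=
    { toFun := fun q => J X • q
      invFun := fun q => Y • q
      map_add' := smul_add _
      map_smul' := fun c q => smul_comm _ (algebraMap κ T c) q
      left_inv := fun q => by
        show Y • J X • q = q
        rw [smul_smul, mul_comm, hXY, one_smul]
      right_inv := fun q => by
        show J X • Y • q = q
        rw [smul_smul, hXY, one_smul] }
  let x : (M ⧸ W) →ₗ[κ] (M ⧸ W) :=
    { toFun := fun q => X • q
      map_add' := smul_add X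
      map_smul' := fun c q => smul_comm _ (algebraMap κ S c) q }
  have hs : Function.Surjective i := by
    refine P1Mod.torsion_surjective_aux e i x (fun p => ?_) (fun q => ?_)
    · show W.mapQ W' r hW (X • p) = J X • W.mapQ W' r hW p
      rw [map_smulₛₗ]
    · obtain ⟨m, rfl⟩ := Submodule.Quotient.mk_surjective _ q
      obtain ⟨n, p, hp⟩ := hsurj m
      refine ⟨n, Submodule.Quotient.mk p, ?_⟩
      rw [CurveDefs_equiv_pow_apply e (J X) (fun _ => rfl)]
      show (J X) ^ n • Submodule.Quotient.mk m = W.mapQ W' r hW (Submodule.Quotient.mk p)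
      rw [Submodule.mapQ_apply, ← hp, Submodule.Quotient.mk_smul]
  exact Module.Finite.of_surjective i hs

/-! ### line bundles on `C_κ` -/

variable {K : Type u} [Field K] [IsAlgClosed K]

namespace CMod

variable {C : Curve K} {R : Type u} [CommRing R] [Algebra K R]
  {κ κ' : Type u} [Field κ] [Algebra K κ] [Field κ'] [Algebra K κ']

omit [IsAlgClosed K] in
theorem CV3a_f0_ne_zero {N N' : CMod C R} (c : LHom N N') (h : c.f01 ≠ 0) : c.f0 ≠ 0 := by
  intro h0
  apply h
  have h1 : ∀ q ∈ Submodule.span (C.S01 R) (Set.range N.r0), c.f01 q = 0 := by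
    intro q hq
    induction hq using Submodule.span_induction with
    | mem q hq =>
      obtain ⟨n, rfl⟩ := hq
      rw [c.comm0, h0, LinearMap.zero_apply, map_zero]
    | zero => exact map_zero _
    | add x y _ _ hx hy => rw [map_add, hx, hy, add_zero]
    | smul a x _ hx => rw [map_smul, hx, smul_zero]
  exact LinearMap.ext fun q => h1 q (N.span0 ▸ Submodule.mem_top)

omit [IsAlgClosed K] in
theorem CV3a_f1_ne_zero {N N' : CMod C R} (c : LHom N N') (h : c.f01 ≠ 0) : c.f1 ≠ 0 := by
  intro h0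
  apply h
  have h1 : ∀ q ∈ Submodule.span (C.S01 R) (Set.range N.r1), c.f01 q = 0 := by
    intro q hq
    induction hq using Submodule.span_induction with
    | mem q hq =>
      obtain ⟨n, rfl⟩ := hq
      rw [c.comm1, h0, LinearMap.zero_apply, map_zero]
    | zero => exact map_zero _
    | add x y _ _ hx hy => rw [map_add, hx, hy, add_zero]
    | smul a x _ hx => rw [map_smul, hx, smul_zero]
  exact LinearMap.ext fun q => h1 q (N.span1 ▸ Submodule.mem_top)

theorem LHom.injective {N N' : CMod C κ} (c : LHom N N') (h : c.f01 ≠ 0) :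
    Function.Injective c.f0 ∧ Function.Injective c.f1 ∧ Function.Injective c.f01 := by
  have := C.isDomain_S0 κ
  have := C.isDomain_S1 κ
  have := C.isDomain_S01 κ
  have := N.inv0
  have := N.inv1
  have := N.inv01
  have := N'.inv0
  have := N'.inv1
  have := N'.inv01
  exact ⟨CV3a_injective_of_ne_zero c.f0 (CV3a_f0_ne_zero c h),
    CV3a_injective_of_ne_zero c.f1 (CV3a_f1_ne_zero c h), CV3a_injective_of_ne_zero c.f01 h⟩

theorem LHom.finOver_coker {N N' : CMod C κ} (c : LHom N N') (h : c.f01 ≠ 0) :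
    FinOver κ (C.S0 κ) (N'.N0 ⧸ LinearMap.range c.f0) ∧ FinOver κ (C.S1 κ) (N'.N1 ⧸ LinearMap.range c.f1) ∧
      FinOver κ (C.S01 κ) (N'.N01 ⧸ LinearMap.range c.f01) := by
  have := C.isDomain_S0 κ
  have := C.isDomain_S1 κ
  have := N.inv0
  have := N.inv1
  have := N'.inv0
  have := N'.inv1
  have h0 : FinOver κ (C.S0 κ) (N'.N0 ⧸ LinearMap.range c.f0) :=
    CV3a_finOver_coker ((1 : κ) ⊗ₜ[K] C.x : C.S0 κ) (fun i => ((1 : κ) ⊗ₜ[K] C.e0 i : C.S0 κ))
      (CurveDefs_span_tensor C.x C.e0 fun b => (C.basis0 b).exists) c.f0 (CV3a_f0_ne_zero c h)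
  have h1 : FinOver κ (C.S1 κ) (N'.N1 ⧸ LinearMap.range c.f1) :=
    CV3a_finOver_coker ((1 : κ) ⊗ₜ[K] C.y : C.S1 κ) (fun i => ((1 : κ) ⊗ₜ[K] C.e1 i : C.S1 κ))
      (CurveDefs_span_tensor C.y C.e1 fun b => (C.basis1 b).exists) c.f1 (CV3a_f1_ne_zero c h)
  refine ⟨h0, h1, ?_⟩
  have hJX : (C.J0 κ).toRingHom ((1 : κ) ⊗ₜ[K] C.x : C.S0 κ) = ((1 : κ) ⊗ₜ[K] C.j0 C.x : C.S01 κ) := by
    simp
  refine CV3a_finOver_loc (C.J0 κ).toRingHom (fun a => ?_) N'.r0 (LinearMap.range c.f0)
    (LinearMap.range c.f01) ?_ ((1 : κ) ⊗ₜ[K] C.x : C.S0 κ) ((1 : κ) ⊗ₜ[K] C.j1 C.y : C.S01 κ) ?_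
    (fun q => ?_) h0
  · simp [Algebra.TensorProduct.algebraMap_apply]
  · rintro _ ⟨n, rfl⟩
    exact ⟨N.r0 n, c.comm0 n⟩
  · rw [hJX, Algebra.TensorProduct.tmul_mul_tmul, mul_one, C.xy]
    rfl
  · rw [hJX]
    exact CurveDefs_surj (C.J0 κ).toRingHom N'.r0 ((1 : κ) ⊗ₜ[K] C.x : C.S0 κ)
      ((1 : κ) ⊗ₜ[K] C.j0 C.x : C.S01 κ) hJX (CurveDefs_loc C.j0 C.x C.loc0) N'.span0 q

end CMod

end Fermat.Agent.S26
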