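/-
S26 / Curve / CV3b : the colength formula `chi(N') = chi(N) + colength` (package CV-3b).
-/
import Fermat.Agent.S26.Curve.CohDefs
import Fermat.Agent.S26.P1.Les
import Fermat.Agent.S26.P1.Torsion

set_option autoImplicit false

open scoped TensorProduct

universe u

namespace Fermat.Agent.S26

/-! ### descending linear maps along a surjection -/

section Desc

variable {k : Type*} [Field k] {M N M' : Type*} [AddCommGroup M] [Module k M] [AddCommGroup N]
  [Module k N] [AddCommGroup M'] [Module k M']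

/-- descend a linear map along a surjection -/
noncomputable def CV3b_desc (π : M →ₗ[k] N) (hπ : Function.Surjective π) (f : M →ₗ[k] M')
    (h : LinearMap.ker π ≤ LinearMap.ker f) : N →ₗ[k] M' :=
  ((LinearMap.ker π).liftQ f h) ∘ₗ (π.quotKerEquivOfSurjective hπ).symm.toLinearMap

theorem CV3b_desc_apply (π : M →ₗ[k] N) (hπ : Function.Surjective π) (f : M →ₗ[k] M')
    (h : LinearMap.ker π ≤ LinearMap.ker f) (m : M) : CV3b_desc π hπ f h (π m) = f m := by
  have h1 : (π.quotKerEquivOfSurjective hπ).symm (π m) = Submodule.Quotient.mk m := by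
    rw [LinearEquiv.symm_apply_eq]
    rfl
  show (LinearMap.ker π).liftQ f h ((π.quotKerEquivOfSurjective hπ).symm (π m)) = f m
  rw [h1]
  rfl

end Desc

namespace P1Mod

section Coker

variable {k : Type u} [Field k] {P' P : P1Mod k} (i : Hom (RingHom.id k) P' P)
  {Q0 Q1 Q01 : Type u} [AddCommGroup Q0] [Module k Q0] [AddCommGroup Q1] [Module k Q1]
  [AddCommGroup Q01] [Module k Q01]
  (π0 : P.P0 →ₗ[k] Q0) (π1 : P.P1 →ₗ[k] Q1) (π01 : P.P01 →ₗ[k] Q01)

theorem CV3b_ker_le {A A' B B' C' : Type*} [AddCommGroup A] [Module k A] [AddCommGroup A']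
    [Module k A'] [AddCommGroup B] [Module k B] [AddCommGroup B'] [Module k B']
    [AddCommGroup C'] [Module k C'] (f : A →ₗ[k] B) (π : B →ₗ[k] C') (e : Function.Exact f π)
    (f' : A' →ₗ[k] B') {D' : Type*} [AddCommGroup D'] [Module k D'] (π' : B' →ₗ[k] D')
    (e' : Function.Exact f' π') (g : B →ₗ[k] B') (gA : A → A') (hg : ∀ a, g (f a) = f' (gA a)) :
    LinearMap.ker π ≤ LinearMap.ker (π' ∘ₗ g) := by
  intro b hb
  obtain ⟨a, rfl⟩ := (e b).mp hb
  rw [LinearMap.mem_ker, LinearMap.comp_apply, hg]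
  exact (e' _).mpr ⟨_, rfl⟩

theorem CV3b_f01_symm (p : P'.P01) : i.f01 (P'.x01.symm p) = P.x01.symm (i.f01 p) := by
  rw [LinearEquiv.eq_symm_apply, ← i.f01_x, LinearEquiv.apply_symm_apply]

variable (s0 : Function.Surjective π0) (s1 : Function.Surjective π1)
  (s01 : Function.Surjective π01) (e0 : Function.Exact i.f0 π0) (e1 : Function.Exact i.f1 π1)
  (e01 : Function.Exact i.f01 π01)

/-- the operator induced by `x01` on the cokernel -/
noncomputable def CV3b_X : Q01 →ₗ[k] Q01 :=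
  CV3b_desc π01 s01 (π01 ∘ₗ P.x01.toLinearMap)
    (CV3b_ker_le i.f01 π01 e01 i.f01 π01 e01 P.x01.toLinearMap P'.x01 fun a => (i.f01_x a).symm)

/-- the operator induced by `x01⁻¹` on the cokernel -/
noncomputable def CV3b_Y : Q01 →ₗ[k] Q01 :=
  CV3b_desc π01 s01 (π01 ∘ₗ P.x01.symm.toLinearMap)
    (CV3b_ker_le i.f01 π01 e01 i.f01 π01 e01 P.x01.symm.toLinearMap P'.x01.symm
      fun a => (CV3b_f01_symm i a).symm)

theorem CV3b_X_apply (q : P.P01) : CV3b_X i π01 s01 e01 (π01 q) = π01 (P.x01 q) :=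
  CV3b_desc_apply _ _ _ _ q

theorem CV3b_Y_apply (q : P.P01) : CV3b_Y i π01 s01 e01 (π01 q) = π01 (P.x01.symm q) :=
  CV3b_desc_apply _ _ _ _ q

/-- the automorphism induced by `x01` on the cokernel -/
noncomputable def CV3b_E : Q01 ≃ₗ[k] Q01 :=
  LinearEquiv.ofLinearMap (CV3b_X i π01 s01 e01) (CV3b_Y i π01 s01 e01)
    (by
      ext q
      obtain ⟨q, rfl⟩ := s01 q
      simp [CV3b_X_apply, CV3b_Y_apply])
    (by
      ext q
      obtain ⟨q, rfl⟩ := s01 q
      simp [CV3b_X_apply, CV3b_Y_apply])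

theorem CV3b_E_apply (q : P.P01) : CV3b_E i π01 s01 e01 (π01 q) = π01 (P.x01 q) :=
  CV3b_X_apply i π01 s01 e01 q

theorem CV3b_E_symm_apply (q : P.P01) :
    (CV3b_E i π01 s01 e01).symm (π01 q) = π01 (P.x01.symm q) :=
  CV3b_Y_apply i π01 s01 e01 q

theorem CV3b_E_pow_apply (n : ℕ) (q : P.P01) :
    (CV3b_E i π01 s01 e01 ^ n) (π01 q) = π01 ((P.x01 ^ n) q) := by
  induction n generalizing q with
  | zero => simp
  | succ n ih =>
    rw [pow_succ, LinearEquiv.mul_apply, CV3b_E_apply, ih, pow_succ, LinearEquiv.mul_apply]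

theorem CV3b_E_inv_pow_apply (n : ℕ) (q : P.P01) :
    ((CV3b_E i π01 s01 e01)⁻¹ ^ n) (π01 q) = π01 ((P.x01⁻¹ ^ n) q) := by
  induction n generalizing q with
  | zero => simp
  | succ n ih =>
    rw [pow_succ, LinearEquiv.mul_apply, pow_succ, LinearEquiv.mul_apply]
    show ((CV3b_E i π01 s01 e01)⁻¹ ^ n) ((CV3b_E i π01 s01 e01).symm (π01 q)) = _
    rw [CV3b_E_symm_apply, ih]
    rfl

/-- finite generation passes to quotients -/
theorem CV3b_fg {A B : Type*} [AddCommGroup A] [Module k A] [AddCommGroup B] [Module k B]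
    (π : A →ₗ[k] B) (hπ : Function.Surjective π) (x : A →ₗ[k] A) (x' : B →ₗ[k] B)
    (hx : ∀ a, x' (π a) = π (x a))
    (h : ∃ s : Finset A, Submodule.span k {q | ∃ (n : ℕ), ∃ a ∈ s, q = (x ^ n) a} = ⊤) :
    ∃ s : Finset B, Submodule.span k {q | ∃ (n : ℕ), ∃ a ∈ s, q = (x' ^ n) a} = ⊤ := by
  classical
  obtain ⟨s, hs⟩ := h
  have hpow : ∀ (n : ℕ) (a : A), (x' ^ n) (π a) = π ((x ^ n) a) := by
    intro n
    induction n with
    | zero => intro a; simp
    | succ n ih =>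
      intro a
      rw [pow_succ, Module.End.mul_apply, hx, ih, pow_succ, Module.End.mul_apply]
  refine ⟨s.image π, ?_⟩
  rw [eq_top_iff, ← LinearMap.range_eq_top.mpr hπ, ← Submodule.map_top, ← hs, Submodule.map_span]
  apply Submodule.span_mono
  rintro _ ⟨_, ⟨n, a, ha, rfl⟩, rfl⟩
  exact ⟨n, π a, Finset.mem_image_of_mem π ha, (hpow n a).symm⟩

/-- the cokernel of an injective morphism, with prescribed underlying modules -/
@[reducible] noncomputable def CV3b_coker : P1Mod k where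
  P0 := Q0
  P1 := Q1
  P01 := Q01
  x0 := CV3b_desc π0 s0 (π0 ∘ₗ P.x0)
    (CV3b_ker_le i.f0 π0 e0 i.f0 π0 e0 P.x0 P'.x0 fun a => (i.f0_x a).symm)
  y1 := CV3b_desc π1 s1 (π1 ∘ₗ P.y1)
    (CV3b_ker_le i.f1 π1 e1 i.f1 π1 e1 P.y1 P'.y1 fun a => (i.f1_y a).symm)
  x01 := CV3b_E i π01 s01 e01
  i0 := CV3b_desc π0 s0 (π01 ∘ₗ P.i0)
    (CV3b_ker_le i.f0 π0 e0 i.f01 π01 e01 P.i0 P'.i0 fun a => (i.f_i0 a).symm)
  i1 := CV3b_desc π1 s1 (π01 ∘ₗ P.i1)
    (CV3b_ker_le i.f1 π1 e1 i.f01 π01 e01 P.i1 P'.i1 fun a => (i.f_i1 a).symm)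
  i0_x := fun p => by
    obtain ⟨p, rfl⟩ := s0 p
    rw [CV3b_desc_apply, CV3b_desc_apply, LinearMap.comp_apply, CV3b_desc_apply,
      LinearMap.comp_apply, LinearMap.comp_apply, CV3b_E_apply, P.i0_x]
  i1_y := fun p => by
    obtain ⟨p, rfl⟩ := s1 p
    rw [CV3b_desc_apply, CV3b_desc_apply, LinearMap.comp_apply, CV3b_desc_apply,
      LinearMap.comp_apply, LinearMap.comp_apply, CV3b_E_symm_apply, P.i1_y]
  surj0 := fun q => by
    obtain ⟨q, rfl⟩ := s01 q
    obtain ⟨n, p, hp⟩ := P.surj0 q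
    refine ⟨n, π0 p, ?_⟩
    rw [CV3b_E_pow_apply, hp, CV3b_desc_apply]
    rfl
  surj1 := fun q => by
    obtain ⟨q, rfl⟩ := s01 q
    obtain ⟨n, p, hp⟩ := P.surj1 q
    refine ⟨n, π1 p, ?_⟩
    rw [CV3b_E_inv_pow_apply, hp, CV3b_desc_apply]
    rfl
  fg0 := CV3b_fg π0 s0 P.x0 _ (fun a => CV3b_desc_apply _ _ _ _ a) P.fg0
  fg1 := CV3b_fg π1 s1 P.y1 _ (fun a => CV3b_desc_apply _ _ _ _ a) P.fg1

/-- the projection to the cokernel -/
@[reducible] noncomputable def CV3b_proj : Hom (RingHom.id k) P (CV3b_coker i π0 π1 π01 s0 s1 s01 e0 e1 e01) where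
  f0 := π0
  f1 := π1
  f01 := π01
  f0_x := fun p => (CV3b_desc_apply π0 s0 (π0 ∘ₗ P.x0) _ p).symm
  f1_y := fun p => (CV3b_desc_apply π1 s1 (π1 ∘ₗ P.y1) _ p).symm
  f01_x := fun p => (CV3b_E_apply i π01 s01 e01 p).symm
  f_i0 := fun p => (CV3b_desc_apply π0 s0 (π01 ∘ₗ P.i0) _ p).symm
  f_i1 := fun p => (CV3b_desc_apply π1 s1 (π01 ∘ₗ P.i1) _ p).symm

/-- the short exact sequence -/
noncomputable def CV3b_ses (j0 : Function.Injective i.f0) (j1 : Function.Injective i.f1)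
    (j01 : Function.Injective i.f01) : SES P' P (CV3b_coker i π0 π1 π01 s0 s1 s01 e0 e1 e01) where
  i := i
  π := CV3b_proj i π0 π1 π01 s0 s1 s01 e0 e1 e01
  inj0 := j0
  inj1 := j1
  inj01 := j01
  surj0 := by
    show Function.Surjective π0
    exact s0
  surj1 := fun q => s1 q
  surj01 := fun q => s01 q
  exact0 := fun q => e0 q
  exact1 := fun q => e1 q
  exact01 := fun q => e01 q

include s0 s1 s01 e0 e1 e01 in
/-- **the colength formula for `P1Mod`s.** -/
theorem CV3b_chi (j0 : Function.Injective i.f0) (j1 : Function.Injective i.f1)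
    (j01 : Function.Injective i.f01) (hH : Module.Finite k P.H0) [Module.Finite k Q0]
    [Module.Finite k Q1] :
    P.chi = P'.chi + Module.finrank k Q0 + Module.finrank k Q1 - Module.finrank k Q01 ∧
      P'.chi + Module.finrank k Q0 ≤ P.chi ∧ P'.chi + Module.finrank k Q1 ≤ P.chi := by
  have h1 := (CV3b_ses i π0 π1 π01 s0 s1 s01 e0 e1 e01 j0 j1 j01).chi_add hH
  have f0 : Module.Finite k (CV3b_coker i π0 π1 π01 s0 s1 s01 e0 e1 e01).P0 :=
    inferInstanceAs (Module.Finite k Q0)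
  have f1 : Module.Finite k (CV3b_coker i π0 π1 π01 s0 s1 s01 e0 e1 e01).P1 :=
    inferInstanceAs (Module.Finite k Q1)
  have h2 := chi_of_finite (CV3b_coker i π0 π1 π01 s0 s1 s01 e0 e1 e01)
  have h3 := chi_nonneg_of_finite (CV3b_coker i π0 π1 π01 s0 s1 s01 e0 e1 e01)
  change _ = (Module.finrank k Q0 : ℤ) + Module.finrank k Q1 - Module.finrank k Q01 at h2
  change (Module.finrank k Q0 : ℤ) ≤ _ ∧ (Module.finrank k Q1 : ℤ) ≤ _ at h3
  refine ⟨by rw [h1, h2]; ring, by rw [h1]; linarith [h3.1], by rw [h1]; linarith [h3.2]⟩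

end Coker

end P1Mod

namespace CMod

variable {K : Type u} [Field K] {C : Curve K} {κ : Type u} [Field κ] [Algebra K κ]

/-- the morphism of `P1Mod`s underlying an `LHom` -/
noncomputable def LHom.CV3b_toP1 {N N' : CMod C κ} (c : LHom N N') :
    P1Mod.Hom (RingHom.id κ) N.toP1Mod N'.toP1Mod where
  f0 :=
    { toFun := c.f0
      map_add' := c.f0.map_add
      map_smul' := fun r a => c.f0.map_smul (algebraMap κ (C.S0 κ) r) a }
  f1 :=
    { toFun := c.f1
      map_add' := c.f1.map_add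
      map_smul' := fun r a => c.f1.map_smul (algebraMap κ (C.S1 κ) r) a }
  f01 :=
    { toFun := c.f01
      map_add' := c.f01.map_add
      map_smul' := fun r a => c.f01.map_smul (algebraMap κ (C.S01 κ) r) a }
  f0_x := fun p => c.f0.map_smul ((1 : κ) ⊗ₜ[K] C.x : C.S0 κ) p
  f1_y := fun p => c.f1.map_smul ((1 : κ) ⊗ₜ[K] C.y : C.S1 κ) p
  f01_x := fun p => c.f01.map_smul ((1 : κ) ⊗ₜ[K] C.j0 C.x : C.S01 κ) p
  f_i0 := c.comm0
  f_i1 := c.comm1

/-- the quotient map by an `S`-submodule, as a `κ`-linear map for the `compHom` structures -/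
noncomputable def CV3b_mkQ (κ : Type u) [Field κ] (S : Type u) [CommRing S] [Algebra κ S] (M : Type u)
    [AddCommGroup M] [Module S M] (U : Submodule S M) :
    @LinearMap κ κ _ _ (RingHom.id κ) M (M ⧸ U) _ _ (Module.compHom M (algebraMap κ S))
      (Module.compHom (M ⧸ U) (algebraMap κ S)) :=
  letI := Module.compHom M (algebraMap κ S)
  letI := Module.compHom (M ⧸ U) (algebraMap κ S)
  { toFun := U.mkQ
    map_add' := U.mkQ.map_add
    map_smul' := fun r a => U.mkQ.map_smul (algebraMap κ S r) a }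

/-- **CV-3b**, relative to the black boxes CV-3a (`LHom.injective`, `LHom.finOver_coker`) and CV-1
(`finite_H0`). -/
theorem LHom.CV3b_main {N N' : CMod C κ} (c : LHom N N')
    (hinj : Function.Injective c.f0 ∧ Function.Injective c.f1 ∧ Function.Injective c.f01)
    (hfin : FinOver κ (C.S0 κ) (N'.N0 ⧸ LinearMap.range c.f0) ∧
      FinOver κ (C.S1 κ) (N'.N1 ⧸ LinearMap.range c.f1) ∧
      FinOver κ (C.S01 κ) (N'.N01 ⧸ LinearMap.range c.f01))
    (hH : Module.Finite κ N'.toP1Mod.H0) :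
    (N'.chi = N.chi + dimOver κ (C.S0 κ) (N'.N0 ⧸ LinearMap.range c.f0) +
      dimOver κ (C.S1 κ) (N'.N1 ⧸ LinearMap.range c.f1) -
        dimOver κ (C.S01 κ) (N'.N01 ⧸ LinearMap.range c.f01)) ∧
    N.chi + dimOver κ (C.S0 κ) (N'.N0 ⧸ LinearMap.range c.f0) ≤ N'.chi ∧
      N.chi + dimOver κ (C.S1 κ) (N'.N1 ⧸ LinearMap.range c.f1) ≤ N'.chi := by
  let m0 := Module.compHom (N'.N0 ⧸ LinearMap.range c.f0) (algebraMap κ (C.S0 κ))
  let m1 := Module.compHom (N'.N1 ⧸ LinearMap.range c.f1) (algebraMap κ (C.S1 κ))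
  let m01 := Module.compHom (N'.N01 ⧸ LinearMap.range c.f01) (algebraMap κ (C.S01 κ))
  have : Module.Finite κ (N'.N0 ⧸ LinearMap.range c.f0) := hfin.1
  have : Module.Finite κ (N'.N1 ⧸ LinearMap.range c.f1) := hfin.2.1
  exact P1Mod.CV3b_chi (P' := N.toP1Mod) (P := N'.toP1Mod) c.CV3b_toP1
    (CV3b_mkQ κ (C.S0 κ) N'.N0 (LinearMap.range c.f0))
    (CV3b_mkQ κ (C.S1 κ) N'.N1 (LinearMap.range c.f1))
    (CV3b_mkQ κ (C.S01 κ) N'.N01 (LinearMap.range c.f01))
    (fun q => (LinearMap.range c.f0).mkQ_surjective q)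
    (fun q => (LinearMap.range c.f1).mkQ_surjective q)
    (fun q => (LinearMap.range c.f01).mkQ_surjective q)
    (fun y => (Submodule.Quotient.mk_eq_zero (LinearMap.range c.f0)).trans Iff.rfl)
    (fun y => (Submodule.Quotient.mk_eq_zero (LinearMap.range c.f1)).trans Iff.rfl)
    (fun y => (Submodule.Quotient.mk_eq_zero (LinearMap.range c.f01)).trans Iff.rfl)
    hinj.1 hinj.2.1 hinj.2.2 hH

end CMod

end Fermat.Agent.S26
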