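/-
S26 / Curve / CV4 : sections of line bundles on `C_κ`: `deg ≥ 0`, degree `0` + section ⟹ trivial.
-/
import Fermat.Agent.S26.Curve.CV1
import Fermat.Agent.S26.Curve.CV3a
import Fermat.Agent.S26.Curve.CV3b
import Fermat.Agent.S26.Alg.InvSurj

set_option autoImplicit false

open scoped TensorProduct

universe u

namespace Fermat.Agent.S26

variable {K : Type u} [Field K] [IsAlgClosed K]

/-- a finite dimensional module of dimension `0` is trivial -/
theorem CV4_subsingleton_of_dimOver (κ : Type u) [Field κ] (S : Type u) [CommRing S] [Algebra κ S]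
    (M : Type u) [AddCommGroup M] [Module S M] (hfin : FinOver κ S M) (hdim : dimOver κ S M = 0) :
    Subsingleton M := by
  let _ : Module κ M := Module.compHom M (algebraMap κ S)
  have : Module.Finite κ M := hfin
  exact Module.finrank_zero_iff.1 hdim

namespace CMod

variable {C : Curve K} {R : Type u} [CommRing R] [Algebra K R]
  {κ κ' : Type u} [Field κ] [Algebra K κ] [Field κ'] [Algebra K κ']

omit [IsAlgClosed K] in
theorem ofSection_f01_ne_zero (N : CMod C R) (s : N.toP1Mod.H0) (hs : s ≠ 0) :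
    (N.ofSection s).f01 ≠ 0 := by
  intro h
  apply hs
  have h1 : (N.ofSection s).f01 (1 : C.S01 R) = 0 := by rw [h]; rfl
  have h2 : N.r0 (show N.N0 from s.1.1) = 0 := by
    have h3 : (N.ofSection s).f01 (1 : C.S01 R) = (1 : C.S01 R) • N.r0 (show N.N0 from s.1.1) := rfl
    rw [h3, one_smul] at h1
    exact h1
  have h4 : (show N.N0 from s.1.1) = 0 := N.r0_injective (by rw [h2, map_zero])
  have h5 : (show N.N1 from s.1.2) = 0 := by
    apply N.r1_injective
    rw [← r0_eq_r1_of_mem_H0, h2, map_zero]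
  exact Subtype.ext (Prod.ext h4 h5)

omit [IsAlgClosed K] in
theorem CV4_exists_section (N : CMod C κ) (h : 0 < N.h0) : ∃ s : N.toP1Mod.H0, s ≠ 0 := by
  have : Nontrivial N.toP1Mod.H0 := Module.nontrivial_of_finrank_pos h
  exact exists_ne 0

/-- `LHom.chi_ge` (CV-3b), from `LHom.CV3b_main`, CV-3a and CV-1 -/
theorem LHom.CV4_chi_ge {N N' : CMod C κ} (c : LHom N N') (h : c.f01 ≠ 0) :
    N.chi + dimOver κ (C.S0 κ) (N'.N0 ⧸ LinearMap.range c.f0) ≤ N'.chi ∧
      N.chi + dimOver κ (C.S1 κ) (N'.N1 ⧸ LinearMap.range c.f1) ≤ N'.chi :=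
  (c.CV3b_main (c.injective h) (c.finOver_coker h) N'.finite_H0).2

theorem deg_nonneg_of_h0_pos (N : CMod C κ) (h : 0 < N.h0) : 0 ≤ N.deg := by
  obtain ⟨s, hs⟩ := CV4_exists_section N h
  have h1 := ((N.ofSection s).CV4_chi_ge (N.ofSection_f01_ne_zero s hs)).1
  rw [deg]
  have h2 : (0 : ℤ) ≤ dimOver κ (C.S0 κ) (N.N0 ⧸ LinearMap.range (N.ofSection s).f0) :=
    Int.natCast_nonneg _
  linarith

/-- a nonzero section of a line bundle of degree `0` vanishes nowhere -/
theorem generates_of_deg_eq_zero (N : CMod C κ) (hdeg : N.deg = 0) (s : N.toP1Mod.H0) (hs : s ≠ 0) :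
    Submodule.span (C.S0 κ) {(show N.N0 from s.1.1)} = ⊤ ∧
      Submodule.span (C.S1 κ) {(show N.N1 from s.1.2)} = ⊤ := by
  have hne := N.ofSection_f01_ne_zero s hs
  have hge := (N.ofSection s).CV4_chi_ge hne
  have hfin := (N.ofSection s).finOver_coker hne
  rw [deg, sub_eq_zero] at hdeg
  constructor
  · have h0 : dimOver κ (C.S0 κ) (N.N0 ⧸ LinearMap.range (N.ofSection s).f0) = 0 := by
      have := hge.1
      omega
    have hsub := CV4_subsingleton_of_dimOver κ (C.S0 κ) _ hfin.1 h0
    rw [Submodule.Quotient.subsingleton_iff] at hsub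
    rw [← hsub]
    exact (LinearMap.range_toSpanSingleton (R := C.S0 κ) (show N.N0 from s.1.1)).symm
  · have h0 : dimOver κ (C.S1 κ) (N.N1 ⧸ LinearMap.range (N.ofSection s).f1) = 0 := by
      have := hge.2
      omega
    have hsub := CV4_subsingleton_of_dimOver κ (C.S1 κ) _ hfin.2.1 h0
    rw [Submodule.Quotient.subsingleton_iff] at hsub
    rw [← hsub]
    exact (LinearMap.range_toSpanSingleton (R := C.S1 κ) (show N.N1 from s.1.2)).symm

omit [IsAlgClosed K] in
/-- a morphism which is bijective on the two charts is an isomorphism -/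
theorem LHom.iso_of_surjective {N N' : CMod C R} (c : LHom N N') (h0 : Function.Surjective c.f0)
    (h1 : Function.Surjective c.f1) : Nonempty (Iso N N') := by
  have := N.inv0
  have := N.inv1
  have := N.inv01
  have := N'.inv0
  have := N'.inv1
  have := N'.inv01
  have h01 : Function.Surjective c.f01 := by
    rw [← LinearMap.range_eq_top, eq_top_iff, ← N'.span0, Submodule.span_le]
    rintro _ ⟨n', rfl⟩
    obtain ⟨n, rfl⟩ := h0 n'
    exact ⟨N.r0 n, c.comm0 n⟩
  exact ⟨{
    e0 := LinearEquiv.ofBijective c.f0 (bijective_of_surjective_of_invertible _ _ _ c.f0 h0)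
    e1 := LinearEquiv.ofBijective c.f1 (bijective_of_surjective_of_invertible _ _ _ c.f1 h1)
    e01 := LinearEquiv.ofBijective c.f01 (bijective_of_surjective_of_invertible _ _ _ c.f01 h01)
    comm0 := c.comm0
    comm1 := c.comm1 }⟩

theorem iso_one_of_deg_eq_zero (N : CMod C κ) (hdeg : N.deg = 0) (h : 0 < N.h0) :
    Nonempty (Iso (one C κ) N) := by
  obtain ⟨s, hs⟩ := CV4_exists_section N h
  obtain ⟨g0, g1⟩ := N.generates_of_deg_eq_zero hdeg s hs
  refine (N.ofSection s).iso_of_surjective ?_ ?_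
  · rw [← LinearMap.range_eq_top, ← g0]
    exact LinearMap.range_toSpanSingleton (R := C.S0 κ) (show N.N0 from s.1.1)
  · rw [← LinearMap.range_eq_top, ← g1]
    exact LinearMap.range_toSpanSingleton (R := C.S1 κ) (show N.N1 from s.1.2)

end CMod

end Fermat.Agent.S26
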