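/-
S26 / Curve / CV5 : the degree of line bundles on `C_κ` is additive (package CV-5).
-/
import Fermat.Agent.S26.Curve.CohDefs
import Fermat.Agent.S26.Curve.Iso
import Fermat.Agent.S26.Curve.CV1
import Fermat.Agent.S26.Curve.CV2
import Fermat.Agent.S26.Curve.CV3a
import Fermat.Agent.S26.Curve.CV3b
import Fermat.Agent.S26.Alg.InvTensor

set_option autoImplicit false

open scoped TensorProduct

universe u

namespace Fermat.Agent.S26

/-! ### abstract lemmas -/

section CV5Aux

/-- `dimOver` is invariant under `S`-linear equivalences -/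
theorem CV5_dimOver_congr (κ : Type u) [Field κ] (S : Type u) [CommRing S] [Algebra κ S]
    {Q Q' : Type u} [AddCommGroup Q] [Module S Q] [AddCommGroup Q'] [Module S Q']
    (e : Q ≃ₗ[S] Q') : dimOver κ S Q = dimOver κ S Q' := by
  let _ := Module.compHom Q (algebraMap κ S)
  let _ := Module.compHom Q' (algebraMap κ S)
  exact LinearEquiv.finrank_eq
    ({ e with map_smul' := fun a x => e.map_smul (algebraMap κ S a) x } : Q ≃ₗ[κ] Q')

/-- tensoring with an invertible module does not change the colength of a map -/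
theorem CV5_dimOver_lTensor (κ : Type u) [Field κ] (S : Type u) [CommRing S] [Algebra κ S]
    (N : Type u) [AddCommGroup N] [Module S N] [Module.Invertible S N]
    {A B : Type u} [AddCommGroup A] [Module S A] [AddCommGroup B] [Module S B] (f : A →ₗ[S] B)
    (hQ : FinOver κ S (B ⧸ LinearMap.range f)) :
    dimOver κ S ((N ⊗[S] B) ⧸ LinearMap.range (LinearMap.lTensor N f))
      = dimOver κ S (B ⧸ LinearMap.range f) := by
  obtain ⟨e⟩ := nonempty_tensor_equiv_of_invertible κ S N (B ⧸ LinearMap.range f) hQ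
  exact CV5_dimOver_congr κ S
    ((lTensor.equiv N (LinearMap.exact_map_mkQ_range f) (Submodule.mkQ_surjective _)).trans e)

/-- an invertible module over a nontrivial ring is nontrivial -/
theorem CV5_nontrivial_of_invertible (S : Type u) [CommRing S] [Nontrivial S] (N : Type u)
    [AddCommGroup N] [Module S N] [Module.Invertible S N] : Nontrivial N := by
  by_contra h
  rw [not_nontrivial_iff_subsingleton] at h
  have h1 : Subsingleton S := (Module.Invertible.linearEquiv S N).symm.injective.subsingleton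
  exact not_subsingleton S h1

theorem CV5_lTensor_semiTensor {S S' : Type u} [CommRing S] [CommRing S'] (φ : S →+* S')
    {N A B N' A' B' : Type u} [AddCommGroup N] [Module S N] [AddCommGroup A] [Module S A]
    [AddCommGroup B] [Module S B] [AddCommGroup N'] [Module S' N'] [AddCommGroup A'] [Module S' A']
    [AddCommGroup B'] [Module S' B'] (r : N →ₛₗ[φ] N') (a : A →ₛₗ[φ] A') (b : B →ₛₗ[φ] B')
    (f : A →ₗ[S] B) (f' : A' →ₗ[S'] B') (h : ∀ n, f' (a n) = b (f n)) (n : N ⊗[S] A) :
    LinearMap.lTensor N' f' (semiTensor φ r a n) = semiTensor φ r b (LinearMap.lTensor N f n) := by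
  induction n using TensorProduct.induction_on with
  | zero => rw [map_zero, map_zero, map_zero, map_zero]
  | tmul x y =>
    rw [semiTensor_tmul, LinearMap.lTensor_tmul, LinearMap.lTensor_tmul, semiTensor_tmul, h]
  | add x y hx hy => rw [map_add, map_add, hx, hy, map_add, map_add]

theorem CV5_semiTensor_smul {S S' : Type u} [CommRing S] [CommRing S'] (φ : S →+* S')
    {N A N' A' : Type u} [AddCommGroup N] [Module S N] [AddCommGroup A] [Module S A]
    [AddCommGroup N'] [Module S' N'] [AddCommGroup A'] [Module S' A']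
    (r : N →ₛₗ[φ] N') (a : A →ₛₗ[φ] A') (u : S') (n : N ⊗[S] A) :
    semiTensor φ r (u • a) n = (u • semiTensor φ r a) n := by
  induction n using TensorProduct.induction_on with
  | zero => rw [map_zero, map_zero]
  | tmul x y =>
    rw [LinearMap.smul_apply, semiTensor_tmul, semiTensor_tmul, LinearMap.smul_apply,
      TensorProduct.tmul_smul]
  | add x y hx hy => rw [map_add, map_add, hx, hy]

end CV5Aux

variable {K : Type u} [Field K] [IsAlgClosed K]

namespace CMod

variable {C : Curve K} {R : Type u} [CommRing R] [Algebra K R]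
  {κ κ' : Type u} [Field κ] [Algebra K κ] [Field κ'] [Algebra K κ']

omit [IsAlgClosed K] in
/-- tensoring a morphism with a line bundle -/
noncomputable def CV5_lTensorHom (N : CMod C R) {A B : CMod C R} (c : LHom A B) :
    LHom (N.tensor A) (N.tensor B) where
  f0 := LinearMap.lTensor N.N0 c.f0
  f1 := LinearMap.lTensor N.N1 c.f1
  f01 := LinearMap.lTensor N.N01 c.f01
  comm0 := CV5_lTensor_semiTensor _ N.r0 A.r0 B.r0 c.f0 c.f01 c.comm0
  comm1 := CV5_lTensor_semiTensor _ N.r1 A.r1 B.r1 c.f1 c.f01 c.comm1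

omit [IsAlgClosed K] in
/-- `N ⊗ N'(m) ≅ (N ⊗ N')(m)` -/
noncomputable def CV5_tensorTwist (N N' : CMod C R) (m : ℤ) :
    Iso (N.tensor (N'.twist m)) ((N.tensor N').twist m) where
  e0 := LinearEquiv.refl (C.S0 R) (N.N0 ⊗[C.S0 R] N'.N0)
  e1 := LinearEquiv.refl (C.S1 R) (N.N1 ⊗[C.S1 R] N'.N1)
  e01 := LinearEquiv.refl (C.S01 R) (N.N01 ⊗[C.S01 R] N'.N01)
  comm0 := fun _ => rfl
  comm1 := fun n => CV5_semiTensor_smul _ N.r1 N'.r1 _ n

theorem Iso.chi_eq {N N' : CMod C R} (e : Iso N N') : N.chi = N'.chi := by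
  unfold CMod.chi P1Mod.chi
  rw [e.h0_eq, e.h1_eq]

theorem Iso.deg_eq {N N' : CMod C R} (e : Iso N N') : N.deg = N'.deg := by
  unfold CMod.deg
  rw [e.chi_eq]

omit [IsAlgClosed K] in
theorem deg_one : (one C R).deg = 0 := sub_self _

/-- the colength formula (CV-3b + CV-3a + CV-1) -/
theorem CV5_chi_eq {N N' : CMod C κ} (c : LHom N N') (h : c.f01 ≠ 0) :
    N'.chi = N.chi + dimOver κ (C.S0 κ) (N'.N0 ⧸ LinearMap.range c.f0) +
      dimOver κ (C.S1 κ) (N'.N1 ⧸ LinearMap.range c.f1) -
        dimOver κ (C.S01 κ) (N'.N01 ⧸ LinearMap.range c.f01) :=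
  (c.CV3b_main (c.injective h) (c.finOver_coker h) (finite_H0 N')).1

omit [IsAlgClosed K] in
/-- a nonzero section defines a nonzero morphism (local copy of CV-4) -/
theorem CV5_ofSection_f01_ne_zero (N : CMod C R) (s : N.toP1Mod.H0) (hs : s ≠ 0) :
    (N.ofSection s).f01 ≠ 0 := by
  intro h0
  apply hs
  have h1 : (N.ofSection s).f01 (1 : C.S01 R) = 0 := by rw [h0]; rfl
  have h2 : N.r0 (show N.N0 from s.1.1) = 0 := by
    have h3 : (N.ofSection s).f01 (1 : C.S01 R) = (1 : C.S01 R) • N.r0 (show N.N0 from s.1.1) := rfl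
    rw [h3, one_smul] at h1
    exact h1
  have h4 : N.r1 (show N.N1 from s.1.2) = 0 := by rw [← r0_eq_r1_of_mem_H0, h2]
  have h5 : (show N.N0 from s.1.1) = 0 := r0_injective N (by rw [h2, map_zero])
  have h6 : (show N.N1 from s.1.2) = 0 := r1_injective N (by rw [h4, map_zero])
  exact Subtype.ext (Prod.ext h5 h6)

theorem CV5_chi_lTensor (N : CMod C κ) {A B : CMod C κ} (c : LHom A B) (h : c.f01 ≠ 0) :
    (N.tensor B).chi - (N.tensor A).chi = B.chi - A.chi := by
  have := N.inv0
  have := N.inv1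
  have := N.inv01
  obtain ⟨-, -, hinj⟩ := c.injective h
  obtain ⟨q0, q1, q01⟩ := c.finOver_coker h
  have hne : (CV5_lTensorHom N c).f01 ≠ 0 := by
    intro h0
    have hinj' : Function.Injective (LinearMap.lTensor N.N01 c.f01) :=
      Module.Flat.lTensor_preserves_injective_linearMap _ hinj
    have h1 : LinearMap.lTensor N.N01 c.f01 = 0 := h0
    have := (N.tensor A).inv01
    have hnt : Nontrivial (N.N01 ⊗[C.S01 κ] A.N01) :=
      CV5_nontrivial_of_invertible (C.S01 κ) (N.tensor A).N01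
    obtain ⟨x, hx⟩ := exists_ne (0 : N.N01 ⊗[C.S01 κ] A.N01)
    apply hx
    apply hinj'
    rw [h1, LinearMap.zero_apply, LinearMap.zero_apply]
  have e1 := CV5_chi_eq c h
  have e2 := CV5_chi_eq (CV5_lTensorHom N c) hne
  have d0 : dimOver κ (C.S0 κ) ((N.tensor B).N0 ⧸ LinearMap.range (CV5_lTensorHom N c).f0)
      = dimOver κ (C.S0 κ) (B.N0 ⧸ LinearMap.range c.f0) :=
    CV5_dimOver_lTensor κ (C.S0 κ) N.N0 c.f0 q0
  have d1 : dimOver κ (C.S1 κ) ((N.tensor B).N1 ⧸ LinearMap.range (CV5_lTensorHom N c).f1)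
      = dimOver κ (C.S1 κ) (B.N1 ⧸ LinearMap.range c.f1) :=
    CV5_dimOver_lTensor κ (C.S1 κ) N.N1 c.f1 q1
  have d01 : dimOver κ (C.S01 κ) ((N.tensor B).N01 ⧸ LinearMap.range (CV5_lTensorHom N c).f01)
      = dimOver κ (C.S01 κ) (B.N01 ⧸ LinearMap.range c.f01) :=
    CV5_dimOver_lTensor κ (C.S01 κ) N.N01 c.f01 q01
  rw [d0, d1, d01] at e2
  rw [e1, e2]
  ring

theorem deg_tensor (N N' : CMod C κ) : (N.tensor N').deg = N.deg + N'.deg := by
  obtain ⟨m, hm⟩ := exists_h0_twist_pos N'
  obtain ⟨s, hs⟩ : ∃ s : (N'.twist m).toP1Mod.H0, s ≠ 0 := by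
    by_contra hcon
    push Not at hcon
    have hsub : Subsingleton (N'.twist m).toP1Mod.H0 := ⟨fun a b => by rw [hcon a, hcon b]⟩
    have h0 : (N'.twist m).h0 = 0 := Module.finrank_zero_of_subsingleton
    omega
  have h1 := CV5_chi_lTensor N ((N'.twist m).ofSection s) (CV5_ofSection_f01_ne_zero _ s hs)
  have h2 : (N.tensor (one C κ)).chi = N.chi := ((tensorComm N (one C κ)).trans (oneTensor N)).chi_eq
  have h3 : (N.tensor (N'.twist m)).chi = (N.tensor N').chi + m * C.r := by
    rw [(CV5_tensorTwist N N' m).chi_eq, chi_twist]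
  rw [h2, h3, chi_twist] at h1
  unfold CMod.deg
  linarith

theorem deg_dual (N : CMod C κ) : N.dual.deg = - N.deg := by
  have h1 := (dualTensor N).deg_eq
  rw [deg_tensor, deg_one] at h1
  linarith

end CMod

end Fermat.Agent.S26
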