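/-
S26 / Curve / CV6 : extension of the base field does not change `h⁰`, `h¹`; `h⁰(O) = 1`
(package CV-6).
-/
import Fermat.Agent.S26.Curve.CohDefs
import Fermat.Agent.S26.Curve.HomOps
import Fermat.Agent.S26.P1.BaseChange
import Fermat.Agent.S26.P1.Twist

set_option autoImplicit false
set_option linter.style.haveILetI false

open scoped TensorProduct

universe u

namespace Fermat.Agent.S26

/-! ### linear algebra: kernels commute with extension of the base field -/

section CV6Aux

/-- kernels commute with a field extension (type class version) -/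
theorem CV6_finrank_ker_aux {k k' M Q M' Q' : Type*} [Field k] [Field k'] [Algebra k k']
    [AddCommGroup M] [Module k M] [AddCommGroup Q] [Module k Q]
    [AddCommGroup M'] [Module k M'] [Module k' M'] [IsScalarTower k k' M']
    [AddCommGroup Q'] [Module k Q'] [Module k' Q'] [IsScalarTower k k' Q']
    (g : M →ₗ[k] M') (h : Q →ₗ[k] Q') (hg : IsBaseChange k' g) (hh : IsBaseChange k' h)
    (d : M →ₗ[k] Q) (d' : M' →ₗ[k'] Q') (hcomm : ∀ m, h (d m) = d' (g m)) :
    Module.finrank k' (LinearMap.ker d') = Module.finrank k (LinearMap.ker d) := by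
  set L : k' ⊗[k] M →ₗ[k'] k' ⊗[k] Q := TensorProduct.AlgebraTensorModule.lTensor k' k' d with hL
  have hsq : d' ∘ₗ (hg.equiv : k' ⊗[k] M →ₗ[k'] M') = (hh.equiv : k' ⊗[k] Q →ₗ[k'] Q') ∘ₗ L := by
    apply LinearMap.ext
    intro x
    induction x using TensorProduct.induction_on with
    | zero => simp only [map_zero]
    | tmul a m =>
      simp only [LinearMap.comp_apply, LinearEquiv.coe_coe, hL,
        TensorProduct.AlgebraTensorModule.lTensor_tmul, IsBaseChange.equiv_tmul, map_smul, hcomm]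
    | add x y hx hy => simp only [map_add, hx, hy]
  have h1 : (LinearMap.ker d').comap (hg.equiv : k' ⊗[k] M →ₗ[k'] M') = LinearMap.ker L := by
    rw [← LinearMap.ker_comp, hsq, LinearEquiv.ker_comp]
  rw [← (LinearEquiv.ofSubmodule' hg.equiv (LinearMap.ker d')).finrank_eq]
  have h2 : Module.finrank k' ((LinearMap.ker d').comap (hg.equiv : k' ⊗[k] M →ₗ[k'] M')) =
      Module.finrank k' (LinearMap.ker L) := by rw [h1]
  refine h2.trans ?_
  rw [← (LinearMap.tensorKerEquiv k' k' d).finrank_eq, Module.finrank_baseChange]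

/-- the same for a map from a product -/
theorem CV6_finrank_ker_aux2 {k k' M₀ M₁ Q M₀' M₁' Q' : Type*} [Field k] [Field k'] [Algebra k k']
    [AddCommGroup M₀] [Module k M₀] [AddCommGroup M₁] [Module k M₁] [AddCommGroup Q] [Module k Q]
    [AddCommGroup M₀'] [Module k M₀'] [Module k' M₀'] [IsScalarTower k k' M₀']
    [AddCommGroup M₁'] [Module k M₁'] [Module k' M₁'] [IsScalarTower k k' M₁']
    [AddCommGroup Q'] [Module k Q'] [Module k' Q'] [IsScalarTower k k' Q']
    (g₀ : M₀ →ₗ[k] M₀') (g₁ : M₁ →ₗ[k] M₁') (h : Q →ₗ[k] Q') (hg₀ : IsBaseChange k' g₀)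
    (hg₁ : IsBaseChange k' g₁) (hh : IsBaseChange k' h)
    (d : (M₀ × M₁) →ₗ[k] Q) (d' : (M₀' × M₁') →ₗ[k'] Q')
    (hcomm : ∀ m, h (d m) = d' (g₀ m.1, g₁ m.2)) :
    Module.finrank k' (LinearMap.ker d') = Module.finrank k (LinearMap.ker d) :=
  CV6_finrank_ker_aux (g₀.prodMap g₁) h (IsBaseChange.prodMap g₀ g₁ hg₀ hg₁) hh d d' hcomm

/-- the dimension does not change under extension of the base field -/
theorem CV6_finrank_eq {k k' : Type u} [Field k] [Field k'] (φ : k →+* k') {M M' : Type u}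
    [AddCommGroup M] [Module k M] [AddCommGroup M'] [Module k' M'] {g : M →ₛₗ[φ] M'}
    (hg : IsBC φ g) : Module.finrank k' M' = Module.finrank k M := by
  letI := φ.toAlgebra
  obtain ⟨e⟩ := SemiBC_exists_equiv φ hg
  rw [← e.finrank_eq, Module.finrank_baseChange]

end CV6Aux

namespace P1Mod

/-- **TC-7** : `h¹` does not change under extension of the base field -/
theorem Hom.IsBC.CV6_h1_eq {k k' : Type u} [Field k] [Field k'] {φ : k →+* k'} {P : P1Mod k}
    {P' : P1Mod k'} {f : Hom φ P P'} (hf : f.IsBC) : P'.h1 = P.h1 :=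
  CV6_finrank_eq φ hf.isBC_H1map

/-- **TC-7** : `h⁰` does not change under extension of the base field -/
theorem Hom.IsBC.CV6_h0_eq {k k' : Type u} [Field k] [Field k'] {φ : k →+* k'} {P : P1Mod k}
    {P' : P1Mod k'} {f : Hom φ P P'} (hf : f.IsBC) : P'.h0 = P.h0 := by
  letI := φ.toAlgebra
  letI := Module.compHom P'.P0 φ
  letI := Module.compHom P'.P1 φ
  letI := Module.compHom P'.P01 φ
  haveI : IsScalarTower k k' P'.P0 := IsScalarTower.of_algebraMap_smul fun _ _ => rfl
  haveI : IsScalarTower k k' P'.P1 := IsScalarTower.of_algebraMap_smul fun _ _ => rfl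
  haveI : IsScalarTower k k' P'.P01 := IsScalarTower.of_algebraMap_smul fun _ _ => rfl
  refine CV6_finrank_ker_aux2 (semiToLin φ f.f0) (semiToLin φ f.f1) (semiToLin φ f.f01)
    hf.bc0 hf.bc1 hf.bc01 P.d P'.d (fun m => ?_)
  rw [d_apply, d_apply]
  show f.f01 (P.i0 m.1 - P.i1 m.2) = P'.i0 (f.f0 m.1) - P'.i1 (f.f1 m.2)
  rw [map_sub, f.f_i0, f.f_i1]

end P1Mod

variable {K : Type u} [Field K] [IsAlgClosed K]

namespace CMod

variable {C : Curve K} {R : Type u} [CommRing R] [Algebra K R]
  {κ κ' : Type u} [Field κ] [Algebra K κ] [Field κ'] [Algebra K κ']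

/-! ### CV-6 : extension of the base field -/

theorem h0_eq_of_isPullback {φ : κ →ₐ[K] κ'} {N : CMod C κ} {N' : CMod C κ'} (f : Hom φ N N')
    (hf : f.IsPullback) : N'.h0 = N.h0 := by
  have h := (hf.isBC_toP1 0).CV6_h0_eq
  rw [P1Mod.twist_zero, P1Mod.twist_zero] at h
  exact h

theorem h1_eq_of_isPullback {φ : κ →ₐ[K] κ'} {N : CMod C κ} {N' : CMod C κ'} (f : Hom φ N N')
    (hf : f.IsPullback) : N'.h1 = N.h1 := by
  have h := (hf.isBC_toP1 0).CV6_h1_eq
  rw [P1Mod.twist_zero, P1Mod.twist_zero] at h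
  exact h

theorem chi_one (κ : Type u) [Field κ] [Algebra K κ] : (one C κ).chi = (one C K).chi := by
  have h0 := h0_eq_of_isPullback (Hom.one C (Algebra.ofId K κ)) (Hom.isPullback_one C _)
  have h1 := h1_eq_of_isPullback (Hom.one C (Algebra.ofId K κ)) (Hom.isPullback_one C _)
  show (((one C κ).h0 : ℕ) : ℤ) - (one C κ).h1 = (((one C K).h0 : ℕ) : ℤ) - (one C K).h1
  rw [h0, h1]

theorem CV6_lid_J0 (a : C.S0 K) : Algebra.TensorProduct.lid K C.B01 (C.J0 K a) =
    C.j0 (Algebra.TensorProduct.lid K C.B0 a) := by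
  induction a using TensorProduct.induction_on with
  | zero => simp only [map_zero]
  | tmul r b => simp
  | add x y hx hy => simp only [map_add, hx, hy]

theorem CV6_lid_J1 (a : C.S1 K) : Algebra.TensorProduct.lid K C.B01 (C.J1 K a) =
    C.j1 (Algebra.TensorProduct.lid K C.B1 a) := by
  induction a using TensorProduct.induction_on with
  | zero => simp only [map_zero]
  | tmul r b => simp
  | add x y hx hy => simp only [map_add, hx, hy]

theorem CV6_h0_one_K : (one C K).h0 = 1 := by
  show Module.finrank K (one C K).toP1Mod.H0 = 1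
  have h11 : (((1 : C.S0 K), (1 : C.S1 K)) : (one C K).toP1Mod.P0 × (one C K).toP1Mod.P1) ∈
      (one C K).toP1Mod.H0 := by
    show (one C K).toP1Mod.d _ = 0
    rw [P1Mod.d_apply]
    show C.J0 K 1 - C.J1 K 1 = 0
    rw [map_one, map_one, sub_self]
  refine finrank_eq_one (⟨_, h11⟩ : (one C K).toP1Mod.H0) ?_ ?_
  · intro h
    have h1 : (1 : C.S0 K) = 0 := congrArg (fun z : (one C K).toP1Mod.H0 => z.1.1) h
    have h2 := congrArg (Algebra.TensorProduct.lid K C.B0) h1
    rw [map_one, map_zero] at h2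
    exact one_ne_zero h2
  · rintro ⟨⟨a, b⟩, hab⟩
    have hab' : C.J0 K a = C.J1 K b := by
      have : (one C K).toP1Mod.d (a, b) = 0 := hab
      rw [P1Mod.d_apply, sub_eq_zero] at this
      exact this
    have hj : C.j0 (Algebra.TensorProduct.lid K C.B0 a) =
        C.j1 (Algebra.TensorProduct.lid K C.B1 b) := by
      rw [← CV6_lid_J0, ← CV6_lid_J1, hab']
    obtain ⟨c, hc⟩ := C.const _ _ hj
    have hc' : Algebra.TensorProduct.lid K C.B1 b = algebraMap K C.B1 c := by
      apply C.j1_inj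
      rw [← hj, hc, AlgHom.commutes, AlgHom.commutes]
    refine ⟨c, Subtype.ext (Prod.ext ?_ ?_)⟩
    · show algebraMap K (C.S0 K) c * 1 = a
      apply (Algebra.TensorProduct.lid K C.B0).injective
      rw [mul_one, AlgEquiv.commutes, hc]
    · show algebraMap K (C.S1 K) c * 1 = b
      apply (Algebra.TensorProduct.lid K C.B1).injective
      rw [mul_one, AlgEquiv.commutes, hc']

theorem h0_one (κ : Type u) [Field κ] [Algebra K κ] : (one C κ).h0 = 1 := by
  rw [h0_eq_of_isPullback (Hom.one C (Algebra.ofId K κ)) (Hom.isPullback_one C _), CV6_h0_one_K]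

end CMod

end Fermat.Agent.S26
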