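/-
S26 / Curve / CV-7 : the degree of a line bundle is constant in a family over an integral base.

`CV7_deg_const_of` is the statement `CMod.deg_const` of the API skeleton `Curve/Coh.lean`, with the
black boxes it uses (`chi_twist` CV-2, `deg_nonneg_of_h0_pos` CV-4, `deg_dual` CV-5, `chi_one` CV-6,
`exists_bc` FAM-1) as explicit hypotheses.
-/
import Fermat.Agent.S26.Curve.CohDefs
import Fermat.Agent.S26.Curve.HomOps
import Fermat.Agent.S26.Curve.CV0
import Fermat.Agent.S26.P1.BaseChange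
import Fermat.Agent.S26.Alg.Semicont

set_option autoImplicit false
set_option linter.unusedSectionVars false
set_option linter.style.haveILetI false

open scoped TensorProduct

universe u

namespace Fermat.Agent.S26

/-- over a domain the fibre dimension of a finite module is minimal at the generic point -/
theorem CV7_finrank_fiber_bot_le (R M : Type u) [CommRing R] [IsDomain R] [AddCommGroup M]
    [Module R M] [Module.Finite R M] (p₀ p : PrimeSpectrum R) (hp₀ : p₀.asIdeal = ⊥) :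
    Module.finrank p₀.asIdeal.ResidueField (p₀.asIdeal.ResidueField ⊗[R] M) ≤
      Module.finrank p.asIdeal.ResidueField (p.asIdeal.ResidueField ⊗[R] M) := by
  have hle : p₀ ≤ p := by
    rw [← PrimeSpectrum.asIdeal_le_asIdeal, hp₀]
    exact bot_le
  have hsp : p₀ ⤳ p := (PrimeSpectrum.le_iff_specializes p₀ p).1 hle
  have h := hsp.mem_closed (isClosed_finrank_fiber_ge R M
    (Module.finrank p₀.asIdeal.ResidueField (p₀.asIdeal.ResidueField ⊗[R] M)))
    (by simp only [Set.mem_ofPred_eq]; exact le_rfl)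
  simpa only [Set.mem_ofPred_eq] using h

variable {K : Type u} [Field K] [IsAlgClosed K]

namespace CMod

variable {C : Curve K} {R : Type u} [CommRing R] [Algebra K R]
  {κ κ' : Type u} [Field κ] [Algebra K κ] [Field κ'] [Algebra K κ']

/-- `h¹` of (a twist of) a pull back to a field is a fibre dimension of `H¹` of the family -/
theorem CV7_h1_eq (N : CMod C R) (φ : R →ₐ[K] κ) (N₁ : CMod C κ) (f₁ : Hom φ N N₁)
    (h₁ : f₁.IsPullback) (m : ℤ) (p : PrimeSpectrum R)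
    (hp : p.asIdeal = RingHom.ker φ.toRingHom) :
    (N₁.twist m).h1 = Module.finrank p.asIdeal.ResidueField
      (p.asIdeal.ResidueField ⊗[R] (N.toP1Mod.twist m).H1) := by
  haveI := P1Mod.finite_H1 (N.toP1Mod.twist m)
  unfold h1
  rw [toP1Mod_twist]
  exact IsBC.finrank_eq φ.toRingHom (h₁.isBC_toP1 m).isBC_H1map p hp

/-- semicontinuity: `h¹` at the generic point is at most `h¹` at any point -/
theorem CV7_h1_le [IsDomain R] (N : CMod C R) (φ₀ : R →ₐ[K] κ') (hφ₀ : Function.Injective φ₀)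
    (N₀ : CMod C κ') (f₀ : Hom φ₀ N N₀) (h₀ : f₀.IsPullback) (φ : R →ₐ[K] κ) (N₁ : CMod C κ)
    (f₁ : Hom φ N N₁) (h₁ : f₁.IsPullback) (m : ℤ) : (N₀.twist m).h1 ≤ (N₁.twist m).h1 := by
  haveI := P1Mod.finite_H1 (N.toP1Mod.twist m)
  have hk : RingHom.ker φ₀.toRingHom = ⊥ := (RingHom.injective_iff_ker_eq_bot _).1 hφ₀
  let p₀ : PrimeSpectrum R := ⟨RingHom.ker φ₀.toRingHom, RingHom.ker_isPrime _⟩
  let p : PrimeSpectrum R := ⟨RingHom.ker φ.toRingHom, RingHom.ker_isPrime _⟩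
  rw [CV7_h1_eq N φ₀ N₀ f₀ h₀ m p₀ rfl, CV7_h1_eq N φ N₁ f₁ h₁ m p rfl]
  exact CV7_finrank_fiber_bot_le R _ p₀ p hk

theorem CV7_chi_eq (M : CMod C R) : M.chi = (M.h0 : ℤ) - M.h1 := rfl

/-- the Euler characteristic at any point is at most the Euler characteristic at the generic
point -/
theorem CV7_chi_le [IsDomain R]
    (hct : ∀ (L : Type u) [Field L] [Algebra K L] (M : CMod C L) (m : ℤ),
      (M.twist m).chi = M.chi + m * C.r)
    (hnn : ∀ (L : Type u) [Field L] [Algebra K L] (M : CMod C L), 0 < M.h0 → 0 ≤ M.deg)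
    (N : CMod C R) (φ₀ : R →ₐ[K] κ') (hφ₀ : Function.Injective φ₀)
    (N₀ : CMod C κ') (f₀ : Hom φ₀ N N₀) (h₀ : f₀.IsPullback) (φ : R →ₐ[K] κ) (N₁ : CMod C κ)
    (f₁ : Hom φ N N₁) (h₁ : f₁.IsPullback) : N₁.chi ≤ N₀.chi := by
  have hr : (1 : ℤ) ≤ C.r := by exact_mod_cast C.r_pos
  -- a very negative twist
  obtain ⟨m, hm₁, hm₀⟩ : ∃ m : ℤ, N₁.deg + m * C.r < 0 ∧ N₀.deg + m * C.r < 0 := by
    refine ⟨-(|N₁.deg| + |N₀.deg| + 1), ?_, ?_⟩
    · have h1 := le_abs_self N₁.deg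
      have h2 := abs_nonneg N₀.deg
      have h3 := abs_nonneg N₁.deg
      nlinarith
    · have h1 := le_abs_self N₀.deg
      have h2 := abs_nonneg N₀.deg
      have h3 := abs_nonneg N₁.deg
      nlinarith
  have key : ∀ (L : Type u) [Field L] [Algebra K L] (M : CMod C L), M.deg + m * C.r < 0 →
      M.chi + m * C.r = - ((M.twist m).h1 : ℤ) := by
    intro L _ _ M hM
    have hdeg : (M.twist m).deg = M.deg + m * C.r := by
      unfold deg
      rw [hct]
      ring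
    have hh0 : (M.twist m).h0 = 0 := by
      by_contra hne
      have := hnn L (M.twist m) (Nat.pos_of_ne_zero hne)
      omega
    rw [← hct, CV7_chi_eq, hh0]
    simp
  have hle := CV7_h1_le N φ₀ hφ₀ N₀ f₀ h₀ φ N₁ f₁ h₁ m
  have e₁ := key κ N₁ hm₁
  have e₀ := key κ' N₀ hm₀
  have : ((N₀.twist m).h1 : ℤ) ≤ (N₁.twist m).h1 := by exact_mod_cast hle
  linarith

/-- the degree at any point equals the degree at the generic point -/
theorem CV7_deg_eq [IsDomain R]
    (hct : ∀ (L : Type u) [Field L] [Algebra K L] (M : CMod C L) (m : ℤ),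
      (M.twist m).chi = M.chi + m * C.r)
    (hnn : ∀ (L : Type u) [Field L] [Algebra K L] (M : CMod C L), 0 < M.h0 → 0 ≤ M.deg)
    (hdual : ∀ (L : Type u) [Field L] [Algebra K L] (M : CMod C L), M.dual.deg = - M.deg)
    (hone : ∀ (L : Type u) [Field L] [Algebra K L], (one C L).chi = (one C K).chi)
    (N : CMod C R) (φ₀ : R →ₐ[K] κ') (hφ₀ : Function.Injective φ₀)
    (N₀ : CMod C κ') (f₀ : Hom φ₀ N N₀) (h₀ : f₀.IsPullback) (φ : R →ₐ[K] κ) (N₁ : CMod C κ)
    (f₁ : Hom φ N N₁) (h₁ : f₁.IsPullback) : N₁.deg = N₀.deg := by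
  have a := CV7_chi_le hct hnn N φ₀ hφ₀ N₀ f₀ h₀ φ N₁ f₁ h₁
  have b := CV7_chi_le hct hnn N.dual φ₀ hφ₀ N₀.dual (f₀.dual h₀) h₀.dual φ N₁.dual (f₁.dual h₁)
    h₁.dual
  have d₁ := hdual κ N₁
  have d₀ := hdual κ' N₀
  unfold deg at d₁ d₀ ⊢
  rw [hone κ] at d₁ ⊢
  rw [hone κ'] at d₀ ⊢
  linarith

/-- **CV-7** (`CMod.deg_const` of `Curve/Coh.lean`), with its black boxes as hypotheses:
`hct = chi_twist`, `hnn = deg_nonneg_of_h0_pos`, `hdual = deg_dual`, `hone = chi_one`,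
`hbc = exists_bc`. -/
theorem CV7_deg_const_of [IsDomain R]
    (hct : ∀ (L : Type u) [Field L] [Algebra K L] (M : CMod C L) (m : ℤ),
      (M.twist m).chi = M.chi + m * C.r)
    (hnn : ∀ (L : Type u) [Field L] [Algebra K L] (M : CMod C L), 0 < M.h0 → 0 ≤ M.deg)
    (hdual : ∀ (L : Type u) [Field L] [Algebra K L] (M : CMod C L), M.dual.deg = - M.deg)
    (hone : ∀ (L : Type u) [Field L] [Algebra K L], (one C L).chi = (one C K).chi)
    (hbc : ∀ (L : Type u) [Field L] [Algebra K L] (ψ : R →ₐ[K] L) (M : CMod C R),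
      ∃ (M' : CMod C L) (f : Hom ψ M M'), f.IsPullback)
    (N : CMod C R) (φ : R →ₐ[K] κ) (φ' : R →ₐ[K] κ') (N₁ : CMod C κ)
    (N₂ : CMod C κ') (f₁ : Hom φ N N₁) (f₂ : Hom φ' N N₂) (h₁ : f₁.IsPullback)
    (h₂ : f₂.IsPullback) : N₁.deg = N₂.deg := by
  obtain ⟨N₀, f₀, h₀⟩ := hbc (FractionRing R) (IsScalarTower.toAlgHom K R (FractionRing R)) N
  have hinj : Function.Injective (IsScalarTower.toAlgHom K R (FractionRing R)) :=
    IsFractionRing.injective R (FractionRing R)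
  rw [CV7_deg_eq hct hnn hdual hone N _ hinj N₀ f₀ h₀ φ N₁ f₁ h₁,
    CV7_deg_eq hct hnn hdual hone N _ hinj N₀ f₀ h₀ φ' N₂ f₂ h₂]

end CMod

end Fermat.Agent.S26
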