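/-
S26 / Curve / Coh : THE API of the cohomology of line bundles on `C_κ`, `κ ⊇ K` a field (block CV).
AGGREGATOR: the statements live in `Curve/CV0 … CV7` and `Alg/InvTensor`
(CV-0 the rings, CV-1 injectivity + finiteness, CV-2 twists, CV-3 colength formula, CV-4 sections,
CV-5 additivity of the degree, CV-6 extension of the base field, CV-7 constancy in families).
-/
import Fermat.Agent.S26.Curve.CohDefs
import Fermat.Agent.S26.Curve.HomOps
import Fermat.Agent.S26.Curve.CV0
import Fermat.Agent.S26.Curve.CV1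
import Fermat.Agent.S26.Curve.CV2
import Fermat.Agent.S26.Curve.CV3a
import Fermat.Agent.S26.Curve.CV3b
import Fermat.Agent.S26.Curve.CV4
import Fermat.Agent.S26.Curve.CV5
import Fermat.Agent.S26.Curve.CV6
import Fermat.Agent.S26.Curve.CV7
import Fermat.Agent.S26.Curve.Fam
import Fermat.Agent.S26.Alg.InvTensor

set_option autoImplicit false

open scoped TensorProduct

universe u

namespace Fermat.Agent.S26

variable {K : Type u} [Field K] [IsAlgClosed K]

namespace CMod

variable {C : Curve K} {R : Type u} [CommRing R] [Algebra K R]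
  {κ κ' : Type u} [Field κ] [Algebra K κ] [Field κ'] [Algebra K κ']

/-! ### CV-3 : the colength formula -/

theorem LHom.chi_eq {N N' : CMod C κ} (c : LHom N N') (h : c.f01 ≠ 0) :
    N'.chi = N.chi + dimOver κ (C.S0 κ) (N'.N0 ⧸ LinearMap.range c.f0) +
      dimOver κ (C.S1 κ) (N'.N1 ⧸ LinearMap.range c.f1) - dimOver κ (C.S01 κ) (N'.N01 ⧸ LinearMap.range c.f01) :=
  (c.CV3b_main (c.injective h) (c.finOver_coker h) N'.finite_H0).1

theorem LHom.chi_ge {N N' : CMod C κ} (c : LHom N N') (h : c.f01 ≠ 0) :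
    N.chi + dimOver κ (C.S0 κ) (N'.N0 ⧸ LinearMap.range c.f0) ≤ N'.chi ∧
      N.chi + dimOver κ (C.S1 κ) (N'.N1 ⧸ LinearMap.range c.f1) ≤ N'.chi :=
  (c.CV3b_main (c.injective h) (c.finOver_coker h) N'.finite_H0).2

/-! ### CV-7 : the degree is constant in a family over an integral base -/

theorem deg_const [IsDomain R] (N : CMod C R) (φ : R →ₐ[K] κ) (φ' : R →ₐ[K] κ') (N₁ : CMod C κ)
    (N₂ : CMod C κ') (f₁ : Hom φ N N₁) (f₂ : Hom φ' N N₂) (h₁ : f₁.IsPullback)
    (h₂ : f₂.IsPullback) : N₁.deg = N₂.deg :=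
  CV7_deg_const_of (fun _ _ _ => chi_twist) (fun _ _ _ => deg_nonneg_of_h0_pos)
    (fun _ _ _ => deg_dual) (fun L _ _ => chi_one L) (fun _ _ _ ψ M => exists_bc ψ M)
    N φ φ' N₁ N₂ f₁ f₂ h₁ h₂

end CMod

end Fermat.Agent.S26
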