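/-
S26 / Curve / Pic : the group of isomorphism classes of line bundles on `C × Spec R`.
Statements by helper26 (frozen, package PIC-0).
-/
import Fermat.Agent.S26.Curve.Coh

set_option autoImplicit false

open scoped TensorProduct

universe u

namespace Fermat.Agent.S26

variable {K : Type u} [Field K]

/-- isomorphism of line bundles as a setoid -/
def CMod.isoSetoid (C : Curve K) (R : Type u) [CommRing R] [Algebra K R] : Setoid (CMod C R) where
  r N N' := Nonempty (CMod.Iso N N')
  iseqv :=
    { refl := fun N => ⟨CMod.Iso.refl N⟩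
      symm := fun ⟨e⟩ => ⟨e.symm⟩
      trans := fun ⟨e⟩ ⟨e'⟩ => ⟨e.trans e'⟩ }

/-- the Picard group of `C × Spec R` -/
def Pic (C : Curve K) (R : Type u) [CommRing R] [Algebra K R] : Type (u + 1) :=
  Quotient (CMod.isoSetoid C R)

namespace CMod

variable {C : Curve K} {R : Type u} [CommRing R] [Algebra K R]

/-- the class of a line bundle -/
def cls (N : CMod C R) : Pic C R := Quotient.mk (CMod.isoSetoid C R) N

theorem cls_eq_iff {N N' : CMod C R} : N.cls = N'.cls ↔ Nonempty (Iso N N') :=
  Quotient.eq (r := CMod.isoSetoid C R)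

end CMod

namespace Pic

variable {C : Curve K} {R : Type u} [CommRing R] [Algebra K R]

theorem exists_rep (c : Pic C R) : ∃ N : CMod C R, N.cls = c := Quotient.exists_rep c

noncomputable instance : Add (Pic C R) where
  add := Quotient.map₂ CMod.tensor (fun _ _ ⟨e⟩ _ _ ⟨e'⟩ => ⟨e.tensor e'⟩)

noncomputable instance : Neg (Pic C R) where
  neg := Quotient.map CMod.dual (fun _ _ ⟨e⟩ => ⟨e.dual⟩)

noncomputable instance : Zero (Pic C R) where
  zero := (CMod.one C R).cls

theorem cls_tensor (N N' : CMod C R) : (N.tensor N').cls = N.cls + N'.cls := rfl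
theorem cls_dual (N : CMod C R) : N.dual.cls = - N.cls := rfl
theorem cls_one : (CMod.one C R).cls = 0 := rfl

noncomputable instance : AddCommGroup (Pic C R) where
  add_assoc := fun a b c => by
    induction a using Quotient.inductionOn with | _ a => ?_
    induction b using Quotient.inductionOn with | _ b => ?_
    induction c using Quotient.inductionOn with | _ c => ?_
    exact Quotient.sound (s := CMod.isoSetoid C R) ⟨CMod.tensorAssoc a b c⟩
  zero_add := fun a => by
    induction a using Quotient.inductionOn with | _ a => ?_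
    exact Quotient.sound (s := CMod.isoSetoid C R) ⟨CMod.oneTensor a⟩
  add_zero := fun a => by
    induction a using Quotient.inductionOn with | _ a => ?_
    exact Quotient.sound (s := CMod.isoSetoid C R)
      ⟨(CMod.tensorComm a (CMod.one C R)).trans (CMod.oneTensor a)⟩
  nsmul := nsmulRec
  zsmul := zsmulRec
  neg_add_cancel := fun a => by
    induction a using Quotient.inductionOn with | _ a => ?_
    exact Quotient.sound (s := CMod.isoSetoid C R) ⟨CMod.dualTensor a⟩
  add_comm := fun a b => by
    induction a using Quotient.inductionOn with | _ a => ?_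
    induction b using Quotient.inductionOn with | _ b => ?_
    exact Quotient.sound (s := CMod.isoSetoid C R) ⟨CMod.tensorComm a b⟩

/-- invariants of a class -/
noncomputable def h0 (c : Pic C R) : ℕ :=
  Quotient.lift (s := CMod.isoSetoid C R) CMod.h0 (fun _ _ ⟨e⟩ => e.h0_eq) c
noncomputable def h1 (c : Pic C R) : ℕ :=
  Quotient.lift (s := CMod.isoSetoid C R) CMod.h1 (fun _ _ ⟨e⟩ => e.h1_eq) c

theorem h0_cls (N : CMod C R) : h0 N.cls = N.h0 := rfl
theorem h1_cls (N : CMod C R) : h1 N.cls = N.h1 := rfl

end Pic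

namespace Pic

variable [IsAlgClosed K] {C : Curve K} {κ : Type u} [Field κ] [Algebra K κ]

/-- the degree homomorphism -/
noncomputable def deg : Pic C κ →+ ℤ where
  toFun := Quotient.lift (s := CMod.isoSetoid C κ) CMod.deg (fun _ _ ⟨e⟩ => e.deg_eq)
  map_zero' := CMod.deg_one
  map_add' := fun a b => by
    induction a using Quotient.inductionOn with | _ a => ?_
    induction b using Quotient.inductionOn with | _ b => ?_
    exact CMod.deg_tensor a b

theorem deg_cls (N : CMod C κ) : deg N.cls = N.deg := rfl

/-- Riemann-Roch as a definition: `h⁰ - h¹ = deg + χ(O)` -/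
theorem h0_sub_h1 (c : Pic C κ) : (h0 c : ℤ) - h1 c = deg c + (CMod.one C K).chi := by
  obtain ⟨N, rfl⟩ := exists_rep c
  rw [h0_cls, h1_cls, deg_cls, CMod.deg, CMod.chi_one, sub_add_cancel]
  rfl

theorem deg_nonneg_of_h0_pos (c : Pic C κ) (h : 0 < h0 c) : 0 ≤ deg c := by
  obtain ⟨N, rfl⟩ := exists_rep c
  exact CMod.deg_nonneg_of_h0_pos N h

theorem eq_zero_of_deg_eq_zero (c : Pic C κ) (hd : deg c = 0) (h : 0 < h0 c) : c = 0 := by
  obtain ⟨N, rfl⟩ := exists_rep c
  obtain ⟨e⟩ := CMod.iso_one_of_deg_eq_zero N hd h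
  exact CMod.cls_eq_iff.2 ⟨e.symm⟩

theorem h0_zero : h0 (0 : Pic C κ) = 1 := CMod.h0_one κ

end Pic

end Fermat.Agent.S26
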